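import Fermat.Agent.LT.Base.BallInt
import Fermat.Agent.LT.Base.Radial
import Fermat.Agent.LT.Descent.Kernel.InvKer

set_option autoImplicit false

/-!
# Radial kernels on functions of the height

A radial kernel `k (coshDist P Q)` acts on a function of the height through its tail
`∫_{X > cosh y} k X`; it acts on functions of spherical parameter `0` by the value it takes on the
height itself.
-/

noncomputable section

open MeasureTheory Set Filter Complex
open scoped Topology ENNReal

namespace FermatAgent.LT.H3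

/-- The invariant kernel of a radial profile. -/
def radKer (k : ℝ → ℝ) (P Q : H3) : ℂ := (k (coshDist P Q) : ℂ)

/-- The integral of a profile over a half line. -/
def tailInt (k : ℝ → ℝ) (c : ℝ) : ℝ := ∫ X in Ioi c, k X

/-- A bounded measurable profile supported below `cosh R`. -/
structure IsProfile (k : ℝ → ℝ) (R : ℝ) : Prop where
  nonneg : 0 ≤ R
  measurable : Measurable k
  bounded : ∃ C, ∀ X, |k X| ≤ C
  supp : ∀ X, Real.cosh R < X → k X = 0

theorem measurable_coshDist_right (P : H3) : Measurable fun Q : H3 => coshDist P Q :=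
  measurable_coshDist_pair.comp (measurable_const.prodMk measurable_id)

theorem mem_ball_iff (P Q : H3) (R : ℝ) : Q ∈ ball P R ↔ coshDist P Q ≤ Real.cosh R := Iff.rfl

theorem measurableSet_ball (P : H3) (R : ℝ) : MeasurableSet (ball P R) :=
  measurable_coshDist_right P measurableSet_Iic

theorem isInvKer_radKer {k : ℝ → ℝ} {R : ℝ} (hk : IsProfile k R) : IsInvKer (radKer k) where
  measurable := Complex.measurable_ofReal.comp (hk.measurable.comp measurable_coshDist_pair)
  bounded := by
    obtain ⟨C, hC⟩ := hk.bounded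
    exact ⟨C, fun P Q => by simpa [radKer] using hC _⟩
  supp := ⟨Real.cosh R, fun P Q h => by
    by_contra hc
    exact h (by rw [radKer, hk.supp _ (lt_of_not_ge hc), Complex.ofReal_zero])⟩
  inv g P Q := by rw [radKer, radKer, coshDist_inv]
  conjInv P Q := by rw [radKer, radKer, coshDist_conj]

theorem radKer_eq_indicator {k : ℝ → ℝ} {R : ℝ} (hk : IsProfile k R) (P Q : H3) :
    radKer k P Q = (ball P R).indicator (radKer k P) Q := by
  by_cases h : Q ∈ ball P R
  · rw [indicator_of_mem h]
  · rw [indicator_of_notMem h, radKer, hk.supp _ (lt_of_not_ge h), Complex.ofReal_zero]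

theorem integral_comp_normSq (g : ℝ → ℂ) :
    ∫ ζ : ℂ, g (Complex.normSq ζ) = (Real.pi : ℂ) * ∫ u in Ioi (0 : ℝ), g u := by
  rw [← Complex.integral_comp_polarCoord_symm (f := fun ζ => g (Complex.normSq ζ)),
    polarCoord_target]
  have hset : MeasurableSet (Ioi (0 : ℝ) ×ˢ Ioo (-Real.pi) Real.pi) :=
    measurableSet_Ioi.prod measurableSet_Ioo
  have he : ∀ p ∈ Ioi (0 : ℝ) ×ˢ Ioo (-Real.pi) Real.pi,
      p.1 • g (Complex.normSq (Complex.polarCoord.symm p)) =
        (p.1 • g (p.1 ^ 2)) * (fun _ : ℝ => (1 : ℂ)) p.2 := fun p hp => by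
    have : ‖Complex.polarCoord.symm p‖ = |p.1| := Complex.norm_polarCoord_symm p
    rw [Complex.normSq_eq_norm_sq, this, sq_abs, mul_one]
  rw [setIntegral_congr_fun hset he, Measure.volume_eq_prod,
    setIntegral_prod_mul (fun r : ℝ => r • g (r ^ 2)) (fun _ => (1 : ℂ))]
  have h2 := integral_comp_rpow_Ioi_of_pos (g := g) (p := 2) two_pos
  have e2 : ∀ r ∈ Ioi (0 : ℝ), ((2 : ℝ) * r ^ ((2 : ℝ) - 1)) • g (r ^ (2 : ℝ)) =
      (2 : ℝ) • (r • g (r ^ 2)) := fun r _ => by
    rw [show (2 : ℝ) - 1 = 1 by norm_num, Real.rpow_one, Real.rpow_two, mul_smul]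
  rw [setIntegral_congr_fun measurableSet_Ioi e2, integral_smul] at h2
  rw [← h2, setIntegral_const, Measure.real, Real.volume_Ioo,
    ENNReal.toReal_ofReal (by linarith [Real.pi_pos]), Complex.real_smul, Complex.real_smul]
  push_cast
  ring

/-- The integral over a horizontal plane. -/
theorem integral_slice {k : ℝ → ℝ} (t s c : ℝ) (hts : 0 < 2 * t * s) (z : ℂ) :
    ∫ ζ : ℂ, (k (c + Complex.normSq (z - ζ) / (2 * t * s)) : ℂ) =
      ((2 * Real.pi * t * s * tailInt k c : ℝ) : ℂ) := by
  rw [integral_sub_left_eq_self (fun ζ : ℂ => (k (c + Complex.normSq ζ / (2 * t * s)) : ℂ))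
      volume z,
    integral_comp_normSq (fun u => (k (c + u / (2 * t * s)) : ℂ)), integral_complex_ofReal]
  have h1 : ∫ u in Ioi (0 : ℝ), k (c + u / (2 * t * s)) = 2 * t * s * tailInt k c := by
    have h2 := integral_comp_mul_left_Ioi (fun v => k (c + v)) 0 (inv_pos.2 hts)
    rw [mul_zero, inv_inv, smul_eq_mul] at h2
    rw [setIntegral_congr_fun measurableSet_Ioi (fun u _ => by
      show k (c + u / (2 * t * s)) = k (c + (2 * t * s)⁻¹ * u); rw [inv_mul_eq_div]), h2,
      tailInt, ← (measurePreserving_add_left volume c).setIntegral_preimage_emb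
        (measurableEmbedding_addLeft c) k (Ioi c)]
    simp
  rw [h1]
  push_cast
  ring

theorem coshDist_eq_hpt (P : H3) (y : ℝ) (z : ℂ) (Q : H3) (hz : Q.z = z)
    (ht : Q.t = P.t * Real.exp y) :
    coshDist P Q = Real.cosh y + Complex.normSq (P.z - z) / (2 * P.t * (P.t * Real.exp y)) := by
  have := P.t_pos
  have := Real.exp_pos y
  rw [coshDist, hz, ht, Real.cosh_eq, Real.exp_neg]
  field_simp
  ring

theorem integral_radKer_height {k : ℝ → ℝ} {R : ℝ} (hk : IsProfile k R) {f : ℝ → ℂ}
    (hf : Measurable f) (hfb : ∀ a b : ℝ, 0 < a → ∃ C, ∀ s ∈ Icc a b, ‖f s‖ ≤ C) (P : H3) :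
    ∫ Q, radKer k P Q * f Q.t ∂vol = ∫ y : ℝ,
      ((2 * Real.pi * Real.exp (-y) * tailInt k (Real.cosh y) : ℝ) : ℂ) *
        f (P.t * Real.exp y) := by
  have ht := P.t_pos
  set U : Set (ℂ × ℝ) := univ ×ˢ Ioi 0 with hU
  have hUm : MeasurableSet U := MeasurableSet.univ.prod measurableSet_Ioi
  let F : ℂ × ℝ → ℂ := fun p =>
    (((p.2 ^ 3)⁻¹ : ℝ) : ℂ) *
      ((k (1 + (Complex.normSq (P.z - p.1) + (P.t - p.2) ^ 2) / (2 * P.t * p.2)) : ℂ) * f p.2)
  have hFm : Measurable F := by
    refine (Complex.measurable_ofReal.comp ((measurable_snd.pow_const 3).inv)).mul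
      ((Complex.measurable_ofReal.comp (hk.measurable.comp ?_)).mul (hf.comp measurable_snd))
    fun_prop
  -- to coordinates
  have h1 : ∫ Q, radKer k P Q * f Q.t ∂vol = ∫ p, U.indicator F p := by
    have hrange : range coords = U := by
      rw [range_coords]; ext p; simp [hU]
    have h := measurableEmbedding_coords.integral_map (μ := vol) (fun p : ℂ × ℝ =>
      (k (1 + (Complex.normSq (P.z - p.1) + (P.t - p.2) ^ 2) / (2 * P.t * p.2)) : ℂ) * f p.2)
    rw [show (fun Q => radKer k P Q * f Q.t) = fun Q : H3 =>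
      (k (1 + (Complex.normSq (P.z - (coords Q).1) + (P.t - (coords Q).2) ^ 2) /
        (2 * P.t * (coords Q).2)) : ℂ) * f (coords Q).2 from rfl, ← h, vol,
      measurableEmbedding_coords.map_comap, hrange,
      setIntegral_withDensity_eq_setIntegral_toReal_smul (by fun_prop)
        (Eventually.of_forall fun _ => ENNReal.ofReal_lt_top) _ hUm, integral_indicator hUm]
    refine setIntegral_congr_fun hUm fun p hp => ?_
    have hp2 : 0 < p.2 := hp.2
    simp only [F, ENNReal.toReal_ofReal (inv_nonneg.mpr (pow_nonneg hp2.le 3)), Complex.real_smul]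
  -- compact support
  set S := ballSet P R with hS
  have hSc := isCompact_ballSet P R
  have hsupp : ∀ p, p ∉ S → U.indicator F p = 0 := by
    intro p hp
    by_cases hpU : p ∈ U
    · rw [indicator_of_mem hpU]
      let Q : H3 := ⟨p.1, p.2, hpU.2⟩
      have hQ : Q ∉ ball P R := fun hc => hp (by
        have : Q ∈ coords ⁻¹' S := by rw [hS, preimage_ballSet P hk.nonneg]; exact hc
        exact this)
      simp only [F]
      rw [show (1 + (Complex.normSq (P.z - p.1) + (P.t - p.2) ^ 2) / (2 * P.t * p.2)) =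
        coshDist P Q from rfl, hk.supp _ (lt_of_not_ge hQ)]
      simp
    · exact indicator_of_notMem hpU _
  obtain ⟨C, hC⟩ := hk.bounded
  obtain ⟨D, hD⟩ := hfb _ (P.t * Real.exp R) (mul_pos ht (Real.exp_pos (-R)))
  have hint : Integrable (U.indicator F) := by
    refine (integrableOn_iff_integrable_of_support_subset (s := S)
      (fun p hp => by_contra fun h => hp (hsupp p h))).1 ?_
    refine IntegrableOn.of_bound hSc.measure_lt_top
      (hFm.indicator hUm).aestronglyMeasurable
      (((P.t * Real.exp (-R)) ^ 3)⁻¹ * (C * D)) ?_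
    refine (ae_restrict_iff' hSc.measurableSet).2 (Eventually.of_forall fun p hp => ?_)
    have hlo : 0 < P.t * Real.exp (-R) := mul_pos ht (Real.exp_pos _)
    have hp2 : 0 < p.2 := hlo.trans_le hp.1.1
    rw [indicator_of_mem (show p ∈ U from ⟨trivial, hp2⟩), norm_mul, norm_mul, Complex.norm_real,
      Complex.norm_real, Real.norm_eq_abs, Real.norm_eq_abs,
      abs_of_pos (inv_pos.2 (pow_pos hp2 3))]
    refine mul_le_mul (inv_anti₀ (pow_pos hlo 3) (pow_le_pow_left₀ hlo.le hp.1.1 3))
      (mul_le_mul (hC _) (hD _ hp.1) (norm_nonneg _) ((abs_nonneg _).trans (hC 0)))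
      (by positivity) (by positivity)
  rw [h1]
  rw [Measure.volume_eq_prod] at hint ⊢
  rw [integral_prod_symm _ hint]
  set Φ : ℝ → ℂ := fun s => ∫ z : ℂ, F (z, s) with hΦ
  have hsec : ∀ s : ℝ, ∫ z : ℂ, U.indicator F (z, s) = (Ioi (0 : ℝ)).indicator Φ s := by
    intro s
    by_cases hs : 0 < s
    · rw [indicator_of_mem (mem_Ioi.2 hs), hΦ]
      exact integral_congr_ae (Eventually.of_forall fun z => indicator_of_mem
        (show (z, s) ∈ U from ⟨trivial, hs⟩) _)
    · rw [indicator_of_notMem (by simpa using hs)]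
      refine (integral_congr_ae (Eventually.of_forall fun z => indicator_of_notMem ?_ _)).trans
        (integral_zero _ _)
      exact fun h => hs h.2
  simp only [hsec]
  rw [integral_indicator measurableSet_Ioi]
  have himg : (fun y => P.t * Real.exp y) '' univ = Ioi 0 := by
    rw [image_univ, show (fun y => P.t * Real.exp y) = (fun x => P.t * x) ∘ Real.exp from rfl,
      range_comp, Real.range_exp, image_mul_left_Ioi ht, mul_zero]
  rw [← himg, integral_image_eq_integral_abs_deriv_smul MeasurableSet.univ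
    (fun x _ => ((Real.hasDerivAt_exp x).const_mul P.t).hasDerivWithinAt)
    (fun a _ b _ h => Real.exp_injective (mul_left_cancel₀ ht.ne' h)), setIntegral_univ]
  refine integral_congr_ae (Eventually.of_forall fun y => ?_)
  have he := Real.exp_pos y
  have hts : 0 < 2 * P.t * (P.t * Real.exp y) := by positivity
  have hsl : ∫ z : ℂ, F (z, P.t * Real.exp y) =
      ((((P.t * Real.exp y) ^ 3)⁻¹ : ℝ) : ℂ) *
        (((2 * Real.pi * P.t * (P.t * Real.exp y) * tailInt k (Real.cosh y) : ℝ) : ℂ) *
          f (P.t * Real.exp y)) := by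
    rw [← integral_slice P.t _ _ hts P.z, ← integral_mul_const, ← integral_const_mul]
    refine integral_congr_ae (Eventually.of_forall fun z => ?_)
    simp only [F]
    rw [← coshDist_eq_hpt P y z ⟨z, P.t * Real.exp y, mul_pos ht he⟩ rfl rfl]
    rfl
  show |P.t * Real.exp y| • Φ (P.t * Real.exp y) = _
  rw [hΦ]
  simp only [hsl, Complex.real_smul, abs_of_pos (mul_pos ht he)]
  rw [Real.exp_neg, ← mul_assoc, ← mul_assoc, ← Complex.ofReal_mul, ← Complex.ofReal_mul]
  congr 2
  field_simp

end FermatAgent.LT.H3
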