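import Fermat.Agent.LT.General.Annihilator.Abel
import Fermat.Agent.LT.Descent.Kernel.Conv
import Fermat.Agent.LT.Descent.Spectral.Continuity

set_option autoImplicit false

/-!
# The shifted ball kernel

`shiftProf ε a` is the radial profile whose operator is, on functions of the height, the ball
operator followed by the symmetric shift `f ↦ e^a f (e^(-a) ·) + e^(-a) f (e^a ·)`; on functions of
spherical parameter `0` it is twice the ball operator.
-/

noncomputable section

open MeasureTheory Set Filter Complex
open scoped Topology ENNReal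

namespace FermatAgent.LT.H3

open SecondDiff (wgt)

/-- The profile of the ball. -/
def ballProf (ε : ℝ) : ℝ → ℝ := (Iic (Real.cosh ε)).indicator fun _ => 1

theorem isProfile_ballProf {ε : ℝ} (hε : 0 ≤ ε) : IsProfile (ballProf ε) ε where
  nonneg := hε
  measurable := measurable_const.indicator measurableSet_Iic
  bounded := ⟨1, fun X => by unfold ballProf; by_cases h : X ∈ Iic (Real.cosh ε) <;> simp [h]⟩
  supp X h := indicator_of_notMem (by simpa using h) _

theorem radKer_ballProf (ε : ℝ) (P Q : H3) : radKer (ballProf ε) P Q = ballKer ε P Q := by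
  unfold radKer ballProf ballKer
  by_cases h : coshDist P Q ≤ Real.cosh ε
  · rw [indicator_of_mem (show coshDist P Q ∈ Iic _ from h),
      indicator_of_mem (show Q ∈ ball P ε from h), Complex.ofReal_one]
  · rw [indicator_of_notMem (show coshDist P Q ∉ Iic _ from h),
      indicator_of_notMem (show Q ∉ ball P ε from h), Complex.ofReal_zero]

theorem tailInt_ballProf (ε c : ℝ) : tailInt (ballProf ε) c = max (Real.cosh ε - c) 0 := by
  rw [tailInt, ballProf, setIntegral_indicator measurableSet_Iic, Ioi_inter_Iic, setIntegral_const,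
    Measure.real, Real.volume_Ioc, smul_eq_mul, mul_one, ENNReal.toReal_ofReal']

/-- Radial kernels agree on a function if their profiles have the same integral over all balls. -/
theorem integral_radKer_eq_zero {ψ : H3 → ℂ} {P : H3} {R : ℝ} {k : ℝ → ℝ} (hk : IsProfile k R)
    (hψ : IntegrableOn ψ (ball P R) vol)
    (hballs : ∀ r, 0 ≤ r → r ≤ R → ∫ Q in ball P r, ψ Q ∂vol = 0) :
    ∫ Q, radKer k P Q * ψ Q ∂vol = 0 := by
  set X : H3 → ℝ := fun Q => coshDist P Q with hX
  have hXm : Measurable X := measurable_coshDist_right P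
  set μ := vol.restrict (ball P R) with hμ
  have hR0 := hk.nonneg
  have hall : ∫ Q, ψ Q ∂μ = 0 := hballs R hk.nonneg le_rfl
  -- Borel sets of radii
  have hsets : ∀ s : Set ℝ, MeasurableSet s → ∫ Q in X ⁻¹' s, ψ Q ∂μ = 0 := by
    intro s hs
    induction s, hs using MeasurableSpace.induction_on_inter
      (borel_eq_generateFrom_Iic ℝ) isPiSystem_Iic with
    | empty => simp
    | basic t ht =>
      obtain ⟨c, rfl⟩ := ht
      rw [hμ, Measure.restrict_restrict (hXm measurableSet_Iic)]
      rcases lt_or_ge c 1 with h | h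
      · have he : X ⁻¹' Iic c ∩ ball P R = ∅ := eq_empty_of_forall_notMem fun Q hQ =>
          absurd (coshDist_ge_one P Q) (not_le.2 ((show X Q ≤ c from hQ.1).trans_lt h))
        simp [he]
      · rcases le_or_gt c (Real.cosh R) with hc | hc
        · have he : X ⁻¹' Iic c ∩ ball P R = ball P (Real.arcosh c) := by
            ext Q
            simp only [hX, Set.mem_inter_iff, Set.mem_preimage, Set.mem_Iic, mem_ball_iff,
              Real.cosh_arcosh h]
            exact ⟨fun hh => hh.1, fun hh => ⟨hh, hh.trans hc⟩⟩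
          rw [he]
          refine hballs _ (Real.arcosh_nonneg h) ?_
          have := Real.cosh_le_cosh.1 ((Real.cosh_arcosh h).le.trans hc)
          rwa [abs_of_nonneg (Real.arcosh_nonneg h), abs_of_nonneg hR0] at this
        · rw [show X ⁻¹' Iic c ∩ ball P R = ball P R from inter_eq_right.2
            (show ball P R ⊆ X ⁻¹' Iic c from
              fun Q hQ => (show X Q ≤ Real.cosh R from hQ).trans hc.le)]
          exact hballs R hk.nonneg le_rfl
    | compl t ht ih =>
      rw [preimage_compl, setIntegral_compl (hXm ht) hψ, hall, ih, sub_zero]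
    | iUnion t hd ht ih =>
      rw [preimage_iUnion, integral_iUnion (fun i => hXm (ht i))
        (fun i j hij => (hd hij).preimage X) hψ.integrableOn, tsum_congr ih, tsum_zero]
  -- simple profiles
  have hsimple : ∀ g : SimpleFunc ℝ ℝ, ∫ Q, (g (X Q) : ℂ) * ψ Q ∂μ = 0 := by
    intro g
    induction g using SimpleFunc.induction with
    | const c hs =>
      rename_i s
      have e : (fun Q => ((SimpleFunc.piecewise s hs (SimpleFunc.const ℝ c) (SimpleFunc.const ℝ 0))
          (X Q) : ℂ) * ψ Q) = (X ⁻¹' s).indicator fun Q => (c : ℂ) * ψ Q := by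
        funext Q
        by_cases h : X Q ∈ s
        · simp [h]
        · simp [h]
      rw [e, integral_indicator (hXm hs), integral_const_mul, hsets s hs, mul_zero]
    | add hfg hf hg =>
      rename_i f g
      have hbd : ∀ h : SimpleFunc ℝ ℝ, Integrable (fun Q => (h (X Q) : ℂ) * ψ Q) μ := fun h => by
        obtain ⟨C, hC⟩ := h.exists_forall_norm_le
        exact hψ.bdd_mul (c := C) (Complex.measurable_ofReal.comp (h.measurable.comp hXm)).aestronglyMeasurable
          (Eventually.of_forall fun Q => by simpa using hC (X Q))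
      simp only [SimpleFunc.coe_add, Pi.add_apply, Complex.ofReal_add, add_mul]
      rw [integral_add (hbd f) (hbd g), hf, hg, add_zero]
  obtain ⟨C, hC⟩ := hk.bounded
  have hC0 : 0 ≤ C := (abs_nonneg _).trans (hC 0)
  have hks := hk.measurable.stronglyMeasurable
  have hlim : Tendsto (fun n => ∫ Q, ((hks.approxBounded C n) (X Q) : ℂ) * ψ Q ∂μ) atTop
      (𝓝 (∫ Q, (k (X Q) : ℂ) * ψ Q ∂μ)) := by
    refine tendsto_integral_of_dominated_convergence (fun Q => C * ‖ψ Q‖) (fun n => ?_)
      (hψ.norm.const_mul C) (fun n => Eventually.of_forall fun Q => ?_)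
      (Eventually.of_forall fun Q => ?_)
    · exact (Complex.measurable_ofReal.comp
        ((hks.approxBounded C n).measurable.comp hXm)).aestronglyMeasurable.mul
          hψ.aestronglyMeasurable
    · rw [norm_mul, Complex.norm_real]
      exact mul_le_mul_of_nonneg_right (hks.norm_approxBounded_le hC0 n _) (norm_nonneg _)
    · exact ((Complex.continuous_ofReal.tendsto _).comp
        (hks.tendsto_approxBounded_of_norm_le (hC (X Q)))).mul_const _
  simp only [hsimple] at hlim
  rw [← setIntegral_eq_integral_of_forall_compl_eq_zero (s := ball P R)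
    (f := fun Q => radKer k P Q * ψ Q) fun Q hQ => by
      rw [radKer_eq_indicator hk, indicator_of_notMem hQ, zero_mul]]
  exact (tendsto_nhds_unique tendsto_const_nhds hlim).symm

/-- The integral of the height over a ball. -/
theorem integral_ball_height {ε : ℝ} (hε : 0 ≤ ε) (P : H3) :
    ∫ Q in ball P ε, (Q.t : ℂ) ∂vol = (sph0 ε : ℂ) * (P.t : ℂ) := by
  have h := integral_radKer_height (isProfile_ballProf hε) (f := fun s : ℝ => (s : ℂ))
    Complex.measurable_ofReal (fun a b ha => ⟨b, fun s hs => by
      rw [Complex.norm_real, Real.norm_of_nonneg (ha.le.trans hs.1)]; exact hs.2⟩) P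
  simp only [radKer_ballProf] at h
  rw [integral_ballKer_mul] at h
  rw [h, sph0_eq]
  have e : ∀ y : ℝ, ((2 * Real.pi * Real.exp (-y) * tailInt (ballProf ε) (Real.cosh y) : ℝ) : ℂ) *
      ((P.t * Real.exp y : ℝ) : ℂ) =
        (((Icc (-ε) ε).indicator (fun y => 2 * Real.pi * wgt ε y) y * P.t : ℝ) : ℂ) := fun y => by
    rw [← Complex.ofReal_mul, tailInt_ballProf]
    congr 1
    have he : Real.exp (-y) * Real.exp y = 1 := by
      rw [← Real.exp_add, neg_add_cancel, Real.exp_zero]
    by_cases hy : |y| ≤ ε
    · rw [indicator_of_mem (show y ∈ Icc (-ε) ε from abs_le.1 hy),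
        max_eq_left (show 0 ≤ Real.cosh ε - Real.cosh y from SecondDiff.wgt_nonneg hy), wgt]
      linear_combination (2 * Real.pi * (Real.cosh ε - Real.cosh y) * P.t) * he
    · rw [indicator_of_notMem (show y ∉ Icc (-ε) ε from fun hc => hy (abs_le.2 hc)), max_eq_right]
      · simp
      · have := Real.cosh_le_cosh.2 (show |ε| ≤ |y| by rw [abs_of_nonneg hε]; exact (not_le.1 hy).le)
        linarith
  simp only [e]
  rw [integral_complex_ofReal, integral_mul_const, integral_indicator measurableSet_Icc,
    integral_const_mul, intervalIntegral.integral_of_le (by linarith),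
    integral_Icc_eq_integral_Ioc]
  push_cast
  ring

/-- The shifted ball profile. -/
def shiftProf (ε a : ℝ) (X : ℝ) : ℝ :=
  if X ≤ Real.cosh (ε - |a|) then 2 * Real.cosh a
  else if X ≤ Real.cosh (ε + |a|) then Real.cosh a - Real.sinh |a| * X / Real.sqrt (X ^ 2 - 1)
  else 0

theorem isProfile_shiftProf {ε a : ℝ} (h : |a| < ε) :
    IsProfile (shiftProf ε a) (ε + |a|) := by
  have h0 : 0 ≤ |a| := abs_nonneg a
  have h1 : 1 < Real.cosh (ε - |a|) := Real.one_lt_cosh.2 (by linarith)
  refine ⟨by linarith, ?_, ?_, fun X hX => ?_⟩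
  · unfold shiftProf
    refine Measurable.ite measurableSet_Iic measurable_const
      (Measurable.ite measurableSet_Iic ?_ measurable_const)
    fun_prop
  · set c := Real.cosh (ε - |a|)
    set D := Real.cosh (ε + |a|) / Real.sqrt (c ^ 2 - 1)
    have hq : 0 < Real.sqrt (c ^ 2 - 1) := Real.sqrt_pos.2 (by nlinarith)
    refine ⟨2 * Real.cosh a + Real.sinh |a| * D, fun X => ?_⟩
    have hs := Real.sinh_nonneg_iff.2 h0
    have hc := Real.cosh_pos a
    have hD : 0 ≤ D := div_nonneg (Real.cosh_pos _).le hq.le
    unfold shiftProf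
    split_ifs with hX hX'
    · rw [abs_of_pos (by positivity)]
      nlinarith [mul_nonneg hs hD]
    · have hX1 : c < X := lt_of_not_ge hX
      have hq' : Real.sqrt (c ^ 2 - 1) ≤ Real.sqrt (X ^ 2 - 1) :=
        Real.sqrt_le_sqrt (by nlinarith)
      have hle : X / Real.sqrt (X ^ 2 - 1) ≤ D :=
        div_le_div₀ (Real.cosh_pos _).le hX' hq hq'
      have hge : 0 ≤ X / Real.sqrt (X ^ 2 - 1) :=
        div_nonneg (by linarith) (Real.sqrt_nonneg _)
      rw [mul_div_assoc, abs_le]
      constructor <;> nlinarith [mul_le_mul_of_nonneg_left hle hs, mul_nonneg hs hge]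
    · simp only [abs_zero]
      positivity
  · unfold shiftProf
    have hlt : Real.cosh (ε - |a|) < X := lt_of_le_of_lt (Real.cosh_le_cosh.2 (by
      rw [abs_of_pos (by linarith : 0 < ε - |a|), abs_of_nonneg (by linarith : 0 ≤ ε + |a|)]
      linarith)) hX
    rw [if_neg (not_le.2 hlt), if_neg (not_le.2 hX)]

theorem intervalIntegrable_shiftProf {ε a : ℝ} (h : |a| < ε) (x y : ℝ) :
    IntervalIntegrable (shiftProf ε a) volume x y := by
  obtain ⟨C, hC⟩ := (isProfile_shiftProf h).bounded
  exact IntervalIntegrable.mono_fun' (g := fun _ => C) intervalIntegrable_const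
    (isProfile_shiftProf h).measurable.aestronglyMeasurable
    (Eventually.of_forall fun X => hC X)

theorem hasDerivAt_mid (a X : ℝ) (hX : 1 < X) :
    HasDerivAt (fun X => Real.cosh a * X - Real.sinh |a| * Real.sqrt (X ^ 2 - 1))
      (Real.cosh a - Real.sinh |a| * X / Real.sqrt (X ^ 2 - 1)) X := by
  have hpos : 0 < X ^ 2 - 1 := by nlinarith
  have h2 := ((hasDerivAt_pow 2 X).sub_const 1).sqrt hpos.ne'
  refine (((hasDerivAt_id' X).const_mul (Real.cosh a)).sub
    (h2.const_mul (Real.sinh |a|))).congr_deriv ?_
  have hq := (Real.sqrt_pos.2 hpos).ne'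
  field_simp
  push_cast
  ring

theorem mid_cosh (a : ℝ) {r : ℝ} (hr : 0 ≤ r) :
    Real.cosh a * Real.cosh r - Real.sinh |a| * Real.sqrt (Real.cosh r ^ 2 - 1) =
      Real.cosh (r - |a|) := by
  have : Real.cosh r ^ 2 - 1 = Real.sinh r ^ 2 := by rw [Real.cosh_sq r]; ring
  rw [this, Real.sqrt_sq (Real.sinh_nonneg_iff.2 hr), Real.cosh_sub, Real.cosh_abs]
  ring

/-- The tail of the shifted profile. -/
theorem tailInt_shiftProf {ε a : ℝ} (h : |a| < ε) (y : ℝ) :
    tailInt (shiftProf ε a) (Real.cosh y) =
      max (Real.cosh ε - Real.cosh (y + a)) 0 + max (Real.cosh ε - Real.cosh (y - a)) 0 := by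
  have hε : 0 < ε := (abs_nonneg a).trans_lt h
  have main : ∀ y, 0 ≤ y → ∀ b, b = |a| → tailInt (shiftProf ε a) (Real.cosh y) =
      max (Real.cosh ε - Real.cosh (y + b)) 0 + max (Real.cosh ε - Real.cosh (y - b)) 0 := by
    intro y hy b hb
    have hb0 : 0 ≤ b := hb ▸ abs_nonneg a
    rw [← hb] at h
    have hcc : ∀ u v : ℝ, |u| ≤ |v| → Real.cosh u ≤ Real.cosh v := fun u v => Real.cosh_le_cosh.2
    have habs : ∀ u : ℝ, 0 ≤ u → |u| = u := fun u => abs_of_nonneg
    have hzero : ∀ X, Real.cosh (ε + b) < X → shiftProf ε a X = 0 := fun X hX =>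
      (isProfile_shiftProf (hb ▸ h)).supp X (hb ▸ hX)
    by_cases hout : ε + b ≤ y
    · have h1 : tailInt (shiftProf ε a) (Real.cosh y) = 0 := by
        refine setIntegral_eq_zero_of_forall_eq_zero fun X hX => hzero X ?_
        exact (hcc _ _ (by rw [habs _ (by linarith), habs _ hy]; exact hout)).trans_lt hX
      rw [h1, max_eq_right, max_eq_right, add_zero] <;>
        · rw [sub_nonpos]
          refine hcc _ _ ?_
          rw [habs _ hε.le, habs _ (by linarith)]
          linarith
    rw [not_le] at hout
    have hle : Real.cosh y ≤ Real.cosh (ε + b) :=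
      hcc _ _ (by rw [habs _ hy, habs _ (by linarith)]; exact hout.le)
    have htail : tailInt (shiftProf ε a) (Real.cosh y) =
        ∫ X in Real.cosh y..Real.cosh (ε + b), shiftProf ε a X := by
      rw [intervalIntegral.integral_of_le hle, tailInt]
      exact (setIntegral_eq_of_subset_of_forall_sdiff_eq_zero measurableSet_Ioi
        Ioc_subset_Ioi_self fun X hX => hzero X (lt_of_not_ge fun hc => hX.2 ⟨hX.1, hc⟩))
    have hmid : ∀ r, ε - b ≤ r → r ≤ ε + b →
        ∫ X in Real.cosh r..Real.cosh (ε + b), shiftProf ε a X =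
          Real.cosh ε - Real.cosh (r - b) := by
      intro r hr hr'
      have hr0 : 0 < r := by linarith
      have hlo : Real.cosh r ≤ Real.cosh (ε + b) :=
        hcc _ _ (by rw [habs _ hr0.le, habs _ (by linarith)]; exact hr')
      have hc1 : 1 < Real.cosh r := Real.one_lt_cosh.2 hr0.ne'
      rw [intervalIntegral.integral_congr_ae (g := fun X =>
        Real.cosh a - Real.sinh |a| * X / Real.sqrt (X ^ 2 - 1)) (Eventually.of_forall fun X hX => by
          rw [uIoc_of_le hlo] at hX
          have h1 : Real.cosh (ε - b) < X := lt_of_le_of_lt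
            (hcc _ _ (by rw [habs _ (by linarith), habs _ hr0.le]; exact hr)) hX.1
          rw [hb] at h1 hX
          rw [shiftProf, if_neg (not_le.2 h1), if_pos hX.2])]
      rw [intervalIntegral.integral_eq_sub_of_hasDerivAt
          (f := fun X => Real.cosh a * X - Real.sinh |a| * Real.sqrt (X ^ 2 - 1))
          (fun X hX => hasDerivAt_mid a X (by
            rw [uIcc_of_le hlo] at hX; exact hc1.trans_le hX.1))
          (ContinuousOn.intervalIntegrable (by
            rw [uIcc_of_le hlo]
            refine continuousOn_const.sub ((continuousOn_const.mul continuousOn_id).div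
              (by fun_prop) fun X hX => ?_)
            exact (Real.sqrt_pos.2 (by nlinarith [hc1.trans_le hX.1])).ne')),
        mid_cosh a (by linarith), mid_cosh a hr0.le, ← hb, show ε + b - b = ε by ring]
    by_cases hin : ε - b ≤ y
    · rw [htail, hmid y hin hout.le, max_eq_right (a := Real.cosh ε - Real.cosh (y + b)),
        max_eq_left, zero_add]
      · rw [sub_nonneg]; refine hcc _ _ ?_
        rw [habs _ hε.le, abs_le]; constructor <;> linarith
      · rw [sub_nonpos]; refine hcc _ _ ?_
        rw [habs _ hε.le, habs _ (by linarith)]; linarith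
    rw [not_le] at hin
    have hin' : Real.cosh y ≤ Real.cosh (ε - b) :=
      hcc _ _ (by rw [habs _ hy, habs _ (by linarith)]; exact hin.le)
    rw [htail, ← intervalIntegral.integral_add_adjacent_intervals
      (intervalIntegrable_shiftProf (hb ▸ h) _ (Real.cosh (ε - b)))
      (intervalIntegrable_shiftProf (hb ▸ h) _ _), hmid (ε - b) le_rfl (by linarith),
      intervalIntegral.integral_congr (g := fun _ => 2 * Real.cosh a) fun X hX => by
        rw [uIcc_of_le hin'] at hX
        rw [shiftProf, if_pos (hb ▸ hX.2)],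
      intervalIntegral.integral_const, smul_eq_mul, max_eq_left, max_eq_left]
    · have ha : Real.cosh a = Real.cosh b := by rw [hb, Real.cosh_abs]
      rw [ha, show ε - b - b = ε - 2 * b by ring, Real.cosh_add, Real.cosh_sub y b,
        Real.cosh_sub ε b, Real.cosh_sub, Real.cosh_two_mul, Real.sinh_two_mul]
      linear_combination Real.cosh ε * (Real.cosh_sq b)
    · rw [sub_nonneg]; refine hcc _ _ ?_
      rw [habs _ hε.le, abs_le]; constructor <;> linarith
    · rw [sub_nonneg]; refine hcc _ _ ?_
      rw [habs _ hε.le, habs _ (by linarith)]; linarith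
  have hy := main |y| (abs_nonneg y) |a| rfl
  rw [Real.cosh_abs] at hy
  rw [hy]
  rcases abs_choice y with e | e <;> rcases abs_choice a with e' | e' <;> rw [e, e']
  · rw [← sub_eq_add_neg, sub_neg_eq_add, add_comm]
  · rw [show -y + a = -(y - a) by ring, show -y - a = -(y + a) by ring, Real.cosh_neg, Real.cosh_neg,
      add_comm]
  · rw [show -y + -a = -(y + a) by ring, show -y - -a = -(y - a) by ring, Real.cosh_neg,
      Real.cosh_neg]

/-- **The shifted ball operator on functions of the height.** -/
theorem integral_shiftProf_height {ε a : ℝ} (h : |a| < ε) {f : ℝ → ℂ} (hf : Measurable f)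
    (hfb : ∀ c d : ℝ, 0 < c → ∃ C, ∀ s ∈ Icc c d, ‖f s‖ ≤ C) (P : H3) :
    ∫ Q, radKer (shiftProf ε a) P Q * f Q.t ∂vol =
      (Real.exp a : ℂ) * ∫ Q in ball P ε, f (Real.exp (-a) * Q.t) ∂vol +
        (Real.exp (-a) : ℂ) * ∫ Q in ball P ε, f (Real.exp a * Q.t) ∂vol := by
  have hε : 0 ≤ ε := ((abs_nonneg a).trans_lt h).le
  have hball : ∀ c : ℝ, 0 < c → ∀ d : ℝ, (∫ Q in ball P ε, f (c * Q.t) ∂vol =
      ∫ y : ℝ, ((2 * Real.pi * Real.exp (-(y + d)) * max (Real.cosh ε - Real.cosh (y + d)) 0 : ℝ) : ℂ) *
        f (c * (P.t * Real.exp (y + d)))) := by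
    intro c hc d
    have h' := integral_radKer_height (isProfile_ballProf hε) (f := fun s => f (c * s))
      (hf.comp (measurable_const_mul c)) (fun u v hu => by
        obtain ⟨C, hC⟩ := hfb (c * u) (c * v) (mul_pos hc hu)
        exact ⟨C, fun s hs => hC _ ⟨mul_le_mul_of_nonneg_left hs.1 hc.le,
          mul_le_mul_of_nonneg_left hs.2 hc.le⟩⟩) P
    simp only [radKer_ballProf] at h'
    rw [integral_ballKer_mul] at h'
    rw [h', ← integral_add_right_eq_self _ d]
    exact integral_congr_ae (Eventually.of_forall fun y => by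
      simp only [tailInt_ballProf])
  rw [integral_radKer_height (isProfile_shiftProf h) hf hfb P,
    hball _ (Real.exp_pos _) a, hball _ (Real.exp_pos _) (-a), ← integral_const_mul,
    ← integral_const_mul, ← integral_add]
  · refine integral_congr_ae (Eventually.of_forall fun y => ?_)
    beta_reduce
    rw [tailInt_shiftProf h, show Real.exp (-a) * (P.t * Real.exp (y + a)) = P.t * Real.exp y by
      rw [mul_left_comm, ← Real.exp_add]; ring_nf,
      show Real.exp a * (P.t * Real.exp (y + -a)) = P.t * Real.exp y by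
      rw [mul_left_comm, ← Real.exp_add]; ring_nf, ← sub_eq_add_neg]
    have e1 : Real.exp (-(y + a)) = Real.exp (-y) * Real.exp (-a) := by
      rw [← Real.exp_add]; ring_nf
    have e2 : Real.exp (-(y - a)) = Real.exp (-y) * Real.exp a := by
      rw [← Real.exp_add]; ring_nf
    have e3 : (Real.exp a : ℂ) * (Real.exp (-a) : ℂ) = 1 := by
      rw [← Complex.ofReal_mul, ← Real.exp_add, add_neg_cancel, Real.exp_zero, Complex.ofReal_one]
    rw [e1, e2]
    simp only [Complex.ofReal_add, Complex.ofReal_mul, Complex.ofReal_ofNat]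
    linear_combination (-(2 * (Real.pi : ℂ) * (Real.exp (-y) : ℂ) * f (P.t * Real.exp y) *
      (((max (Real.cosh ε - Real.cosh (y + a)) 0 : ℝ) : ℂ) +
        ((max (Real.cosh ε - Real.cosh (y - a)) 0 : ℝ) : ℂ)))) * e3
  all_goals
    refine Integrable.const_mul ?_ _
    refine (integrableOn_iff_integrable_of_support_subset
      (s := Icc (-(ε + |a|)) (ε + |a|)) fun y hy => ?_).1 ?_
    · by_contra hcon
      refine hy ?_
      beta_reduce
      rw [max_eq_right, mul_zero, Complex.ofReal_zero, zero_mul]
      rw [sub_nonpos, Real.cosh_le_cosh, abs_of_nonneg hε]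
      have : ε + |a| < |y| := lt_of_not_ge fun hc => hcon (abs_le.1 hc)
      rcases le_or_gt 0 y with h0 | h0
      · rw [abs_of_nonneg h0] at this
        exact le_trans (by linarith [le_abs_self a, neg_abs_le a]) (le_abs_self _)
      · rw [abs_of_neg h0] at this
        exact le_trans (by linarith [le_abs_self a, neg_abs_le a]) (neg_le_abs _)
    · obtain ⟨C, hC⟩ := hfb (P.t * Real.exp (-(ε + |a|))) (P.t * Real.exp (ε + |a|))
        (mul_pos P.t_pos (Real.exp_pos _))
      set E := Real.exp (-(-(ε + |a|) - |a|))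
      refine IntegrableOn.of_bound measure_Icc_lt_top
        (Measurable.aestronglyMeasurable (by fun_prop))
        (2 * Real.pi * E * Real.cosh ε * C) ?_
      refine (ae_restrict_iff' measurableSet_Icc).2 (Eventually.of_forall fun y hy => ?_)
      rw [norm_mul, Complex.norm_real, Real.norm_eq_abs,
        abs_of_nonneg (by positivity)]
      refine mul_le_mul (mul_le_mul (mul_le_mul_of_nonneg_left (Real.exp_le_exp.2
        (by linarith [hy.1, le_abs_self a, neg_abs_le a])) (by positivity)) (max_le
          (by linarith [Real.cosh_pos (y + a), Real.cosh_pos (y + -a)]) (Real.cosh_pos ε).le)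
          (le_max_right _ _) (by positivity)) (hC _ ?_) (norm_nonneg _) (by positivity)
      constructor <;>
        · rw [mul_left_comm, ← Real.exp_add]
          refine mul_le_mul_of_nonneg_left (Real.exp_le_exp.2 ?_) P.t_pos.le
          linarith [hy.1, hy.2]

/-- On a function whose ball means are those of the height, a radial kernel takes its value on
the height. -/
theorem integral_radKer_sph0 {φ : H3 → ℂ} (hφ : IsSph0 φ) {P : H3} {R : ℝ} {k : ℝ → ℝ}
    (hk : IsProfile k R) (hi : IntegrableOn φ (ball P R) vol) :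
    (P.t : ℂ) * ∫ Q, radKer k P Q * φ Q ∂vol = φ P * ∫ Q, radKer k P Q * (Q.t : ℂ) ∂vol := by
  have ht : IntegrableOn (fun Q : H3 => (Q.t : ℂ)) (ball P R) vol := by
    refine IntegrableOn.of_bound (vol_ball_lt_top P R)
      (Complex.measurable_ofReal.comp (measurable_snd.comp measurable_coords)).aestronglyMeasurable
      (2 * Real.cosh R * P.t) ?_
    refine (ae_restrict_iff' (measurableSet_ball P R)).2 (Eventually.of_forall fun Q hQ => ?_)
    have hd : (Q.t - 2 * Real.cosh R * P.t) * Q.t ≤ 0 := by
      have h1 : coshDist P Q ≤ Real.cosh R := hQ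
      have hP := P.t_pos
      have hQt := Q.t_pos
      rw [coshDist, ← le_sub_iff_add_le', div_le_iff₀ (by positivity)] at h1
      nlinarith [Complex.normSq_nonneg (P.z - Q.z)]
    rw [Complex.norm_real, Real.norm_of_nonneg Q.t_pos.le]
    nlinarith [Q.t_pos]
  have hψ : IntegrableOn (fun Q => (P.t : ℂ) * φ Q - φ P * (Q.t : ℂ)) (ball P R) vol :=
    (hi.const_mul _).sub (ht.const_mul _)
  have h0 := integral_radKer_eq_zero hk hψ fun r hr hrR => by
    have hsub : ball P r ⊆ ball P R := fun Q hQ =>
      (show coshDist P Q ≤ Real.cosh r from hQ).trans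
        (Real.cosh_le_cosh.2 (by rwa [abs_of_nonneg hr, abs_of_nonneg hk.nonneg]))
    rw [integral_sub ((hi.mono_set hsub).const_mul _) ((ht.mono_set hsub).const_mul _),
      integral_const_mul, integral_const_mul, integral_ball_height hr]
    rcases eq_or_lt_of_le hr with rfl | hr'
    · have hz : vol (ball P 0) = 0 := by
        refine measure_mono_null (fun Q hQ => ?_) (vol_sphere P 1)
        exact le_antisymm (by simpa [ball] using hQ) (coshDist_ge_one P Q)
      simp [setIntegral_measure_zero _ hz, sph0]
    · rw [hφ P r hr']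
      ring
  have hint : ∀ g : H3 → ℂ, IntegrableOn g (ball P R) vol →
      Integrable (fun Q => radKer k P Q * g Q) vol := fun g hg => by
    obtain ⟨C, hC⟩ := hk.bounded
    refine (integrableOn_iff_integrable_of_support_subset (s := ball P R) fun Q hQ => ?_).1
      (hg.bdd_mul (c := C) ((isInvKer_radKer hk).measurable.comp
        (measurable_const.prodMk measurable_id)).aestronglyMeasurable
        (Eventually.of_forall fun Q => by simpa [radKer] using hC _))
    by_contra hc
    exact hQ (show radKer k P Q * g Q = 0 by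
      rw [radKer_eq_indicator hk, indicator_of_notMem hc, zero_mul])
  rw [← integral_const_mul, ← integral_const_mul, ← sub_eq_zero, ← integral_sub
    ((hint φ hi).const_mul _) ((hint _ ht).const_mul _)]
  rw [← h0]
  exact integral_congr_ae (Eventually.of_forall fun Q => by ring)

/-- The eigenvalue of the shifted ball kernel at spherical parameter `0`. -/
theorem integral_shiftProf_sph0 {φ : H3 → ℂ} (hφ : IsSph0 φ) {ε a : ℝ} (h : |a| < ε) (P : H3)
    (hi : IntegrableOn φ (ball P (ε + |a|)) vol) :
    ∫ Q, radKer (shiftProf ε a) P Q * φ Q ∂vol = 2 * (sph0 ε : ℂ) * φ P := by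
  have hε : 0 ≤ ε := ((abs_nonneg a).trans_lt h).le
  have h1 := integral_radKer_sph0 hφ (isProfile_shiftProf h) hi
  have h2 := integral_shiftProf_height h (f := fun s : ℝ => (s : ℂ)) Complex.measurable_ofReal
    (fun c d hc => ⟨d, fun s hs => by
      rw [Complex.norm_real, Real.norm_of_nonneg (hc.le.trans hs.1)]; exact hs.2⟩) P
  simp only [Complex.ofReal_mul, integral_const_mul, integral_ball_height hε] at h2
  rw [h2] at h1
  have e : (Real.exp a : ℂ) * (Real.exp (-a) : ℂ) = 1 := by
    rw [← Complex.ofReal_mul, ← Real.exp_add, add_neg_cancel, Real.exp_zero, Complex.ofReal_one]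
  refine mul_left_cancel₀ (Complex.ofReal_ne_zero.2 P.t_pos.ne') ?_
  linear_combination h1 + (2 * φ P * (sph0 ε : ℂ) * (P.t : ℂ)) * e

end FermatAgent.LT.H3
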