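import Fermat.Agent.LT.General.Annihilator.Poly

set_option autoImplicit false

/-!
# Combinations of weighted translations on a commutative group

`transl r` is the operator of an element of the group algebra; the relation polynomial of six
weighted translations kills the functions invariant under their product.
-/

noncomputable section

namespace FermatAgent.LTG

variable {G : Type*} [CommGroup G]

/-- The translations, as a representation. -/
def transHom (G : Type*) [CommGroup G] : G →* Module.End ℂ (G → ℂ) where
  toFun g := { toFun := fun F x => F (x * g), map_add' := fun _ _ => rfl, map_smul' := fun _ _ => rfl }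
  map_one' := LinearMap.ext fun F => funext fun x => congrArg F (mul_one x)
  map_mul' g h := LinearMap.ext fun F => funext fun x =>
    congrArg F (mul_assoc x g h).symm

/-- The operator of an element of the group algebra. -/
def transAlg (G : Type*) [CommGroup G] : MonoidAlgebra ℂ G →ₐ[ℂ] Module.End ℂ (G → ℂ) :=
  MonoidAlgebra.lift ℂ (Module.End ℂ (G → ℂ)) G (transHom G)

theorem transAlg_single (g : G) (c : ℂ) (F : G → ℂ) (x : G) :
    transAlg G (MonoidAlgebra.single g c) F x = c * F (x * g) := by
  rw [transAlg, MonoidAlgebra.lift_single]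
  rfl

theorem transAlg_add (r s : MonoidAlgebra ℂ G) (F : G → ℂ) (x : G) :
    transAlg G (r + s) F x = transAlg G r F x + transAlg G s F x := by
  rw [map_add]
  rfl

theorem transAlg_mul (r s : MonoidAlgebra ℂ G) (F : G → ℂ) :
    transAlg G (r * s) F = transAlg G r (transAlg G s F) := by
  rw [map_mul]
  rfl

theorem transAlg_one (F : G → ℂ) : transAlg G 1 F = F := by
  rw [map_one]
  rfl

/-- Translations commute with the pullback along a homomorphism. -/
theorem transAlg_map {H : Type*} [CommGroup H] (φ : G →* H) (r : MonoidAlgebra ℂ G) (F : H → ℂ)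
    (x : G) : transAlg H (MonoidAlgebra.mapDomainAlgHom ℂ ℂ φ r) F (φ x) =
      transAlg G r (fun y => F (φ y)) x := by
  induction r using MonoidAlgebra.induction_linear with
  | zero => simp
  | add r s hr hs => rw [map_add, transAlg_add, transAlg_add, hr, hs]
  | single g c =>
    rw [MonoidAlgebra.mapDomainAlgHom_apply, MonoidAlgebra.mapDomain_single, transAlg_single,
      transAlg_single, map_mul]

/-- A translation and its inverse with inverse weights. -/
def symElt (g : G) (c : ℂ) : MonoidAlgebra ℂ G :=
  MonoidAlgebra.single g c + MonoidAlgebra.single g⁻¹ c⁻¹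

/-- The monomials of six weighted translations. -/
def monElt (g : Slot → G) (c : Slot → ℂ) (d : Slot →₀ ℕ) : MonoidAlgebra ℂ G :=
  ∏ k, symElt (g k) (c k) ^ d k

/-- **The relation.** -/
theorem sum_transAlg_monElt (g : Slot → G) (c : Slot → ℂ) (hc : ∏ k, c k = 1) (F : G → ℂ)
    (hF : ∀ x, F (x * ∏ k, g k) = F x) (x : G) :
    ∑ d ∈ relPoly.support, ((MvPolynomial.coeff d relPoly : ℤ) : ℂ) * transAlg G (monElt g c d) F x = 0 := by
  classical
  set H := Subgroup.zpowers (∏ k, g k) with hH
  set π : G →* G ⧸ H := QuotientGroup.mk' H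
  have hc0 : ∀ k, c k ≠ 0 := fun k h => by
    rw [Finset.prod_eq_zero (Finset.mem_univ k) h] at hc
    exact zero_ne_one hc
  let P : Subgroup G :=
    { carrier := {γ | ∀ y, F (y * γ) = F y}
      one_mem' := fun y => by rw [mul_one]
      mul_mem' := fun {a b} ha hb y => by rw [← mul_assoc, hb, ha]
      inv_mem' := fun {a} ha y => by
        conv_rhs => rw [← inv_mul_cancel_right y a, ha] }
  have hHP : H ≤ P := by
    rw [hH, Subgroup.zpowers_le]
    exact hF
  set Fb : G ⧸ H → ℂ := fun q => F q.out with hFb
  have hFπ : ∀ y, Fb (π y) = F y := fun y => by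
    obtain ⟨γ, hγ⟩ := QuotientGroup.mk_out_eq_mul H y
    change F ((y : G ⧸ H).out) = _
    rw [hγ]
    exact hHP γ.2 y
  set A := MonoidAlgebra ℂ (G ⧸ H)
  set X : Slot → Aˣ := fun k =>
    ⟨MonoidAlgebra.single (π (g k)) (c k), MonoidAlgebra.single (π (g k))⁻¹ (c k)⁻¹,
      by rw [MonoidAlgebra.single_mul_single, mul_inv_cancel, mul_inv_cancel₀ (hc0 k)]; rfl,
      by rw [MonoidAlgebra.single_mul_single, inv_mul_cancel, inv_mul_cancel₀ (hc0 k)]; rfl⟩
  have hX : ∏ k, X k = 1 := by
    refine Units.ext ?_
    rw [Units.coe_prod]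
    simp only [X]
    rw [MonoidAlgebra.prod_single, hc, ← map_prod, show π (∏ k, g k) = 1 from
      (QuotientGroup.eq_one_iff _).mpr (Subgroup.mem_zpowers _)]
    rfl
  have h0 := aeval_relPoly_eq_zero X hX
  rw [MvPolynomial.aeval_def, MvPolynomial.eval₂_eq'] at h0
  have hmon : ∀ d : Slot →₀ ℕ, MonoidAlgebra.mapDomainAlgHom ℂ ℂ π (monElt g c d) =
      ∏ k, ((X k : A) + ((X k)⁻¹ : Aˣ)) ^ d k := fun d => by
    simp only [monElt, map_prod, map_pow]
    refine Finset.prod_congr rfl fun k _ => ?_
    simp only [symElt, map_add, MonoidAlgebra.mapDomainAlgHom_apply, MonoidAlgebra.mapDomain_single,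
      map_inv]
    rfl
  have h1 := congrArg (fun r : A => transAlg (G ⧸ H) r Fb (π x)) h0
  simp only [map_zero, LinearMap.zero_apply, Pi.zero_apply, map_sum, LinearMap.sum_apply,
    Finset.sum_apply] at h1
  refine Eq.trans (Finset.sum_congr rfl fun d _ => ?_) h1
  rw [← hmon d, transAlg_mul, eq_intCast, map_intCast]
  have e := transAlg_map π (monElt g c d) Fb x
  simp only [hFπ] at e
  rw [← e, Module.End.intCast_apply, Pi.smul_apply, zsmul_eq_mul]

end FermatAgent.LTG

end
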