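import Fermat.Agent.LT.General.Annihilator.Chain
import Fermat.Agent.LT.General.Annihilator.Shift
import Fermat.Agent.LT.General.Annihilator.Translation

set_option autoImplicit false

/-!
# Invariant kernels on functions of the height

`ActsAs k k₀ r`: on functions of the logarithm of the height the operator of `k` is that of `k₀`
after the combination of translations `r`.  This passes to compositions and to products over places.
-/

noncomputable section

open MeasureTheory Set Filter Multiplicative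
open scoped ENNReal

namespace FermatAgent.LTG

open FermatAgent.LT (H3)

section shiftOp

variable {E : Type*} [AddCommGroup E]

/-- The operator of a combination of translations on functions on an additive group. -/
def shiftOp (r : MonoidAlgebra ℂ (Multiplicative E)) (φ : E → ℂ) (x : E) : ℂ :=
  transAlg (Multiplicative E) r (fun m => φ m.toAdd) (ofAdd x)

theorem shiftOp_single (e : E) (c : ℂ) (φ : E → ℂ) (x : E) :
    shiftOp (MonoidAlgebra.single (ofAdd e) c) φ x = c * φ (x + e) := by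
  rw [shiftOp, transAlg_single]
  rfl

theorem shiftOp_add (r s : MonoidAlgebra ℂ (Multiplicative E)) (φ : E → ℂ) (x : E) :
    shiftOp (r + s) φ x = shiftOp r φ x + shiftOp s φ x := transAlg_add _ _ _ _

theorem shiftOp_mul (r s : MonoidAlgebra ℂ (Multiplicative E)) (φ : E → ℂ) :
    shiftOp (r * s) φ = shiftOp r (shiftOp s φ) :=
  funext fun x => by rw [shiftOp, transAlg_mul]; rfl

theorem shiftOp_one (φ : E → ℂ) : shiftOp (1 : MonoidAlgebra ℂ (Multiplicative E)) φ = φ :=
  funext fun x => by rw [shiftOp, transAlg_one]; rfl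

theorem shiftOp_induction {motive : MonoidAlgebra ℂ (Multiplicative E) → Prop}
    (r : MonoidAlgebra ℂ (Multiplicative E)) (h0 : motive 0)
    (hadd : ∀ r s, motive r → motive s → motive (r + s))
    (hsingle : ∀ e c, motive (MonoidAlgebra.single (ofAdd e) c)) : motive r := by
  induction r using MonoidAlgebra.induction_linear with
  | zero => exact h0
  | add r s hr hs => exact hadd r s hr hs
  | single m c => exact hsingle m.toAdd c

theorem shiftOp_zero (φ : E → ℂ) (x : E) :
    shiftOp (0 : MonoidAlgebra ℂ (Multiplicative E)) φ x = 0 := by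
  rw [shiftOp, map_zero]
  rfl

theorem exists_bound_shiftOp (r : MonoidAlgebra ℂ (Multiplicative E)) {φ : E → ℂ} {C : ℝ}
    (hC : ∀ x, ‖φ x‖ ≤ C) : ∃ D, ∀ x, ‖shiftOp r φ x‖ ≤ D := by
  induction r using shiftOp_induction with
  | h0 => exact ⟨0, fun x => by simp [shiftOp_zero]⟩
  | hadd r s hr hs =>
    obtain ⟨D, hD⟩ := hr
    obtain ⟨D', hD'⟩ := hs
    exact ⟨D + D', fun x => by
      rw [shiftOp_add]; exact (norm_add_le _ _).trans (add_le_add (hD x) (hD' x))⟩
  | hsingle e c =>
    exact ⟨‖c‖ * C, fun x => by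
      rw [shiftOp_single, norm_mul]; exact mul_le_mul_of_nonneg_left (hC _) (norm_nonneg _)⟩

theorem measurable_shiftOp [MeasurableSpace E] [MeasurableAdd E]
    (r : MonoidAlgebra ℂ (Multiplicative E)) {φ : E → ℂ} (hφ : Measurable φ) :
    Measurable (shiftOp r φ) := by
  induction r using shiftOp_induction with
  | h0 =>
    rw [show shiftOp (0 : MonoidAlgebra ℂ (Multiplicative E)) φ = fun _ => 0 from
      funext (shiftOp_zero φ)]
    exact measurable_const
  | hadd r s hr hs =>
    rw [show shiftOp (r + s) φ = fun x => shiftOp r φ x + shiftOp s φ x from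
      funext (shiftOp_add r s φ)]
    exact hr.add hs
  | hsingle e c =>
    rw [show shiftOp (MonoidAlgebra.single (ofAdd e) c) φ = fun x => c * φ (x + e) from
      funext (shiftOp_single e c φ)]
    exact (hφ.comp (measurable_add_const e)).const_mul c

theorem shiftOp_map {F : Type*} [AddCommGroup F] (f : E →+ F)
    (r : MonoidAlgebra ℂ (Multiplicative E)) (φ : F → ℂ) (y : F) (x : E) (z : F)
    (hz : z = y + f x) :
    shiftOp (MonoidAlgebra.mapDomainAlgHom ℂ ℂ f.toMultiplicative r) φ z =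
      shiftOp r (fun e => φ (y + f e)) x := by
  induction r using shiftOp_induction with
  | h0 => rw [map_zero, shiftOp_zero, shiftOp_zero]
  | hadd r s hr hs => rw [map_add, shiftOp_add, shiftOp_add, hr, hs]
  | hsingle e c =>
    rw [MonoidAlgebra.mapDomainAlgHom_apply, MonoidAlgebra.mapDomain_single, shiftOp_single]
    change shiftOp (MonoidAlgebra.single (ofAdd (f e)) c) φ z = _
    rw [shiftOp_single, hz, map_add, add_assoc]

end shiftOp

theorem abs_log_sub_le (P Q : H3) : |Real.log Q.t - Real.log P.t| ≤ H3.coshDist P Q := by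
  have hP := P.t_pos
  have hQ := Q.t_pos
  set x := Real.log Q.t - Real.log P.t
  have h1 : Real.cosh x ≤ H3.coshDist P Q := by
    rw [H3.coshDist, Real.cosh_eq, neg_sub, Real.exp_sub, Real.exp_sub, Real.exp_log hP,
      Real.exp_log hQ]
    have h2 : 0 ≤ Complex.normSq (P.z - Q.z) / (2 * P.t * Q.t) :=
      div_nonneg (Complex.normSq_nonneg _) (by positivity)
    have h3 : (Q.t / P.t + P.t / Q.t) / 2 = 1 + (P.t - Q.t) ^ 2 / (2 * P.t * Q.t) := by
      field_simp
      ring
    rw [h3, add_div]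
    linarith
  refine le_trans ?_ h1
  rw [← Real.cosh_abs x]
  have h4 := Real.add_one_le_exp |x|
  rw [Real.cosh_eq]
  have h5 : |x| + 1 ≤ Real.exp |x| := h4
  nlinarith [Real.exp_pos (-|x|), Real.quadratic_le_exp_of_nonneg (abs_nonneg x), sq_nonneg (|x| - 1)]

theorem measurable_logt : Measurable fun Q : H3 => Real.log Q.t :=
  Real.measurable_log.comp (measurable_snd.comp H3.measurable_coords)

/-- The operator of an invariant kernel on functions of the logarithm of the height. -/
def htOp (h : H3 → H3 → ℂ) (ψ : ℝ → ℂ) (s : ℝ) : ℂ :=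
  ∫ Q, h ⟨0, Real.exp s, Real.exp_pos s⟩ Q * ψ (Real.log Q.t) ∂H3.vol

theorem integral_comp_smul_height {h : H3 → H3 → ℂ} (hh : H3.IsInvKer h) (ψ : ℝ → ℂ) (P : H3)
    (b : ℝ) (z : ℂ) :
    ∫ Q, h ⟨Real.exp b * P.z + z, Real.exp b * P.t, mul_pos (Real.exp_pos b) P.t_pos⟩ Q *
        ψ (Real.log Q.t) ∂H3.vol =
      ∫ Q, h P Q * ψ (Real.log Q.t + b) ∂H3.vol := by
  set g : GL (Fin 2) ℂ := FermatAgent.LT.upperTri
    (Units.mk0 (Real.exp b : ℂ) (Complex.ofReal_ne_zero.mpr (Real.exp_ne_zero b))) z 1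
  have hg : ∀ Q : H3, (g • Q).z = Real.exp b * Q.z + z ∧ (g • Q).t = Real.exp b * Q.t := fun Q => by
    obtain ⟨h1, h2⟩ := H3.upperTri_smul
      (Units.mk0 (Real.exp b : ℂ) (Complex.ofReal_ne_zero.mpr (Real.exp_ne_zero b))) z Q
    exact ⟨by simpa [g] using h1, by simpa [g, abs_of_pos (Real.exp_pos b)] using h2⟩
  have hP : g • P = ⟨Real.exp b * P.z + z, Real.exp b * P.t, mul_pos (Real.exp_pos b) P.t_pos⟩ :=
    H3.ext (hg P).1 (hg P).2
  rw [← hP, ← (H3.measurePreserving_h3_smul g).integral_comp (H3.smulEquiv g).measurableEmbedding]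
  refine integral_congr_ae (Eventually.of_forall fun Q => ?_)
  dsimp only
  rw [hh.inv, (hg Q).2, Real.log_mul (Real.exp_ne_zero b) Q.t_pos.ne', Real.log_exp, add_comm]

theorem integral_eq_htOp {h : H3 → H3 → ℂ} (hh : H3.IsInvKer h) (ψ : ℝ → ℂ) (P : H3) :
    ∫ Q, h P Q * ψ (Real.log Q.t) ∂H3.vol = htOp h ψ (Real.log P.t) := by
  have e := integral_comp_smul_height hh ψ ⟨0, Real.exp (Real.log P.t), Real.exp_pos _⟩ 0 P.z
  simp only [Real.exp_zero, Complex.ofReal_one, one_mul, zero_add, add_zero] at e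
  rw [htOp, ← e]
  refine integral_congr_ae (Eventually.of_forall fun Q => ?_)
  have hP : (⟨P.z, Real.exp (Real.log P.t), Real.exp_pos _⟩ : H3) = P :=
    H3.ext rfl (Real.exp_log P.t_pos)
  dsimp only
  rw [hP]

theorem htOp_translate {h : H3 → H3 → ℂ} (hh : H3.IsInvKer h) (ψ : ℝ → ℂ) (s b : ℝ) :
    htOp h (fun y => ψ (y + b)) s = htOp h ψ (s + b) := by
  have e := integral_comp_smul_height hh ψ ⟨0, Real.exp s, Real.exp_pos s⟩ b 0
  simp only [mul_zero, add_zero] at e
  rw [htOp, htOp, ← e]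
  refine integral_congr_ae (Eventually.of_forall fun Q => ?_)
  have hP : (⟨0, Real.exp b * Real.exp s, mul_pos (Real.exp_pos b) (Real.exp_pos s)⟩ : H3) =
      ⟨0, Real.exp (s + b), Real.exp_pos _⟩ :=
    H3.ext rfl ((mul_comm _ _).trans (Real.exp_add s b).symm)
  dsimp only
  rw [hP]

theorem integrable_kernel_mul {h : H3 → H3 → ℂ} (hh : H3.IsInvKer h) {ψ : ℝ → ℂ}
    (hψ : Measurable ψ) {C : ℝ} (hC : ∀ s, ‖ψ s‖ ≤ C) (P : H3) :
    Integrable (fun Q => h P Q * ψ (Real.log Q.t)) H3.vol :=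
  (hh.integrable_row P).mul_bdd (hψ.comp measurable_logt).aestronglyMeasurable
    (Eventually.of_forall fun _ => hC _)

theorem htOp_shiftOp {h : H3 → H3 → ℂ} (hh : H3.IsInvKer h)
    (r : MonoidAlgebra ℂ (Multiplicative ℝ)) {ψ : ℝ → ℂ} (hψ : Measurable ψ) {C : ℝ}
    (hC : ∀ s, ‖ψ s‖ ≤ C) : htOp h (shiftOp r ψ) = shiftOp r (htOp h ψ) := by
  funext s
  induction r using shiftOp_induction with
  | h0 => simp [htOp, shiftOp_zero]
  | hadd r r' hr hr' =>
    obtain ⟨D, hD⟩ := exists_bound_shiftOp r hC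
    obtain ⟨D', hD'⟩ := exists_bound_shiftOp r' hC
    rw [shiftOp_add, ← hr, ← hr', htOp, htOp, htOp,
      ← integral_add (integrable_kernel_mul hh (measurable_shiftOp r hψ) hD _)
        (integrable_kernel_mul hh (measurable_shiftOp r' hψ) hD' _)]
    exact integral_congr_ae (Eventually.of_forall fun Q => by
      simp only [shiftOp_add, mul_add])
  | hsingle e c =>
    rw [shiftOp_single, ← htOp_translate hh ψ s e, htOp, htOp, ← integral_const_mul]
    exact integral_congr_ae (Eventually.of_forall fun Q => by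
      simp only [shiftOp_single]; ring)

/-- `k` acts on functions of the height as `k₀` after `r`. -/
def ActsAs (k k₀ : H3 → H3 → ℂ) (r : MonoidAlgebra ℂ (Multiplicative ℝ)) : Prop :=
  ∀ ψ : ℝ → ℂ, Measurable ψ → (∃ C, ∀ s, ‖ψ s‖ ≤ C) → ∀ P : H3,
    ∫ Q, k P Q * ψ (Real.log Q.t) ∂H3.vol = ∫ Q, k₀ P Q * shiftOp r ψ (Real.log Q.t) ∂H3.vol

theorem ActsAs.refl (k : H3 → H3 → ℂ) : ActsAs k k 1 := fun ψ _ _ P => by rw [shiftOp_one]

theorem ActsAs.kConv {k k₀ k' k₀' : H3 → H3 → ℂ} {r r' : MonoidAlgebra ℂ (Multiplicative ℝ)}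
    (h : ActsAs k k₀ r) (h' : ActsAs k' k₀' r') (hk : H3.IsInvKer k) (hk' : H3.IsInvKer k')
    (hk0 : H3.IsInvKer k₀) (hk0' : H3.IsInvKer k₀') :
    ActsAs (H3.kConv k k') (H3.kConv k₀ k₀') (r * r') := by
  intro ψ hψ ⟨C, hC⟩ P
  obtain ⟨D, hD⟩ := exists_bound_shiftOp r' hC
  obtain ⟨D', hD'⟩ := exists_bound_shiftOp (r * r') hC
  have hψ' := measurable_shiftOp r' hψ
  rw [H3.integral_kConv_mul hk hk' (f := fun Q => ψ (Real.log Q.t)) (hψ.comp measurable_logt)
      (C := C) (fun Q => hC _) P,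
    H3.integral_kConv_mul hk0 hk0' (f := fun Q => shiftOp (r * r') ψ (Real.log Q.t))
      ((measurable_shiftOp (r * r') hψ).comp measurable_logt) (C := D') (fun Q => hD' _) P]
  simp only [h' ψ hψ ⟨C, hC⟩, integral_eq_htOp hk0']
  obtain ⟨V, hV⟩ := hk0'.exists_lintegral_le
  have hbd : ∀ s, ‖htOp k₀' (shiftOp r' ψ) s‖ ≤ max V 0 * max D 0 := fun s => by
    refine (norm_integral_le_integral_norm _).trans ?_
    refine (integral_mono_of_nonneg (Eventually.of_forall fun _ => norm_nonneg _)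
      (g := fun Q => ‖k₀' ⟨0, Real.exp s, Real.exp_pos s⟩ Q‖ * max D 0)
      ((hk0'.integrable_row _).norm.mul_const _) (Eventually.of_forall fun Q => ?_)).trans ?_
    · simp only [norm_mul]
      exact mul_le_mul_of_nonneg_left ((hD _).trans (le_max_left _ _)) (norm_nonneg _)
    · rw [integral_mul_const, integral_norm_eq_lintegral_enorm
        (hk0'.measurable_row _).aestronglyMeasurable]
      refine mul_le_mul_of_nonneg_right ?_ (le_max_right _ _)
      exact ENNReal.toReal_le_of_le_ofReal (le_max_right _ _)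
        ((hV _).trans (ENNReal.ofReal_le_ofReal (le_max_left _ _)))
  have hm : Measurable (htOp k₀' (shiftOp r' ψ)) := by
    refine (StronglyMeasurable.integral_prod_right'
      (f := fun p : ℝ × H3 => k₀' ⟨0, Real.exp p.1, Real.exp_pos p.1⟩ p.2 *
        shiftOp r' ψ (Real.log p.2.t)) (Measurable.stronglyMeasurable ?_)).measurable
    refine (hk0'.measurable.comp ((Measurable.prodMk ?_ measurable_snd))).mul
      ((hψ'.comp measurable_logt).comp measurable_snd)
    exact measurable_comap_iff.mpr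
      (measurable_const.prodMk (Real.measurable_exp.comp measurable_fst))
  rw [h _ hm ⟨_, hbd⟩ P, ← htOp_shiftOp hk0' r hψ' hD, ← shiftOp_mul]

theorem ActsAs.chain : ∀ {l : List ((H3 → H3 → ℂ) × (H3 → H3 → ℂ) ×
    MonoidAlgebra ℂ (Multiplicative ℝ))},
    (∀ p ∈ l, H3.IsInvKer p.1 ∧ H3.IsInvKer p.2.1 ∧ ActsAs p.1 p.2.1 p.2.2) →
    ActsAs (H3.chainKer (l.map fun p => p.1)) (H3.chainKer (l.map fun p => p.2.1))
      (l.map fun p => p.2.2).prod
  | [], _ => ActsAs.refl _
  | p :: l, hl => by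
    obtain ⟨h1, h2, h3⟩ := hl p List.mem_cons_self
    have hl' := fun q hq => hl q (List.mem_cons_of_mem p hq)
    simp only [List.map_cons, List.prod_cons]
    exact h3.kConv (ActsAs.chain hl') h1 (H3.isInvKer_chainKer fun g hg => by
        obtain ⟨q, hq, rfl⟩ := List.mem_map.mp hg
        exact (hl' q hq).1) h2 (H3.isInvKer_chainKer fun g hg => by
        obtain ⟨q, hq, rfl⟩ := List.mem_map.mp hg
        exact (hl' q hq).2.1)

theorem actsAs_shiftProf {ε a : ℝ} (h : |a| < ε) :
    ActsAs (H3.radKer (H3.shiftProf ε a)) (H3.ballKer ε)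
      (symElt (ofAdd a) (Real.exp (-a) : ℂ)) := by
  intro ψ hψ ⟨C, hC⟩ P
  rw [H3.integral_shiftProf_height h (f := fun s => ψ (Real.log s))
    (hψ.comp Real.measurable_log) (fun _ _ _ => ⟨C, fun _ _ => hC _⟩) P]
  have hi : ∀ b c, Integrable (fun Q : H3 => H3.ballKer ε P Q * (c * ψ (Real.log Q.t + b))) H3.vol :=
    fun b c => integrable_kernel_mul (H3.isInvKer_ballKer ε) (ψ := fun s => c * ψ (s + b))
      ((hψ.comp (measurable_add_const b)).const_mul c) (C := ‖c‖ * C) (fun s => by
        rw [norm_mul]; exact mul_le_mul_of_nonneg_left (hC _) (norm_nonneg _)) P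
  have hinv : ((Real.exp (-a) : ℂ))⁻¹ = (Real.exp a : ℂ) := by
    rw [← Complex.ofReal_inv, ← Real.exp_neg, neg_neg]
  simp only [symElt, ← ofAdd_neg, shiftOp_add, shiftOp_single, mul_add, hinv]
  rw [integral_add (hi a _) (hi (-a) _), H3.integral_ballKer_mul, H3.integral_ballKer_mul,
    integral_const_mul, integral_const_mul, add_comm]
  congr 2 <;> refine setIntegral_congr_fun (H3.measurableSet_ball_h3 P ε) fun Q _ => ?_
  all_goals
    rw [Real.log_mul (Real.exp_ne_zero _) Q.t_pos.ne', Real.log_exp, add_comm]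

end FermatAgent.LTG

end
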