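import Fermat.Agent.LT.Base.BoxFourier

set_option autoImplicit false

/-!
# Means of periodic measurable functions over the unit box

They do not change under translations and nonzero integral dilations.
-/

noncomputable section

open MeasureTheory Set Filter

-- the normalised Haar measure on `ℝ / ℤ`
local instance : MeasureSpace UnitAddCircle := ⟨AddCircle.haarAddCircle⟩

local instance : Measure.IsAddHaarMeasure (volume : Measure UnitAddCircle) :=
  inferInstanceAs (Measure.IsAddHaarMeasure AddCircle.haarAddCircle)

namespace FermatAgent.LT.BoxFourier

open UnitAddTorus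
open FermatAgent.LT.Dihedral (toTorus torusSection toTorus_section boxAt intVec measurableSet_boxAt)

variable {d : Type*} [Fintype d]

omit [Fintype d] in
theorem measurable_torusSection : Measurable (torusSection (d := d)) :=
  measurable_pi_iff.mpr fun i =>
    (measurable_subtype_coe.comp (AddCircle.measurableEquivIco (1 : ℝ) 0).measurable).comp
      (measurable_pi_apply i)

theorem measurePreserving_torus_affine {k : ℤ} (hk : k ≠ 0) (s : UnitAddTorus d) :
    MeasurePreserving (fun t : UnitAddTorus d => k • t + s) volume volume := by
  have h1 : MeasurePreserving (fun t : UnitAddTorus d => k • t) volume volume := by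
    exact measurePreserving_pi (fun _ : d => (volume : Measure UnitAddCircle))
      (fun _ : d => (volume : Measure UnitAddCircle))
      (f := fun _ : d => fun z : UnitAddCircle => k • z) fun _ => Measure.measurePreserving_zsmul (μ := (volume : Measure UnitAddCircle)) hk
  have h2 : MeasurePreserving (fun t : UnitAddTorus d => t + s) volume volume := by
    exact measurePreserving_pi (fun _ : d => (volume : Measure UnitAddCircle))
      (fun _ : d => (volume : Measure UnitAddCircle))
      (f := fun i : d => fun z : UnitAddCircle => z + s i) fun i => measurePreserving_add_right _ _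
  exact h2.comp h1

/-- Invariance of the mean under dilations and translations. -/
theorem integral_box_affine {g : (d → ℝ) → ℂ} (hg : Measurable g) (hper : IsPer g) {k : ℤ}
    (hk : k ≠ 0) (s : d → ℝ) :
    ∫ y in boxAt 0, g ((k : ℝ) • y + s) = ∫ y in boxAt 0, g y := by
  set G : UnitAddTorus d → ℂ := fun t => g (torusSection t) with hG
  have hGm : Measurable G := hg.comp measurable_torusSection
  have hφ := measurePreserving_torus_affine hk (toTorus s)
  have h1 := integral_map hφ.measurable.aemeasurable (μ := (volume : Measure (UnitAddTorus d)))
    (f := G) hGm.aestronglyMeasurable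
  rw [hφ.map_eq] at h1
  rw [integral_preimage G (0 : d → ℝ),
    integral_preimage (fun t => G (k • t + toTorus s)) (0 : d → ℝ), boxSet_eq] at h1
  have e1 : ∀ y : d → ℝ, G (fun i => (y i : UnitAddCircle)) = g y := fun y => per_section hper y
  have e2 : ∀ y : d → ℝ, G (k • (fun i => (y i : UnitAddCircle)) + toTorus s) =
      g ((k : ℝ) • y + s) := fun y => by
    rw [← e1 ((k : ℝ) • y + s)]
    congr 1
    funext i
    simp only [toTorus, Pi.add_apply, Pi.smul_apply, smul_eq_mul, ← AddCircle.coe_zsmul,
      zsmul_eq_mul, AddCircle.coe_add]
  simp only [e1, e2] at h1
  exact h1.symm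

end FermatAgent.LT.BoxFourier

end
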