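import Fermat.Agent.LT.Base.Expansion
import Fermat.Agent.LT.Descent.Spectral.Bound.Gain
import Fermat.Agent.LT.General.Annihilator.BoxMean

set_option autoImplicit false

/-!
# The constant term of an invariant function on the space

The mean over a torus of periods of the finite coset: independent of the chosen periods, depending
only on the heights, invariant under the rational translations and integral dilations.
-/

noncomputable section

open MeasureTheory Set Filter NumberField IsDedekindDomain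
open scoped MatrixGroups

namespace FermatAgent.LTG

open FermatAgent.LT
open FermatAgent.LT.BoxFourier (IsPer integral_box_affine)
open FermatAgent.LT.Dihedral (boxAt intVec)

variable {L : Type*} [Field L] [NumberField L] {𝔫 : Ideal (𝓞 L)}

/-- The multiples of `N` translate trivially at the coset `q`. -/
def IsPeriod (N : ℕ) (q : Cosets 𝔫) : Prop :=
  ∀ o : 𝓞 L, rationalMat (upperTri 1 (((N : 𝓞 L) * o : 𝓞 L) : L) 1) • q = q

theorem exists_isPeriod (h𝔫 : 𝔫 ≠ ⊥) (q : Cosets 𝔫) : ∃ N : ℕ, N ≠ 0 ∧ IsPeriod N q := by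
  classical
  obtain ⟨e, he, he0⟩ := exists_levelExp h𝔫
  obtain ⟨e', he', hconj⟩ := IsNearOne.exists_conj q.out⁻¹ e he0
  have hfin : {v : HeightOneSpectrum (𝓞 L) | ¬ e' v = 0}.Finite := he'
  set N : ℕ := ∏ v ∈ hfin.toFinset, Ideal.absNorm v.asIdeal ^ e' v with hN
  refine ⟨N, Finset.prod_ne_zero_iff.mpr fun v _ => pow_ne_zero _ fun h0 => ?_, fun o => ?_⟩
  · exact v.ne_bot (Ideal.absNorm_eq_zero_iff.mp h0)
  set b : L := (((N : 𝓞 L) * o : 𝓞 L) : L) with hb
  have hmem : ∀ v : HeightOneSpectrum (𝓞 L), (N : 𝓞 L) * o ∈ v.asIdeal ^ e' v := by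
    intro v
    refine Ideal.mul_mem_right _ _ ?_
    rcases eq_or_ne (e' v) 0 with h0 | h0
    · simp [h0]
    · have hv : v ∈ hfin.toFinset := hfin.mem_toFinset.mpr h0
      rw [hN, ← Finset.mul_prod_erase _ _ hv, Nat.cast_mul, Nat.cast_pow]
      exact Ideal.mul_mem_right _ _ (Ideal.pow_mem_pow (Ideal.absNorm_mem _) _)
  have hsmall : algebraMap L (Adf L) b ∈ smallAdeles e' := fun v => by
    rw [adele_algebraMap_apply, valued_loc, hb, HeightOneSpectrum.valuation_of_algebraMap]
    exact (v.intValuation_le_pow_iff_mem _ _).mpr (hmem v)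
  have hk : q.out⁻¹ * upperTri 1 (algebraMap L (Adf L) b) 1 * q.out⁻¹⁻¹ ∈ congrSubgroup 𝔫 :=
    (hconj _ (isNearOne_upperUni hsmall)).mem_congrSubgroup he
  rw [rationalMat_upperTri, map_one]
  conv_lhs => rw [← QuotientGroup.out_eq' q]
  conv_rhs => rw [← QuotientGroup.out_eq' q]
  refine QuotientGroup.eq.mpr (Subgroup.mem_sup_left ?_)
  rw [inv_inv] at hk
  change (upperTri 1 (algebraMap L (Adf L) b) 1 * q.out)⁻¹ * q.out ∈ congrSubgroup 𝔫
  convert inv_mem hk using 1
  group

theorem IsPeriod.mul_right {N : ℕ} {q : Cosets 𝔫} (h : IsPeriod N q) (M : ℕ) :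
    IsPeriod (N * M) q := fun o => by
  have := h ((M : 𝓞 L) * o)
  rwa [← mul_assoc, ← Nat.cast_mul] at this

theorem IsPeriod.mul_left {M : ℕ} {q : Cosets 𝔫} (h : IsPeriod M q) (N : ℕ) :
    IsPeriod (N * M) q := mul_comm M N ▸ h.mul_right N

theorem IsPeriod.uni {N : ℕ} {q : Cosets 𝔫} (h : IsPeriod N q) (β : L) :
    IsPeriod N (rationalMat (upperTri 1 β 1) • q) := fun o => by
  rw [← mul_smul, ← map_mul, upperTri_mul_upperTri,
    show upperTri ((1 : Lˣ) * 1) (((1 : Lˣ) : L) * β + (((N : 𝓞 L) * o : 𝓞 L) : L) * ((1 : Lˣ) : L))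
        ((1 : Lˣ) * 1) = upperTri 1 β 1 * upperTri 1 (((N : 𝓞 L) * o : 𝓞 L) : L) 1 by
      rw [upperTri_mul_upperTri]; congr 1; simp [add_comm],
    map_mul, mul_smul, h o]

/-- The real coordinates by the integral basis. -/
def latVec (y : Module.Free.ChooseBasisIndex ℤ (𝓞 L) → ℝ) : InfinitePlace L → ℂ :=
  iotaX (integralBasis L) y

/-- A measurable invariant function, bounded on the slabs over finitely many cosets. -/
structure IsAdmissible (H : YSpace 𝔫 → ℂ) : Prop where
  measurable : Measurable H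
  invariant : ∀ (γ : PGL(2, L)) y, H (γ • y) = H y
  slab : ∀ lo hi : ℝ, 0 < lo → ∀ D : Set (Cosets 𝔫), D.Finite → ∃ C : ℝ, ∀ x : XInf L,
    (∀ w, lo ≤ (x w).t ∧ (x w).t ≤ hi) → ∀ q ∈ D, ‖H (x, q)‖ ≤ C

/-- The mean over the torus of the multiples of `N`. -/
def meanAt (N : ℕ) (H : YSpace 𝔫 → ℂ) (x : XInf L) (q : Cosets 𝔫) : ℂ :=
  ∫ y in boxAt (0 : Module.Free.ChooseBasisIndex ℤ (𝓞 L) → ℤ),
    H (hshift x (latVec ((N : ℝ) • y)), q)

omit [NumberField L] in
theorem continuous_hshift_pair {X : Type*} [TopologicalSpace X] {f : X → XInf L}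
    {c : X → InfinitePlace L → ℂ} (hf : Continuous f) (hc : Continuous c) :
    Continuous fun p => hshift (f p) (c p) :=
  continuous_pi fun w => continuous_induced_rng.mpr
    (((continuous_fst.comp H3.continuous_coords).comp ((continuous_apply w).comp hf) |>.add
      ((continuous_apply w).comp hc)).prodMk
      ((continuous_snd.comp H3.continuous_coords).comp ((continuous_apply w).comp hf)))

theorem continuous_latVec (N : ℕ) :
    Continuous fun y : Module.Free.ChooseBasisIndex ℤ (𝓞 L) → ℝ =>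
      (latVec ((N : ℝ) • y) : InfinitePlace L → ℂ) :=
  (iotaX (integralBasis L)).continuous_of_finiteDimensional.comp
    ((continuous_id).const_smul (N : ℝ))

theorem measurable_meanInt {H : YSpace 𝔫 → ℂ} (hH : Measurable H) (N : ℕ) (q : Cosets 𝔫) :
    Measurable fun p : XInf L × (Module.Free.ChooseBasisIndex ℤ (𝓞 L) → ℝ) =>
      H (hshift p.1 (latVec ((N : ℝ) • p.2)), q) :=
  hH.comp ((continuous_hshift_pair continuous_fst
    ((continuous_latVec N).comp continuous_snd)).measurable.prodMk measurable_const)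

theorem apply_hshift_uni {H : YSpace 𝔫 → ℂ} (hinv : ∀ (γ : PGL(2, L)) y, H (γ • y) = H y)
    (β : L) (x : XInf L) (q : Cosets 𝔫) :
    H (hshift x (embVec β), rationalMat (upperTri 1 β 1) • q) = H (x, q) := by
  have h := hinv (Matrix.ProjGenLinGroup.mk (upperTri 1 β 1)) (x, q)
  rw [mk_smul] at h
  rw [← infAct_upperUni_hshift]
  exact h

theorem isPer_meanInt {H : YSpace 𝔫 → ℂ} (hinv : ∀ (γ : PGL(2, L)) y, H (γ • y) = H y) {N : ℕ}
    {q : Cosets 𝔫} (hN : IsPeriod N q) (x : XInf L) :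
    IsPer fun y => H (hshift x (latVec ((N : ℝ) • y)), q) := fun y n => by
  set o : 𝓞 L := ∑ j, n j • RingOfIntegers.basis L j
  have ho : (latVec ((N : ℝ) • (y + intVec n)) : InfinitePlace L → ℂ) =
      latVec ((N : ℝ) • y) + embVec (((N : 𝓞 L) * o : 𝓞 L) : L) := by
    simp only [latVec, smul_add, map_add, map_smul]
    congr 1
    rw [show intVec n = fun j => ((n j : ℤ) : ℝ) from rfl, iotaX_intVec]
    funext w
    simp only [Pi.smul_apply, embVec_apply, o, map_mul, map_natCast, Complex.real_smul,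
      Complex.ofReal_natCast, integralBasis_apply]
    simp
  dsimp only
  rw [ho, ← hshift_shiftX]
  conv_lhs => rw [← hN o]
  exact apply_hshift_uni hinv _ _ _

theorem meanAt_mul {H : YSpace 𝔫 → ℂ} (hH : IsAdmissible H) {N : ℕ} {q : Cosets 𝔫}
    (hN : IsPeriod N q) {k : ℕ} (hk : k ≠ 0) (x : XInf L) :
    meanAt (N * k) H x q = meanAt N H x q := by
  have h := integral_box_affine
    (g := fun y => H (hshift x (latVec ((N : ℝ) • y)), q))
    ((measurable_meanInt hH.measurable N q).comp measurable_prodMk_left)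
    (isPer_meanInt hH.invariant hN x) (k := (k : ℤ)) (by exact_mod_cast hk) 0
  simp only [add_zero, smul_smul, Int.cast_natCast] at h
  rw [meanAt, meanAt, Nat.cast_mul]
  exact h

theorem meanAt_congr {H : YSpace 𝔫 → ℂ} (hH : IsAdmissible H) {N M : ℕ} {q : Cosets 𝔫}
    (hN : IsPeriod N q) (hM : IsPeriod M q) (hN0 : N ≠ 0) (hM0 : M ≠ 0) (x : XInf L) :
    meanAt N H x q = meanAt M H x q := by
  rw [← meanAt_mul hH hN hM0, mul_comm, meanAt_mul hH hM hN0]

theorem meanAt_shift [IsTotallyComplex L] {H : YSpace 𝔫 → ℂ} (hH : IsAdmissible H) {N : ℕ}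
    {q : Cosets 𝔫} (hN : IsPeriod N q) (hN0 : N ≠ 0) (c : InfinitePlace L → ℂ) (x : XInf L) :
    meanAt N H (hshift x c) q = meanAt N H x q := by
  obtain ⟨s, hs⟩ := (iotaX_bijective (integralBasis L)).2 c
  have h := integral_box_affine
    (g := fun y => H (hshift x (latVec ((N : ℝ) • y)), q))
    ((measurable_meanInt hH.measurable N q).comp measurable_prodMk_left)
    (isPer_meanInt hH.invariant hN x) (k := 1) one_ne_zero ((N : ℝ)⁻¹ • s)
  rw [meanAt, meanAt, ← h]
  refine integral_congr_ae (Eventually.of_forall fun y => ?_)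
  have e : (latVec ((N : ℝ) • (((1 : ℤ) : ℝ) • y + (N : ℝ)⁻¹ • s)) : InfinitePlace L → ℂ) =
      c + latVec ((N : ℝ) • y) := by
    rw [smul_add, smul_smul (N : ℝ) _ s, mul_inv_cancel₀ (Nat.cast_ne_zero.mpr hN0), one_smul,
      Int.cast_one, one_smul, latVec, map_add, hs, add_comm]
    rfl
  dsimp only
  rw [e, hshift_shiftX]

variable [h𝔫 : Fact (𝔫 ≠ ⊥)]

/-- A chosen period. -/
def periodOf (q : Cosets 𝔫) : ℕ := (exists_isPeriod h𝔫.out q).choose

theorem periodOf_ne_zero (q : Cosets 𝔫) : periodOf q ≠ 0 :=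
  (exists_isPeriod h𝔫.out q).choose_spec.1

theorem isPeriod_periodOf (q : Cosets 𝔫) : IsPeriod (periodOf q) q :=
  (exists_isPeriod h𝔫.out q).choose_spec.2

/-- The constant term. -/
def constTerm (H : YSpace 𝔫 → ℂ) (y : YSpace 𝔫) : ℂ := meanAt (periodOf y.2) H y.1 y.2

/-- The functions with vanishing constant term. -/
def MeanZero (H : YSpace 𝔫 → ℂ) : Prop := ∀ y, constTerm H y = 0

theorem constTerm_eq {H : YSpace 𝔫 → ℂ} (hH : IsAdmissible H) {N : ℕ} {q : Cosets 𝔫}
    (hN : IsPeriod N q) (hN0 : N ≠ 0) (x : XInf L) : constTerm H (x, q) = meanAt N H x q :=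
  meanAt_congr hH (isPeriod_periodOf q) hN (periodOf_ne_zero q) hN0 x

theorem constTerm_congr_height [IsTotallyComplex L] {H : YSpace 𝔫 → ℂ} (hH : IsAdmissible H)
    {x x' : XInf L} (h : ∀ w, (x w).t = (x' w).t) (q : Cosets 𝔫) :
    constTerm H (x, q) = constTerm H (x', q) := by
  have e : x' = hshift x fun w => (x' w).z - (x w).z :=
    funext fun w => H3.ext (by simp) (by simp [h w])
  rw [e]
  exact (meanAt_shift hH (isPeriod_periodOf q) (periodOf_ne_zero q) _ x).symm

theorem constTerm_uni [IsTotallyComplex L] {H : YSpace 𝔫 → ℂ} (hH : IsAdmissible H) (β : L)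
    (x : XInf L) (q : Cosets 𝔫) :
    constTerm H (x, rationalMat (upperTri 1 β 1) • q) = constTerm H (x, q) := by
  rw [constTerm_eq hH ((isPeriod_periodOf q).uni β) (periodOf_ne_zero q), constTerm]
  refine Eq.trans ?_ (meanAt_shift hH (isPeriod_periodOf q) (periodOf_ne_zero q)
    (-embVec β) x)
  refine integral_congr_ae (Eventually.of_forall fun y => ?_)
  dsimp only
  conv_rhs => rw [← apply_hshift_uni hH.invariant β, hshift_shiftX, hshift_shiftX,
    show -embVec β + (latVec ((periodOf q : ℝ) • y) + embVec β) = latVec ((periodOf q : ℝ) • y) by abel]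

theorem constTerm_diag [IsTotallyComplex L] {H : YSpace 𝔫 → ℂ} (hH : IsAdmissible H) {k : ℤ}
    (γ : Lˣ) (hγ : (γ : L) = k) (x : XInf L) (q : Cosets 𝔫) :
    constTerm H (infAct (upperTri γ 0 1) x, rationalMat (upperTri γ 0 1) • q) =
      constTerm H (x, q) := by
  have hk : k ≠ 0 := fun h0 => γ.ne_zero (by rw [hγ, h0, Int.cast_zero])
  set q' := rationalMat (upperTri γ 0 1) • q
  set N := periodOf q' * periodOf q
  have hN0 : N ≠ 0 := mul_ne_zero (periodOf_ne_zero q') (periodOf_ne_zero q)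
  have hNq : IsPeriod N q := (isPeriod_periodOf q).mul_left _
  have hNq' : IsPeriod (N * k.natAbs) q' := ((isPeriod_periodOf q').mul_right _).mul_right _
  rw [constTerm_eq hH hNq' (mul_ne_zero hN0 (Int.natAbs_ne_zero.mpr hk)),
    constTerm_eq hH hNq hN0]
  have h := integral_box_affine
    (g := fun y => H (hshift x (latVec ((N : ℝ) • y)), q))
    ((measurable_meanInt hH.measurable N q).comp measurable_prodMk_left)
    (isPer_meanInt hH.invariant hNq x) (k := k.sign)
    (fun h0 => hk (Int.sign_eq_zero_iff_zero.mp h0)) 0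
  rw [meanAt, meanAt, ← h]
  refine integral_congr_ae (Eventually.of_forall fun y => ?_)
  dsimp only
  rw [add_zero]
  set c : InfinitePlace L → ℂ := latVec ((N : ℝ) • ((k.sign : ℝ) • y)) with hc
  have hv : (latVec (((N * k.natAbs : ℕ) : ℝ) • y) : InfinitePlace L → ℂ) = fun w => (k : ℂ) * c w := by
    have e : ((N * k.natAbs : ℕ) : ℝ) • y = (k : ℝ) • ((N : ℝ) • ((k.sign : ℝ) • y)) := by
      rw [smul_smul, smul_smul]
      congr 1
      have : (k : ℝ) * (k.sign : ℝ) = (k.natAbs : ℝ) := by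
        rw [← Int.cast_mul, Int.mul_sign_self, Int.cast_natCast]
      rw [Nat.cast_mul]
      linear_combination (-(N : ℝ)) * this
    rw [e, latVec, map_smul]
    funext w
    rw [Pi.smul_apply, Complex.real_smul, Complex.ofReal_intCast]
    rfl
  have hx : hshift (infAct (upperTri γ 0 1) x) (latVec (((N * k.natAbs : ℕ) : ℝ) • y)) =
      infAct (upperTri γ 0 1) (hshift x c) := by
    funext w
    refine H3.ext ?_ ?_
    · rw [hshift_z, (infAct_diag γ x w).1, (infAct_diag γ (hshift x c) w).1, hshift_z, hv, hγ,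
        map_intCast]
      ring
    · rw [hshift_t, (infAct_diag γ x w).2, (infAct_diag γ (hshift x c) w).2, hshift_t]
  rw [hx]
  have h2 := hH.invariant (Matrix.ProjGenLinGroup.mk (upperTri γ 0 1)) (hshift x c, q)
  rwa [mk_smul] at h2

theorem measurable_constTerm {H : YSpace 𝔫 → ℂ} (hH : Measurable H) :
    Measurable (constTerm H) := by
  refine measurable_from_prod_countable_left fun q => ?_
  change Measurable fun x => meanAt (periodOf q) H x q
  exact (StronglyMeasurable.integral_prod_right'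
    (f := fun p : XInf L × (Module.Free.ChooseBasisIndex ℤ (𝓞 L) → ℝ) =>
      H (hshift p.1 (latVec ((periodOf q : ℝ) • p.2)), q))
    (measurable_meanInt hH _ q).stronglyMeasurable).measurable

theorem constTerm_slab {H : YSpace 𝔫 → ℂ} (hH : IsAdmissible H) {lo hi : ℝ} (hlo : 0 < lo)
    {D : Set (Cosets 𝔫)} (hD : D.Finite) : ∃ C : ℝ, ∀ x : XInf L,
      (∀ w, lo ≤ (x w).t ∧ (x w).t ≤ hi) → ∀ q ∈ D, ‖constTerm H (x, q)‖ ≤ C := by
  obtain ⟨C, hC⟩ := hH.slab lo hi hlo D hD
  refine ⟨C, fun x hx q hq => (norm_setIntegral_le_of_norm_le_const (C := C) ?_ fun y _ => ?_).trans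
    (le_of_eq ?_)⟩
  · simp [Dihedral.volume_boxAt]
  · exact hC _ (fun w => by simpa using hx w) q hq
  · simp [measureReal_def, Dihedral.volume_boxAt]

end FermatAgent.LTG

end
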