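import Fermat.Agent.LT.General.Annihilator.Acts

set_option autoImplicit false

/-!
# Products over the places of kernels acting by translations on the heights
-/

noncomputable section

open MeasureTheory Set Filter Multiplicative
open scoped ENNReal

namespace FermatAgent.LTG

open FermatAgent.LT (H3)

variable {ι : Type*} [Fintype ι]

/-- The logarithms of the heights. -/
def logHt (u : ι → H3) : ι → ℝ := fun i => Real.log (u i).t

omit [Fintype ι] in
theorem measurable_logHt : Measurable (logHt (ι := ι)) :=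
  measurable_pi_iff.mpr fun i => measurable_logt.comp (measurable_pi_apply i)

variable [DecidableEq ι]

omit [Fintype ι] in
/-- A combination of translations of one coordinate. -/
def slotElt (i : ι) :
    MonoidAlgebra ℂ (Multiplicative ℝ) →ₐ[ℂ] MonoidAlgebra ℂ (Multiplicative (ι → ℝ)) :=
  MonoidAlgebra.mapDomainAlgHom ℂ ℂ (AddMonoidHom.single (fun _ : ι => ℝ) i).toMultiplicative

omit [Fintype ι] in
theorem shiftOp_slotElt (i : ι) (r : MonoidAlgebra ℂ (Multiplicative ℝ)) (φ : (ι → ℝ) → ℂ)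
    (τ : ι → ℝ) : shiftOp (slotElt i r) φ τ =
      shiftOp r (fun s => φ (Function.update τ i s)) (τ i) := by
  rw [slotElt, shiftOp_map (AddMonoidHom.single (fun _ : ι => ℝ) i) r φ (Function.update τ i 0)
    (τ i) τ (by
      funext j
      rcases eq_or_ne j i with rfl | hj <;> simp [*])]
  congr 1
  funext s
  congr 1
  funext j
  rcases eq_or_ne j i with rfl | hj <;> simp [*]

/-- Separation of one coordinate of a product. -/
theorem integral_pi_split (i : ι) {G : (ι → H3) → ℂ}
    (hG : Integrable G (Measure.pi fun _ : ι => H3.vol)) :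
    ∫ u, G u ∂(Measure.pi fun _ : ι => H3.vol) =
      ∫ b : {j // ¬ j = i} → H3, ∫ U,
        G (fun j => if h : j = i then U else b ⟨j, h⟩) ∂H3.vol ∂(Measure.pi fun _ => H3.vol) := by
  let e := MeasurableEquiv.piEquivPiSubtypeProd (fun _ : ι => H3) fun j => j = i
  have he := measurePreserving_piEquivPiSubtypeProd (fun _ : ι => H3.vol) fun j => j = i
  have : Unique {j // j = i} := ⟨⟨⟨i, rfl⟩⟩, fun j => Subtype.ext j.2⟩
  rw [← (he.symm e).integral_comp' (g := G)]
  have hi : Integrable (fun z => G (e.symm z)) _ := ((he.symm e).integrable_comp_emb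
    e.symm.measurableEmbedding).mpr hG
  rw [integral_prod_symm _ hi]
  refine integral_congr_ae (Eventually.of_forall fun b => ?_)
  dsimp only
  let e' := MeasurableEquiv.piUnique fun _ : {j // j = i} => H3
  have key := ((measurePreserving_piUnique fun _ : {j // j = i} => H3.vol).symm e').integral_comp'
    (g := fun a => G (e.symm (a, b)))
  refine (Eq.trans ?_ key.symm).trans ?_
  · congr!
  refine integral_congr_ae (Eventually.of_forall fun U => congrArg G (funext fun j => ?_))
  by_cases h : j = i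
  · subst h
    simp [e, e', MeasurableEquiv.piEquivPiSubtypeProd, Equiv.piEquivPiSubtypeProd,
      MeasurableEquiv.piUnique, Equiv.piUnique]
  · simp [e, e', MeasurableEquiv.piEquivPiSubtypeProd, Equiv.piEquivPiSubtypeProd, h]

omit [DecidableEq ι] in
theorem integrable_prod_mul {k : ι → H3 → H3 → ℂ} (hk : ∀ i, H3.IsInvKer (k i)) (x : ι → H3)
    {φ : (ι → ℝ) → ℂ} (hφ : Measurable φ) {C : ℝ} (hC : ∀ τ, ‖φ τ‖ ≤ C) :
    Integrable (fun u => (∏ j, k j (x j) (u j)) * φ (logHt u))
      (Measure.pi fun _ : ι => H3.vol) :=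
  (Integrable.fintype_prod_dep fun j => (hk j).integrable_row (x j)).mul_bdd
    (hφ.comp measurable_logHt).aestronglyMeasurable (Eventually.of_forall fun _ => hC _)

theorem integral_swap_slot {k : ι → H3 → H3 → ℂ} (hk : ∀ j, H3.IsInvKer (k j)) (i : ι)
    {k₀ : H3 → H3 → ℂ} (hk0 : H3.IsInvKer k₀) {r : MonoidAlgebra ℂ (Multiplicative ℝ)}
    (h : ActsAs (k i) k₀ r) {φ : (ι → ℝ) → ℂ} (hφ : Measurable φ) {C : ℝ}
    (hC : ∀ τ, ‖φ τ‖ ≤ C) (x : ι → H3) :
    ∫ u, (∏ j, k j (x j) (u j)) * φ (logHt u) ∂(Measure.pi fun _ : ι => H3.vol) =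
      ∫ u, (∏ j, Function.update k i k₀ j (x j) (u j)) * shiftOp (slotElt i r) φ (logHt u)
        ∂(Measure.pi fun _ : ι => H3.vol) := by
  have hk' : ∀ j, H3.IsInvKer (Function.update k i k₀ j) := fun j => by
    rcases eq_or_ne j i with rfl | hj
    · simpa using hk0
    · simpa [hj] using hk j
  obtain ⟨D, hD⟩ := exists_bound_shiftOp (slotElt i r) hC
  rw [integral_pi_split i (integrable_prod_mul hk x hφ hC),
    integral_pi_split i (integrable_prod_mul hk' x (measurable_shiftOp _ hφ) hD)]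
  refine integral_congr_ae (Eventually.of_forall fun b => ?_)
  dsimp only
  set mk : H3 → ι → H3 := fun U j => if h : j = i then U else b ⟨j, h⟩
  set R := ∏ j ∈ Finset.univ.erase i, k j (x j) (mk (x i) j)
  set ψ : ℝ → ℂ := fun s => φ (Function.update (logHt (mk (x i))) i s)
  have hτ : ∀ U, logHt (mk U) = Function.update (logHt (mk (x i))) i (Real.log U.t) := fun U => by
    funext j
    rcases eq_or_ne j i with rfl | hj <;> simp [logHt, mk, *]
  have hprod : ∀ (g : ι → H3 → H3 → ℂ), (∀ j, j ≠ i → g j = k j) → ∀ U,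
      ∏ j, g j (x j) (mk U j) = g i (x i) U * R := fun g hg U => by
    rw [← Finset.mul_prod_erase _ _ (Finset.mem_univ i)]
    simp only [mk, dite_true, R]
    congr 1
    refine Finset.prod_congr rfl fun j hj => ?_
    rw [hg j (Finset.mem_erase.mp hj).1, dif_neg (Finset.mem_erase.mp hj).1,
      dif_neg (Finset.mem_erase.mp hj).1]
  have hψ : Measurable ψ := hφ.comp (measurable_update _)
  have hs : ∀ U, shiftOp (slotElt i r) φ (logHt (mk U)) = shiftOp r ψ (Real.log U.t) := fun U => by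
    rw [shiftOp_slotElt, hτ U, Function.update_self]
    simp only [Function.update_idem]
    rfl
  have h1 := h ψ hψ ⟨C, fun _ => hC _⟩ (x i)
  calc ∫ U, (∏ j, k j (x j) (mk U j)) * φ (logHt (mk U)) ∂H3.vol
      = R * ∫ U, k i (x i) U * ψ (Real.log U.t) ∂H3.vol := by
        rw [← integral_const_mul]
        refine integral_congr_ae (Eventually.of_forall fun U => ?_)
        dsimp only [ψ]
        rw [hprod k (fun _ _ => rfl) U, ← hτ U]
        ring
    _ = R * ∫ U, k₀ (x i) U * shiftOp r ψ (Real.log U.t) ∂H3.vol := by rw [h1]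
    _ = _ := by
        rw [← integral_const_mul]
        refine integral_congr_ae (Eventually.of_forall fun U => ?_)
        dsimp only
        rw [hprod _ (fun j hj => Function.update_of_ne hj _ _) U, Function.update_self, hs U]
        ring

/-- Products of kernels acting by translations act by the product of the translations. -/
theorem integral_prod_acts {k k₀ : ι → H3 → H3 → ℂ} (hk : ∀ j, H3.IsInvKer (k j))
    (hk0 : ∀ j, H3.IsInvKer (k₀ j)) {r : ι → MonoidAlgebra ℂ (Multiplicative ℝ)}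
    (h : ∀ j, ActsAs (k j) (k₀ j) (r j)) {φ : (ι → ℝ) → ℂ} (hφ : Measurable φ) {C : ℝ}
    (hC : ∀ τ, ‖φ τ‖ ≤ C) (x : ι → H3) :
    ∫ u, (∏ j, k j (x j) (u j)) * φ (logHt u) ∂(Measure.pi fun _ : ι => H3.vol) =
      ∫ u, (∏ j, k₀ j (x j) (u j)) * shiftOp (∏ j, slotElt j (r j)) φ (logHt u)
        ∂(Measure.pi fun _ : ι => H3.vol) := by
  suffices hs : ∀ s : Finset ι,
      ∫ u, (∏ j, k j (x j) (u j)) * φ (logHt u) ∂(Measure.pi fun _ : ι => H3.vol) =
        ∫ u, (∏ j, s.piecewise k₀ k j (x j) (u j)) *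
          shiftOp (∏ j ∈ s, slotElt j (r j)) φ (logHt u) ∂(Measure.pi fun _ : ι => H3.vol) by
    rw [hs Finset.univ, Finset.piecewise_univ]
  intro s
  induction s using Finset.induction_on with
  | empty => simp [shiftOp_one]
  | insert a s ha ih =>
    have hks : ∀ j, H3.IsInvKer (s.piecewise k₀ k j) := fun j => by
      by_cases hj : j ∈ s <;> simp [hj, hk, hk0]
    obtain ⟨D, hD⟩ := exists_bound_shiftOp (∏ j ∈ s, slotElt j (r j)) hC
    rw [ih, integral_swap_slot hks a (hk0 a) (r := r a) (by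
      simpa [Finset.piecewise_eq_of_notMem _ _ _ ha] using h a)
      (measurable_shiftOp _ hφ) hD x, ← shiftOp_mul, Finset.prod_insert ha,
      ← Finset.piecewise_insert]

omit [Fintype ι] [DecidableEq ι] in
theorem shiftOp_local (R : MonoidAlgebra ℂ (Multiplicative (ι → ℝ))) :
    ∃ S : ι → ℝ, (∀ i, 0 ≤ S i) ∧ ∀ (φ φ' : (ι → ℝ) → ℂ) (M : ι → ℝ),
      (∀ τ, (∀ i, |τ i| ≤ M i + S i) → φ τ = φ' τ) →
      ∀ τ, (∀ i, |τ i| ≤ M i) → shiftOp R φ τ = shiftOp R φ' τ := by
  induction R using shiftOp_induction with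
  | h0 => exact ⟨0, fun _ => le_rfl, fun _ _ _ _ τ _ => by simp [shiftOp_zero]⟩
  | hadd R R' hR hR' =>
    obtain ⟨S, hS, h⟩ := hR
    obtain ⟨S', hS', h'⟩ := hR'
    refine ⟨S + S', fun i => add_nonneg (hS i) (hS' i), fun φ φ' M he τ hτ => ?_⟩
    rw [shiftOp_add, shiftOp_add,
      h φ φ' M (fun σ hσ => he σ fun i => (hσ i).trans (by simp [hS' i])) τ hτ,
      h' φ φ' M (fun σ hσ => he σ fun i => (hσ i).trans (by simp [hS i])) τ hτ]
  | hsingle e c =>
    refine ⟨fun i => |e i|, fun i => abs_nonneg _, fun φ φ' M he τ hτ => ?_⟩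
    rw [shiftOp_single, shiftOp_single, he (τ + e) fun i =>
      (abs_add_le _ _).trans (add_le_add (hτ i) le_rfl)]

omit [Fintype ι] [DecidableEq ι] in
theorem exists_bound_shiftOp_loc (R : MonoidAlgebra ℂ (Multiplicative (ι → ℝ))) [Finite ι]
    {φ : (ι → ℝ) → ℂ} (hC : ∀ M : ℝ, ∃ C, ∀ τ, (∀ i, |τ i| ≤ M) → ‖φ τ‖ ≤ C) :
    ∀ M : ℝ, ∃ C, ∀ τ, (∀ i, |τ i| ≤ M) → ‖shiftOp R φ τ‖ ≤ C := by
  have := Fintype.ofFinite ι
  intro M
  induction R using shiftOp_induction with
  | h0 => exact ⟨0, fun τ _ => by simp [shiftOp_zero]⟩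
  | hadd R R' hR hR' =>
    obtain ⟨C, hC⟩ := hR
    obtain ⟨C', hC'⟩ := hR'
    exact ⟨C + C', fun τ hτ => by
      rw [shiftOp_add]
      exact (norm_add_le _ _).trans (add_le_add (hC τ hτ) (hC' τ hτ))⟩
  | hsingle e c =>
    obtain ⟨C, hC⟩ := hC (M + ∑ i, |e i|)
    refine ⟨‖c‖ * C, fun τ hτ => ?_⟩
    rw [shiftOp_single, norm_mul]
    refine mul_le_mul_of_nonneg_left (hC _ fun i => (abs_add_le _ _).trans ?_) (norm_nonneg _)
    exact add_le_add (hτ i)
      (Finset.single_le_sum (f := fun i => |e i|) (fun _ _ => abs_nonneg _) (Finset.mem_univ i))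

/-- The same for functions bounded on boxes. -/
theorem integral_prod_acts_loc {k k₀ : ι → H3 → H3 → ℂ} (hk : ∀ j, H3.IsInvKer (k j))
    (hk0 : ∀ j, H3.IsInvKer (k₀ j)) {r : ι → MonoidAlgebra ℂ (Multiplicative ℝ)}
    (h : ∀ j, ActsAs (k j) (k₀ j) (r j)) {φ : (ι → ℝ) → ℂ} (hφ : Measurable φ)
    (hC : ∀ M : ℝ, ∃ C, ∀ τ, (∀ i, |τ i| ≤ M) → ‖φ τ‖ ≤ C) (x : ι → H3) :
    ∫ u, (∏ j, k j (x j) (u j)) * φ (logHt u) ∂(Measure.pi fun _ : ι => H3.vol) =
      ∫ u, (∏ j, k₀ j (x j) (u j)) * shiftOp (∏ j, slotElt j (r j)) φ (logHt u)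
        ∂(Measure.pi fun _ : ι => H3.vol) := by
  choose R hR using fun j => (hk j).supp
  choose R' hR' using fun j => (hk0 j).supp
  obtain ⟨S, hS, hloc⟩ := shiftOp_local (∏ j, slotElt j (r j))
  set B : ι → ℝ := fun j => |logHt x j| + (|R j| + |R' j|)
  set M := ∑ j, (B j + S j) with hM
  have hBM : ∀ j, B j + S j ≤ M := fun j =>
    Finset.single_le_sum (f := fun j => B j + S j)
      (fun i _ => add_nonneg (by positivity) (hS i)) (Finset.mem_univ j)
  obtain ⟨C, hC⟩ := hC M
  classical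
  set φ' := {τ : ι → ℝ | ∀ i, |τ i| ≤ M}.indicator φ
  have hφ' : Measurable φ' := hφ.indicator (by
    rw [Set.ofPred_forall]
    exact MeasurableSet.iInter fun i =>
      measurableSet_le (measurable_pi_apply i).abs measurable_const)
  have hC' : ∀ τ, ‖φ' τ‖ ≤ max C 0 := fun τ => by
    by_cases hτ : ∀ i, |τ i| ≤ M
    · exact (le_of_eq (congrArg _ (indicator_of_mem (show τ ∈ {τ : ι → ℝ | ∀ i, |τ i| ≤ M} from hτ) φ))).trans
        ((hC τ hτ).trans (le_max_left _ _))
    · simp only [φ', indicator_of_notMem (show τ ∉ {τ : ι → ℝ | ∀ i, |τ i| ≤ M} from hτ), norm_zero]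
      exact le_max_right _ _
  have hin : ∀ (g : ι → H3 → H3 → ℂ) u, (∀ j, g j (x j) (u j) ≠ 0 →
      H3.coshDist (x j) (u j) ≤ |R j| + |R' j|) → (∏ j, g j (x j) (u j)) ≠ 0 →
      ∀ j, |logHt u j| ≤ B j := fun g u hg hne j => by
    have h1 := (abs_log_sub_le (x j) (u j)).trans
      (hg j (Finset.prod_ne_zero_iff.mp hne j (Finset.mem_univ j)))
    calc |logHt u j| = |logHt x j + (logHt u j - logHt x j)| := by rw [add_sub_cancel]
      _ ≤ _ := (abs_add_le _ _).trans (add_le_add le_rfl h1)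
  calc ∫ u, (∏ j, k j (x j) (u j)) * φ (logHt u) ∂(Measure.pi fun _ : ι => H3.vol)
      = ∫ u, (∏ j, k j (x j) (u j)) * φ' (logHt u) ∂(Measure.pi fun _ : ι => H3.vol) := by
        refine integral_congr_ae (Eventually.of_forall fun u => ?_)
        dsimp only
        by_cases hne : ∏ j, k j (x j) (u j) = 0
        · rw [hne, zero_mul, zero_mul]
        · have hu := hin k u (fun j hj => (hR j _ _ hj).trans
            ((le_abs_self _).trans (le_add_of_nonneg_right (abs_nonneg _)))) hne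
          rw [show φ' (logHt u) = φ (logHt u) from indicator_of_mem
            (show logHt u ∈ {τ : ι → ℝ | ∀ i, |τ i| ≤ M} from
              fun i => (hu i).trans ((le_add_of_nonneg_right (hS i)).trans (hBM i))) φ]
    _ = _ := integral_prod_acts hk hk0 h hφ' hC' x
    _ = _ := by
        refine integral_congr_ae (Eventually.of_forall fun u => ?_)
        dsimp only
        by_cases hne : ∏ j, k₀ j (x j) (u j) = 0
        · rw [hne, zero_mul, zero_mul]
        · have hu := hin k₀ u (fun j hj => (hR' j _ _ hj).trans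
            ((le_abs_self _).trans (le_add_of_nonneg_left (abs_nonneg _)))) hne
          rw [hloc φ' φ B (fun τ hτ => indicator_of_mem
            (show τ ∈ {τ : ι → ℝ | ∀ i, |τ i| ≤ M} from fun i => (hτ i).trans (hBM i)) φ) _ hu]

end FermatAgent.LTG

end
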