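import Fermat.Agent.LT.Descent.Spectral.Smooth
import Fermat.Agent.LT.General.Annihilator.ConstTerm
import Fermat.Agent.LT.General.Annihilator.Product

set_option autoImplicit false

/-!
# Kernel operators on functions bounded on slabs, and their constant terms
-/

noncomputable section

open MeasureTheory Set Filter NumberField IsDedekindDomain
open scoped MatrixGroups ENNReal

namespace FermatAgent.LTG

open FermatAgent.LT
open FermatAgent.LT.Dihedral (boxAt)

variable {L : Type*} [Field L] [NumberField L] {𝔫 : Ideal (𝓞 L)}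

/-- Boundedness over boxes of the logarithms of the heights and finitely many cosets. -/
def IsBoxBdd (H : YSpace 𝔫 → ℂ) : Prop :=
  ∀ (M : ℝ) (D : Set (Cosets 𝔫)), D.Finite → ∃ C : ℝ, ∀ x : XInf L,
    (∀ w, |logHt x w| ≤ M) → ∀ q ∈ D, ‖H (x, q)‖ ≤ C

omit [NumberField L] in
theorem logHt_bounds {x : XInf L} {M : ℝ} (h : ∀ w, |logHt x w| ≤ M) (w : InfinitePlace L) :
    Real.exp (-M) ≤ (x w).t ∧ (x w).t ≤ Real.exp M := by
  have h1 := abs_le.mp (h w)
  constructor
  · exact (Real.exp_le_exp.mpr h1.1).trans_eq (Real.exp_log (x w).t_pos)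
  · exact (Real.exp_log (x w).t_pos).symm.le.trans (Real.exp_le_exp.mpr h1.2)

theorem IsAdmissible.boxBdd {H : YSpace 𝔫 → ℂ} (hH : IsAdmissible H) : IsBoxBdd H :=
  fun M D hD => by
    obtain ⟨C, hC⟩ := hH.slab (Real.exp (-M)) (Real.exp M) (Real.exp_pos _) D hD
    exact ⟨C, fun x hx => hC x (logHt_bounds hx)⟩

theorem IsBoxBdd.slab {H : YSpace 𝔫 → ℂ} (hH : IsBoxBdd H) (lo hi : ℝ) (hlo : 0 < lo)
    (D : Set (Cosets 𝔫)) (hD : D.Finite) : ∃ C : ℝ, ∀ x : XInf L,
    (∀ w, lo ≤ (x w).t ∧ (x w).t ≤ hi) → ∀ q ∈ D, ‖H (x, q)‖ ≤ C := by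
  obtain ⟨C, hC⟩ := hH (|Real.log lo| + |Real.log hi|) D hD
  refine ⟨C, fun x hx => hC x fun w => ?_⟩
  have h1 := Real.log_le_log hlo (hx w).1
  have h2 := Real.log_le_log (x w).t_pos (hx w).2
  rw [abs_le]
  constructor
  · have := neg_abs_le (Real.log lo); have := abs_nonneg (Real.log hi)
    simp only [logHt]; linarith
  · have := le_abs_self (Real.log hi); have := abs_nonneg (Real.log lo)
    simp only [logHt]; linarith

variable {h : InfinitePlace L → H3 → H3 → ℂ} {T : Module.End ℂ (Cosets 𝔫 → ℂ)}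

theorem exists_logHt_supp (hh : ∀ w, H3.IsInvKer (h w)) :
    ∃ R : ℝ, ∀ x u : XInf L, prodKer h x u ≠ 0 → ∀ w, |logHt u w - logHt x w| ≤ R := by
  choose R hR using fun w => (hh w).supp
  refine ⟨∑ w, |R w|, fun x u hne w => (abs_log_sub_le (x w) (u w)).trans ?_⟩
  exact ((hR w _ _ (Finset.prod_ne_zero_iff.mp hne w (Finset.mem_univ w))).trans (le_abs_self _)).trans
    (Finset.single_le_sum (f := fun w => |R w|) (fun _ _ => abs_nonneg _) (Finset.mem_univ w))

theorem apply_op_eq_sum (hT : IsCosetOp T) (f : Cosets 𝔫 → ℂ) (q : Cosets 𝔫) :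
    T f q = ∑ b ∈ (hT.row q).toFinset, finKer T q b * f b := by
  rw [hT.expand]
  refine finsum_eq_sum_of_support_subset _ fun b hb => ?_
  simp only [Finite.coe_toFinset, Function.mem_support]
  exact left_ne_zero_of_mul hb

theorem norm_apply_op_le (hT : IsCosetOp T) {f : Cosets 𝔫 → ℂ} {q : Cosets 𝔫} {C : ℝ}
    (hC : ∀ b ∈ (hT.row q).toFinset, ‖f b‖ ≤ C) :
    ‖T f q‖ ≤ (∑ b ∈ (hT.row q).toFinset, ‖finKer T q b‖) * C := by
  rw [apply_op_eq_sum hT, Finset.sum_mul]
  refine (norm_sum_le _ _).trans (Finset.sum_le_sum fun b hb => ?_)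
  rw [norm_mul]
  exact mul_le_mul_of_nonneg_left (hC b hb) (norm_nonneg _)

variable [h𝔫 : Fact (𝔫 ≠ ⊥)]

/-- The operator of a product kernel on a function bounded on boxes. -/
theorem yOp_yKer_loc (hh : ∀ w, H3.IsInvKer (h w)) (hT : IsCosetOp T) {H : YSpace 𝔫 → ℂ}
    (hm : Measurable H) (hb : IsBoxBdd H) (x : XInf L) (q : Cosets 𝔫) :
    yOp (yKer h T) H (x, q) = ∫ u, prodKer h x u * T (fun p => H (u, p)) q
      ∂(Measure.pi fun _ : InfinitePlace L => H3.vol) := by
  classical
  obtain ⟨R, hR⟩ := exists_logHt_supp hh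
  set M := (∑ w, |logHt x w|) + R
  obtain ⟨C, hC⟩ := hb M _ (hT.row q)
  set U : Set (YSpace 𝔫) := {y | (∀ w, |logHt y.1 w| ≤ M) ∧ finKer T q y.2 ≠ 0}
  have hU : MeasurableSet U := by
    have e : U = (⋂ w, {y : YSpace 𝔫 | |logHt y.1 w| ≤ M}) ∩
        Prod.snd ⁻¹' {b : Cosets 𝔫 | finKer T q b ≠ 0} :=
      Set.ext fun y => by simp [U]
    rw [e]
    exact (MeasurableSet.iInter fun w => measurableSet_le
      ((measurable_pi_apply w).comp (measurable_logHt.comp measurable_fst)).abs measurable_const).inter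
      (measurable_snd (show MeasurableSet {b : Cosets 𝔫 | finKer T q b ≠ 0} from trivial))
  set H' := U.indicator H
  have hC' : ∀ y, ‖H' y‖ ≤ max C 0 := fun y => by
    by_cases hy : y ∈ U
    · simp only [H', indicator_of_mem hy]
      exact (hC y.1 hy.1 y.2 hy.2).trans (le_max_left _ _)
    · simp [H', indicator_of_notMem hy]
  have hin : ∀ u p, prodKer h x u ≠ 0 → finKer T q p ≠ 0 → H' (u, p) = H (u, p) := fun u p h1 h2 =>
    indicator_of_mem (show (u, p) ∈ U from ⟨fun w => by
      have h3 := hR x u h1 w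
      have h4 := Finset.single_le_sum (f := fun w => |logHt x w|) (fun _ _ => abs_nonneg _)
        (Finset.mem_univ w)
      calc |logHt u w| = |logHt x w + (logHt u w - logHt x w)| := by rw [add_sub_cancel]
        _ ≤ _ := (abs_add_le _ _).trans (add_le_add h4 h3), h2⟩) H
  have e1 : yOp (yKer h T) H (x, q) = yOp (yKer h T) H' (x, q) := by
    refine integral_congr_ae (Eventually.of_forall fun y => ?_)
    dsimp only [yKer]
    by_cases h1 : prodKer h x y.1 = 0
    · simp [h1]
    by_cases h2 : finKer T q y.2 = 0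
    · simp [h2]
    rw [hin y.1 y.2 h1 h2]
  rw [e1, yOp_yKer hh hT (hm.indicator hU) hC']
  refine integral_congr_ae (Eventually.of_forall fun u => ?_)
  dsimp only
  by_cases h1 : prodKer h x u = 0
  · simp [h1]
  rw [apply_op_eq_sum hT, apply_op_eq_sum hT]
  refine congrArg _ (Finset.sum_congr rfl fun b _ => ?_)
  by_cases h2 : finKer T q b = 0
  · simp [h2]
  exact congrArg _ (hin u b h1 h2)

theorem boxBdd_yOp (hh : ∀ w, H3.IsInvKer (h w)) (hT : IsCosetOp T) {H : YSpace 𝔫 → ℂ}
    (hm : Measurable H) (hb : IsBoxBdd H) : IsBoxBdd (yOp (yKer h T) H) := by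
  intro M D hD
  obtain ⟨R, hR⟩ := exists_logHt_supp hh
  obtain ⟨V, hV0, hV⟩ := exists_lintegral_prodKer_le hh
  obtain ⟨S, hS⟩ := hT.exists_bound
  obtain ⟨C, hC⟩ := hb (M + R) _ (hD.biUnion fun q _ => hT.row q)
  refine ⟨V * (max S 0 * max C 0), fun x hx q hq => ?_⟩
  rw [yOp_yKer_loc hh hT hm hb]
  refine (norm_integral_le_integral_norm _).trans ((integral_mono_of_nonneg
    (Eventually.of_forall fun _ => norm_nonneg _) ((integrable_prodKer hh x).norm.mul_const
      (max S 0 * max C 0)) (Eventually.of_forall fun u => ?_)).trans ?_)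
  · simp only [norm_mul]
    by_cases h1 : prodKer h x u = 0
    · simp [h1]
    refine mul_le_mul_of_nonneg_left ((norm_apply_op_le hT (C := max C 0) fun b hb => ?_).trans ?_)
      (norm_nonneg _)
    · refine (hC u (fun w => ?_) b (mem_biUnion hq ((Finite.mem_toFinset _).mp hb))).trans
        (le_max_left _ _)
      calc |logHt u w| = |logHt x w + (logHt u w - logHt x w)| := by rw [add_sub_cancel]
        _ ≤ _ := (abs_add_le _ _).trans (add_le_add (hx w) (hR x u h1 w))
    · refine mul_le_mul_of_nonneg_right (le_trans (le_of_eq ?_) ((hS q).1.trans (le_max_left _ _)))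
        (le_max_right _ _)
      refine (finsum_eq_sum_of_support_subset _ fun b hb => ?_).symm
      simpa using hb
  · rw [integral_mul_const, integral_norm_eq_lintegral_enorm (f := prodKer h x)
      ((measurable_prodKer hh).comp measurable_prodMk_left).aestronglyMeasurable]
    exact mul_le_mul_of_nonneg_right (ENNReal.toReal_le_of_le_ofReal hV0 (hV x)) (by positivity)

theorem isAdmissible_yOp (hh : ∀ w, H3.IsInvKer (h w)) (hT : IsCosetOp T) {H : YSpace 𝔫 → ℂ}
    (hH : IsAdmissible H) : IsAdmissible (yOp (yKer h T) H) where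
  measurable := measurable_yOp (isYKernel_yKer hh hT) hH.measurable
  invariant := yOp_invariant (isYKernel_yKer hh hT) hH.invariant
  slab := (boxBdd_yOp hh hT hH.measurable hH.boxBdd).slab

omit h𝔫 in
theorem measurePreserving_hshift (c : InfinitePlace L → ℂ) :
    MeasurePreserving (fun u : XInf L => hshift u c)
      (Measure.pi fun _ : InfinitePlace L => H3.vol)
      (Measure.pi fun _ : InfinitePlace L => H3.vol) := by
  have e : (fun u : XInf L => hshift u c) =
      fun u w => upperTri (1 : ℂˣ) (c w) 1 • u w := by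
    funext u w
    obtain ⟨h1, h2⟩ := H3.upperTri_smul (1 : ℂˣ) (c w) (u w)
    exact (H3.ext (by simpa using h1) (by simpa using h2)).symm
  rw [e]
  exact measurePreserving_pi _ _ fun w => H3.measurePreserving_h3_smul _

omit h𝔫 in
theorem prodKer_hshift (hh : ∀ w, H3.IsInvKer (h w)) (c : InfinitePlace L → ℂ) (x u : XInf L) :
    prodKer h (hshift x c) (hshift u c) = prodKer h x u := by
  refine Finset.prod_congr rfl fun w _ => ?_
  have e : ∀ y : XInf L, hshift y c w = upperTri (1 : ℂˣ) (c w) 1 • y w := fun y => by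
    obtain ⟨h1, h2⟩ := H3.upperTri_smul (1 : ℂˣ) (c w) (y w)
    exact (H3.ext (by simpa using h1) (by simpa using h2)).symm
  rw [e, e, (hh w).inv]

/-- The constant term commutes with the operators. -/
theorem constTerm_yOp (hh : ∀ w, H3.IsInvKer (h w)) (hT : IsCosetOp T) {H : YSpace 𝔫 → ℂ}
    (hH : IsAdmissible H) (x : XInf L) (q : Cosets 𝔫) :
    constTerm (yOp (yKer h T) H) (x, q) = ∫ u, prodKer h x u * T (fun p => constTerm H (u, p)) q
      ∂(Measure.pi fun _ : InfinitePlace L => H3.vol) := by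
  classical
  set s := (hT.row q).toFinset with hs
  set N := periodOf q * ∏ b ∈ s, periodOf b
  have hN0 : N ≠ 0 := mul_ne_zero (periodOf_ne_zero q)
    (Finset.prod_ne_zero_iff.mpr fun b _ => periodOf_ne_zero b)
  have hNb : ∀ b ∈ s, IsPeriod N b := fun b hb => by
    simp only [N, ← Finset.mul_prod_erase _ _ hb, ← mul_assoc]
    exact ((isPeriod_periodOf b).mul_left _).mul_right _
  rw [constTerm_eq (isAdmissible_yOp hh hT hH) ((isPeriod_periodOf q).mul_right _) hN0, meanAt]
  simp only [yOp_yKer_loc hh hT hH.measurable hH.boxBdd]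
  set G : XInf L → ℂ := fun u => T (fun p => H (u, p)) q with hG
  have hGm : Measurable G := measurable_applyT hT hH.measurable q
  set μ := Measure.pi fun _ : InfinitePlace L => H3.vol
  set ν := (volume : Measure (Module.Free.ChooseBasisIndex ℤ (𝓞 L) → ℝ)).restrict (boxAt 0)
  have : IsFiniteMeasure ν := ⟨by simp [ν, Dihedral.volume_boxAt]⟩
  obtain ⟨R, hR⟩ := exists_logHt_supp hh
  obtain ⟨C, hC⟩ := hH.boxBdd ((∑ w, |logHt x w|) + R) _ (hT.row q)
  have hcm : Measurable fun p : (Module.Free.ChooseBasisIndex ℤ (𝓞 L) → ℝ) × XInf L =>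
      hshift p.2 (latVec ((N : ℝ) • p.1)) :=
    (continuous_hshift_pair continuous_snd ((continuous_latVec N).comp continuous_fst)).measurable
  have hint : Integrable (fun p : (Module.Free.ChooseBasisIndex ℤ (𝓞 L) → ℝ) × XInf L =>
      prodKer h x p.2 * G (hshift p.2 (latVec ((N : ℝ) • p.1)))) (ν.prod μ) := by
    refine (Integrable.comp_snd ((integrable_prodKer hh x).norm.mul_const
      ((∑ b ∈ s, ‖finKer T q b‖) * max C 0)) ν).mono'
      (((((measurable_prodKer hh).comp measurable_prodMk_left).comp measurable_snd).mul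
        (hGm.comp hcm)).aestronglyMeasurable) (Eventually.of_forall fun p => ?_)
    rw [norm_mul]
    by_cases h1 : prodKer h x p.2 = 0
    · simp [h1]
    refine mul_le_mul_of_nonneg_left (norm_apply_op_le hT fun b hb => ?_) (norm_nonneg _)
    refine (hC _ (fun w => ?_) b ((Finite.mem_toFinset _).mp hb)).trans (le_max_left _ _)
    simp only [logHt, hshift_t]
    have h3 := hR x p.2 h1 w
    have h4 := Finset.single_le_sum (f := fun w => |logHt x w|) (fun _ _ => abs_nonneg _)
      (Finset.mem_univ w)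
    simp only [logHt] at h3 h4 ⊢
    calc |Real.log (p.2 w).t| = |Real.log (x w).t + (Real.log (p.2 w).t - Real.log (x w).t)| := by
          rw [add_sub_cancel]
      _ ≤ _ := (abs_add_le _ _).trans (add_le_add h4 h3)
  have e1 : ∀ c : InfinitePlace L → ℂ, ∫ u, prodKer h (hshift x c) u * G u ∂μ =
      ∫ u, prodKer h x u * G (hshift u c) ∂μ := fun c => by
    have hp := measurePreserving_hshift (L := L) c
    have h2 := integral_map hp.measurable.aemeasurable (μ := μ)
      (f := fun u => prodKer h (hshift x c) u * G u)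
      (((measurable_prodKer hh).comp measurable_prodMk_left).mul hGm).aestronglyMeasurable
    rw [hp.map_eq] at h2
    rw [h2]
    simp only [prodKer_hshift hh]
  refine (integral_congr_ae (Eventually.of_forall fun y => e1 _)).trans ?_
  rw [integral_integral_swap hint]
  refine integral_congr_ae (Eventually.of_forall fun u => ?_)
  dsimp only
  rw [integral_const_mul, apply_op_eq_sum hT]
  simp only [hG, apply_op_eq_sum hT]
  rw [integral_finsetSum]
  · refine congrArg _ (Finset.sum_congr rfl fun b hb => ?_)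
    rw [constTerm_eq hH (hNb b hb) hN0, meanAt, ← integral_const_mul]
  · intro b hb
    obtain ⟨C', hC'⟩ := hH.boxBdd (∑ w, |logHt u w|) {b} (finite_singleton b)
    refine Integrable.const_mul (Integrable.of_bound ((measurable_meanInt hH.measurable N b).comp
      measurable_prodMk_left).aestronglyMeasurable C' (Eventually.of_forall fun y =>
        hC' _ (fun w => ?_) b (mem_singleton b))) _
    simp only [logHt, hshift_t]
    exact Finset.single_le_sum (f := fun w => |Real.log (u w).t|) (fun _ _ => abs_nonneg _)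
      (Finset.mem_univ w)

end FermatAgent.LTG

end
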