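import Fermat.Agent.LT.General.Annihilator.AuxPrime
import Fermat.Agent.LT.General.Geom.Local.Places
import Fermat.Agent.LT.General.Level.Exists
import Fermat.Agent.LT.Descent.Facts.Frob

set_option autoImplicit false

/-!
# The places over an auxiliary prime

An auxiliary prime is inert in `K` and splits into three places of norm `p ^ 2` in `F`, where the
traces of Frobenius vanish.
-/

noncomputable section

open NumberField IsDedekindDomain WithZero
open scoped Pointwise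

namespace FermatAgent.LTG

open FermatAgent.LT (quaternionSubgroup quaternionSubgroup_conj q8Trace IsFrobOver galInt galInt_coe
  galPlace galPlace_asIdeal galPlace_injective over_of_nonunits mem_nonunits_natCast_of_mem
  q8Trace_conj' natCast_mem_galPlace)
open FermatAgent.RT (mem_of_isIntegral_int)
open FermatAgent.Duality.Global (toZB Over exists_place)

local notation "Qb" => AlgebraicClosure ℚ
local notation "GQ" => AlgebraicClosure ℚ ≃ₐ[ℚ] AlgebraicClosure ℚ

attribute [local instance] FermatAgent.RT.isGalois_algClosureRat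

/-- A prime with a Frobenius element of order eight, `-1` modulo three. -/
structure IsAuxPrime (S : Setup) (p : ℕ) : Prop where
  prime : p.Prime
  not_dvd : ¬ p ∣ S.m
  three_dvd : 3 ∣ p + 1
  frob : ∃ A : ValuationSubring Qb, A.LiesOverPrime p ∧ ∃ τ : GQ, A.IsFrobeniusAt τ p ∧
    S.ρ τ ^ 4 = -1 ∧ S.ρ τ ^ 2 ∈ quaternionSubgroup

namespace IsAuxPrime

variable {S : Setup} {p : ℕ} (hp : IsAuxPrime S p)
include hp

theorem frob_at {A : ValuationSubring Qb} (hA : A.LiesOverPrime p) :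
    ∃ τ : GQ, A.IsFrobeniusAt τ p ∧ S.ρ τ ^ 4 = -1 ∧ S.ρ τ ^ 2 ∈ quaternionSubgroup := by
  obtain ⟨B, hB, τ, hτ, h4, h2⟩ := hp.frob
  obtain ⟨g, rfl⟩ := FermatAgent.TW.exists_smul_eq hp.prime hB hA
  refine ⟨g * τ * g⁻¹, FermatAgent.GalRep.isFrobeniusAt_conj g hτ, ?_, ?_⟩
  · rw [map_mul, map_mul, map_inv, conj_pow, h4]
    simp
  · rw [map_mul, map_mul, map_inv, conj_pow]
    exact quaternionSubgroup_conj h2

theorem m_notMem {L : IntermediateField ℚ Qb} [NumberField L] {v : HeightOneSpectrum (𝓞 L)}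
    (hv : (p : 𝓞 L) ∈ v.asIdeal) : (S.m : 𝓞 L) ∉ v.asIdeal := by
  intro hm
  obtain ⟨a, b, hab⟩ := ((Int.isCoprime_iff_nat_coprime.2 (by
    simpa using (hp.prime.coprime_iff_not_dvd).2 hp.not_dvd) :
      IsCoprime (p : ℤ) (S.m : ℤ))).map (Int.castRingHom (𝓞 L))
  simp only [eq_intCast, Int.cast_natCast] at hab
  exact v.isPrime.ne_top ((Ideal.eq_top_iff_one _).mpr
    (hab ▸ add_mem (Ideal.mul_mem_left _ a hv) (Ideal.mul_mem_left _ b hm)))

theorem trace_eq_zero {w : HeightOneSpectrum (𝓞 S.F)} (hw : (p : 𝓞 S.F) ∈ w.asIdeal)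
    (hN : Ideal.absNorm w.asIdeal = p ^ 2) {g : GQ} (hg : IsFrobOver w g) :
    q8Trace (S.ρ g) = 0 := by
  obtain ⟨-, A, hA, hgA⟩ := hg
  have hAp := mem_nonunits_natCast_of_mem (over_of_nonunits hA) hw
  obtain ⟨τ, hτ, h4, -⟩ := hp.frob_at hAp
  rw [hN] at hgA
  have h := S.unramified p hp.prime hp.not_dvd A hAp _
    (FermatAgent.TW.inv_mul_mem_inertia (FermatAgent.LT.ClassField.isFrobeniusAt_pow hτ 2) hgA)
  rw [map_mul, map_inv, inv_mul_eq_one] at h
  rw [← h, map_pow]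
  exact q8Trace_oct h4

theorem absNorm_le_sq {w : HeightOneSpectrum (𝓞 S.F)} (hw : (p : 𝓞 S.F) ∈ w.asIdeal) :
    Ideal.absNorm w.asIdeal ≤ p ^ 2 := by
  obtain ⟨A, hA⟩ := exists_place w
  obtain ⟨τ, hτ, -, h2⟩ := hp.frob_at (mem_nonunits_natCast_of_mem hA hw)
  have hfix : τ ^ 2 ∈ S.F.fixingSubgroup := (S.mem_fixing_F_iff).mpr (by rwa [map_pow])
  refine CFT.absNorm_le_of_forall_pow_sub_mem w (one_lt_pow₀ hp.prime.one_lt two_ne_zero) fun x => ?_
  rw [hA.mem_iff]
  have h := ((FermatAgent.TW.isFrobeniusAt_iff).mp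
    (FermatAgent.LT.ClassField.isFrobeniusAt_pow hτ 2)).2 _ (mem_of_isIntegral_int A (toZB S.F x).2)
  rw [FermatAgent.Duality.Global.coe_toZB,
    (IntermediateField.mem_fixingSubgroup_iff _ _).mp hfix _ (x : S.F).2] at h
  rw [← neg_sub, Valuation.map_neg] at h
  simpa using h

theorem absNorm_K {v : HeightOneSpectrum (𝓞 S.K)} (hv : (p : 𝓞 S.K) ∈ v.asIdeal) :
    Ideal.absNorm v.asIdeal = p ^ 2 ∧ v.asIdeal = Ideal.span {(p : 𝓞 S.K)} := by
  have hle := (Ideal.span_singleton_le_iff_mem _).mpr hv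
  have hdvd := Ideal.absNorm_dvd_absNorm_of_le hle
  rw [Ideal.absNorm_span_natCast, NumberField.RingOfIntegers.rank, S.finrank_K] at hdvd
  have hne : Ideal.absNorm v.asIdeal ≠ p := by
    intro h
    have : NeZero ((3 : ℕ) : Qb) := ⟨by norm_num⟩
    obtain ⟨ζ, hζ, h3, h1, -⟩ := S.exists_three_root
    have hint : IsIntegral ℤ (⟨ζ, hζ⟩ : S.K) :=
      IsIntegral.of_pow three_pos ((show (⟨ζ, hζ⟩ : S.K) ^ 3 = 1 from
        Subtype.ext (by simpa using h3)).symm ▸ isIntegral_one)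
    set z : 𝓞 S.K := ⟨⟨ζ, hζ⟩, hint⟩
    have hz3 : z ^ 3 = 1 := RingOfIntegers.coe_injective (Subtype.ext (by simpa [z] using h3))
    have hz1 : z ≠ 1 := fun e => h1 (by simpa [z] using congrArg (fun a : 𝓞 S.K => ((a : S.K) : Qb)) e)
    have hz2 : z ^ 2 + z + 1 = 0 := by
      have : (z - 1) * (z ^ 2 + z + 1) = 0 := by linear_combination hz3
      exact (mul_eq_zero.mp this).resolve_left (sub_ne_zero.mpr hz1)
    have hmem := CFT.pow_absNorm_sub_self_mem v z
    obtain ⟨c, hc⟩ := hp.three_dvd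
    rw [h, show p = 3 * (c - 1) + 2 by omega, pow_add, pow_mul, hz3, one_pow, one_mul] at hmem
    have h3v : (3 : 𝓞 S.K) ∈ v.asIdeal := by
      have e : (3 : 𝓞 S.K) = -(z * (z - 1)) * (z ^ 2 - z) := by
        linear_combination (z ^ 2 - 3 * z + 3) * hz2
      rw [e]
      exact Ideal.mul_mem_left _ _ hmem
    exact hp.m_notMem hv (S.m_mem_of_three_mem h3v)
  have hN : Ideal.absNorm v.asIdeal = p ^ 2 := by
    obtain ⟨k, hk, e⟩ := (Nat.dvd_prime_pow hp.prime).mp hdvd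
    interval_cases k
    · exact absurd (e.trans (pow_zero p)) (by have := CFT.two_le_absNorm v; omega)
    · exact absurd (e.trans (pow_one p)) hne
    · exact e
  refine ⟨hN, ?_⟩
  obtain ⟨C, hC⟩ := Ideal.dvd_iff_le.mpr hle
  have h := congrArg Ideal.absNorm hC
  rw [map_mul, Ideal.absNorm_span_natCast, NumberField.RingOfIntegers.rank, S.finrank_K, hN] at h
  have hC1 : C = ⊤ := Ideal.absNorm_eq_one_iff.mp (by
    have := pow_pos hp.prime.pos 2
    nlinarith)
  rw [hC, hC1, Ideal.mul_top]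

theorem absNorm_F {w : HeightOneSpectrum (𝓞 S.F)} (hw : (p : 𝓞 S.F) ∈ w.asIdeal) :
    Ideal.absNorm w.asIdeal = p ^ 2 := by
  have hv := (hp.absNorm_K ((S.natCast_mem_underK w p).mpr hw)).1
  refine le_antisymm (hp.absNorm_le_sq hw) (hv ▸ ?_)
  have := CFT.finite_quotient_prime w
  rw [← CFT.natCard_quotient_eq_absNorm, ← CFT.natCard_quotient_eq_absNorm]
  exact Nat.card_le_card_of_injective _
    (Ideal.quotientMap_injective' (I := w.asIdeal) (f := S.inclInt) (H := le_rfl) le_rfl)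

theorem galPlace_ne {σ : S.F ≃+* S.F} (hσ : S.IsGalGen σ) {w : HeightOneSpectrum (𝓞 S.F)}
    (hw : (p : 𝓞 S.F) ∈ w.asIdeal) : galPlace σ w ≠ w := by
  intro hfix
  have := w.isPrime
  have := CFT.finite_quotient_prime w
  have := CFT.finite_quotient_prime (S.underK w)
  have hres : ∀ x : 𝓞 S.F, ∃ b : 𝓞 S.K, x - S.inclInt b ∈ w.asIdeal := by
    intro x
    have hbij : Function.Bijective
        (Ideal.quotientMap w.asIdeal S.inclInt (le_refl (S.underK w).asIdeal)) := by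
      refine Nat.bijective_iff_injective_and_card _ |>.mpr
        ⟨Ideal.quotientMap_injective' (H := le_rfl) le_rfl, ?_⟩
      rw [CFT.natCard_quotient_eq_absNorm, CFT.natCard_quotient_eq_absNorm, hp.absNorm_F hw,
        (hp.absNorm_K ((S.natCast_mem_underK w p).mpr hw)).1]
    obtain ⟨y, hy⟩ := hbij.2 (Ideal.Quotient.mk _ x)
    obtain ⟨b, rfl⟩ := Ideal.Quotient.mk_surjective y
    rw [Ideal.quotientMap_mk] at hy
    exact ⟨b, Ideal.Quotient.eq.mp hy.symm⟩
  let e : S.F ≃ₐ[ℚ] S.F := AlgEquiv.ofRingEquiv (f := σ) fun q => by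
    rw [eq_ratCast, map_ratCast]
  have he : ∀ x : 𝓞 S.F, e • x = galInt σ x := fun x => RingOfIntegers.coe_injective rfl
  have hmem : e ∈ w.asIdeal.inertia (S.F ≃ₐ[ℚ] S.F) := by
    intro x
    show e • x - x ∈ w.asIdeal
    obtain ⟨b, hb⟩ := hres x
    rw [he]
    have h1 : galInt σ (x - S.inclInt b) ∈ w.asIdeal := by
      rw [← hfix, galPlace_asIdeal, Ideal.mem_comap] at hb
      exact hb
    rw [map_sub, S.galInt_inclInt hσ] at h1
    simpa using sub_mem h1 hb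
  rw [S.inertia_eq_bot w.asIdeal w.ne_bot hp.prime hw hp.not_dvd, Subgroup.mem_bot] at hmem
  exact hσ.1 (RingEquiv.ext fun x => AlgEquiv.congr_fun hmem x)

/-- The three places over the prime. -/
theorem exists_places {σ : S.F ≃+* S.F} (hσ : S.IsGalGen σ) :
    ∃ (v : Fin 3 → HeightOneSpectrum (𝓞 S.F)) (P : HeightOneSpectrum (𝓞 S.K)),
      Function.Injective v ∧ P.asIdeal = Ideal.span {(p : 𝓞 S.K)} ∧
      Ideal.absNorm P.asIdeal = p ^ 2 ∧
      (∀ i, (p : 𝓞 S.F) ∈ (v i).asIdeal ∧ Ideal.absNorm (v i).asIdeal = p ^ 2 ∧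
        S.underK (v i) = P ∧ (v i).valuation S.F (p : S.F) = exp (-1 : ℤ)) ∧
      ∀ w : HeightOneSpectrum (𝓞 S.F), (p : 𝓞 S.F) ∈ w.asIdeal → ∃ i, v i = w := by
  obtain ⟨P₀, hP₀, hle⟩ := Ideal.exists_le_maximal (Ideal.span {(p : 𝓞 S.K)}) fun h => by
    have h1 := congrArg Ideal.absNorm h
    rw [Ideal.absNorm_span_natCast, Ideal.absNorm_top] at h1
    exact hp.prime.one_lt.ne' (pow_eq_one_iff.mp h1 |>.resolve_right Module.finrank_pos.ne')
  have hpP : (p : 𝓞 S.K) ∈ P₀ := hle (Ideal.mem_span_singleton_self _)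
  set P : HeightOneSpectrum (𝓞 S.K) := ⟨P₀, hP₀.isPrime, fun h => by
    rw [h, Ideal.mem_bot, Nat.cast_eq_zero] at hpP
    exact hp.prime.ne_zero hpP⟩
  obtain ⟨hPN, hPe⟩ := hp.absNorm_K (v := P) hpP
  have hunder : ∀ w : HeightOneSpectrum (𝓞 S.F), (p : 𝓞 S.F) ∈ w.asIdeal → S.underK w = P :=
    fun w hw => HeightOneSpectrum.ext
      ((hp.absNorm_K ((S.natCast_mem_underK w p).mpr hw)).2.trans hPe.symm)
  obtain ⟨w, hwP⟩ := S.exists_place_over P
  have hw : (p : 𝓞 S.F) ∈ w.asIdeal := (S.natCast_mem_underK w p).mp (hwP ▸ hpP)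
  have hne := hp.galPlace_ne hσ hw
  obtain ⟨h2, h3⟩ := galPlace_moved hσ hne
  have hw1 := (natCast_mem_galPlace σ w p).mpr hw
  have hw2 := (natCast_mem_galPlace σ _ p).mpr hw1
  have hmem : ∀ i, (p : 𝓞 S.F) ∈ (![w, galPlace σ w, galPlace σ (galPlace σ w)] i).asIdeal := by
    intro i; fin_cases i <;> assumption
  have hPv : P.valuation S.K (p : S.K) = exp (-1 : ℤ) := by
    rw [← map_natCast (algebraMap (𝓞 S.K) S.K), HeightOneSpectrum.valuation_of_algebraMap]
    exact P.intValuation_singleton (Nat.cast_ne_zero.mpr hp.prime.ne_zero) hPe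
  refine ⟨![w, galPlace σ w, galPlace σ (galPlace σ w)], P, ?_, hPe, hPN,
    fun i => ⟨hmem i, hp.absNorm_F (hmem i), hunder _ (hmem i), ?_⟩, fun w' hw' => ?_⟩
  · intro i j hij
    fin_cases i <;> fin_cases j <;>
      simp_all [hne.symm, h2.symm, h3.symm]
  · have h := valuation_pow_ramAt (![w, galPlace σ w, galPlace σ (galPlace σ w)] i) ((p : ℕ) : S.K)
    rwa [map_natCast, hunder _ (hmem i), ramAt_eq_one hσ (hp.galPlace_ne hσ (hmem i)), pow_one,
      hPv] at h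
  · rcases galPlace_orbit hσ ((hunder w' hw').trans hwP.symm) with h | h | h
    · exact ⟨0, h.symm⟩
    · exact ⟨1, h.symm⟩
    · exact ⟨2, h.symm⟩

end IsAuxPrime

end FermatAgent.LTG

end
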