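import Fermat.Agent.LT.General.Field
import Fermat.Agent.GalRep.Density.Frobenius
import Fermat.Agent.TW.Places
import Fermat.Agent.LT.Galois.Quaternion

set_option autoImplicit false

/-!
# Primes congruent to `-1` with Frobenius image of order eight
-/

noncomputable section

open NumberField IsDedekindDomain
open scoped Pointwise commutatorElement

namespace FermatAgent.LTG

open FermatAgent.LT (quaternionSubgroup mem_quaternionSubgroup q8Trace)

local notation "Qb" => AlgebraicClosure ℚ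
local notation "GQ" => AlgebraicClosure ℚ ≃ₐ[ℚ] AlgebraicClosure ℚ
local notation "G3" => GL (Fin 2) (ZMod 3)

attribute [local instance] FermatAgent.RT.isGalois_algClosureRat

/-- The upper unipotent. -/
def upperOne (x : ZMod 3) : G3 :=
  ⟨!![1, x; 0, 1], !![1, -x; 0, 1], by revert x; decide, by revert x; decide⟩

/-- The lower unipotent. -/
def lowerOne (x : ZMod 3) : G3 :=
  ⟨!![1, 0; x, 1], !![1, 0; -x, 1], by revert x; decide, by revert x; decide⟩

theorem det_one_mem_commutator {g : G3} (hg : (g : Matrix (Fin 2) (Fin 2) (ZMod 3)).det = 1) :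
    g ∈ commutator G3 := by
  let e : G3 := ⟨!![-1, 0; 0, 1], !![-1, 0; 0, 1], by decide, by decide⟩
  have hu : ∀ x, upperOne x ∈ commutator G3 := fun x => by
    have h : upperOne x = ⁅e, upperOne x⁆ := Units.ext (by
      simp only [commutatorElement_def, Units.val_mul]
      revert x; decide)
    rw [h, commutator_def]
    exact Subgroup.commutator_mem_commutator (Subgroup.mem_top _) (Subgroup.mem_top _)
  have hl : ∀ x, lowerOne x ∈ commutator G3 := fun x => by
    have h : lowerOne x = ⁅e, lowerOne x⁆ := Units.ext (by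
      simp only [commutatorElement_def, Units.val_mul]
      revert x; decide)
    rw [h, commutator_def]
    exact Subgroup.commutator_mem_commutator (Subgroup.mem_top _) (Subgroup.mem_top _)
  have key : ∀ a b c d : ZMod 3, a * d - b * c = 1 → ∃ w x y z : ZMod 3,
      !![a, b; c, d] = !![1, w; 0, 1] * !![1, 0; x, 1] * !![1, y; 0, 1] * !![1, 0; z, 1] := by
    decide
  have hm : (g : Matrix (Fin 2) (Fin 2) (ZMod 3)) = !![g 0 0, g 0 1; g 1 0, g 1 1] :=
    Matrix.eta_fin_two _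
  obtain ⟨w, x, y, z, h⟩ := key _ _ _ _ (by rw [← Matrix.det_fin_two]; exact hg)
  have he : g = upperOne w * lowerOne x * upperOne y * lowerOne z := Units.ext (hm.trans h)
  rw [he]
  exact mul_mem (mul_mem (mul_mem (hu w) (hl x)) (hu y)) (hl z)

/-- An element of order eight and determinant `-1`. -/
def octElt : G3 := ⟨!![1, 1; 1, 0], !![0, 1; 1, -1], by decide, by decide⟩

theorem octElt_facts : (octElt : Matrix (Fin 2) (Fin 2) (ZMod 3)).det = -1 ∧
    octElt ^ 4 = -1 ∧ octElt ^ 2 ∈ quaternionSubgroup := by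
  refine ⟨by decide, Units.ext ?_, mem_quaternionSubgroup.mpr ⟨?_, Or.inl ?_⟩⟩
  · rw [Units.val_pow_eq_pow_val]; decide
  · rw [Units.val_pow_eq_pow_val]; decide
  · rw [Units.val_pow_eq_pow_val]; decide

theorem oct_of_odd_pow {g : G3} (h4 : g ^ 4 = -1) (h2 : g ^ 2 ∈ quaternionSubgroup) {k : ℕ}
    (hk : Odd k) : (g ^ k) ^ 4 = -1 ∧ (g ^ k) ^ 2 ∈ quaternionSubgroup := by
  constructor
  · rw [← pow_mul, mul_comm, pow_mul, h4, hk.neg_one_pow]
  · rw [← pow_mul, mul_comm, pow_mul]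
    exact Subgroup.pow_mem _ h2 k

theorem q8Trace_oct {g : G3} (h4 : g ^ 4 = -1) : q8Trace (g ^ 2) = 0 := by
  have hne : (-1 : G3) ≠ 1 := fun h => absurd (congrArg Units.val h) (by decide)
  rw [q8Trace, if_neg fun h => hne ?_, if_neg fun h => hne ?_]
  · rw [← h4, show (4 : ℕ) = 2 * 2 from rfl, pow_mul, h, neg_one_sq]
  · rw [← h4, show (4 : ℕ) = 2 * 2 from rfl, pow_mul, h, one_pow]

theorem exists_inverting (N : ℕ) [NeZero N] {ζ : Qb} (hζ : IsPrimitiveRoot ζ N) :
    ∃ σ : GQ, σ ζ = ζ⁻¹ := by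
  have hN : 0 < N := Nat.pos_of_ne_zero (NeZero.ne N)
  have h1 := Polynomial.cyclotomic_eq_minpoly_rat hζ hN
  have h2 := Polynomial.cyclotomic_eq_minpoly_rat hζ.inv hN
  obtain ⟨σ, hσ⟩ := minpoly.exists_algEquiv_of_root' (Algebra.IsAlgebraic.isAlgebraic (R := ℚ) ζ)
    (show Polynomial.aeval ζ⁻¹ (minpoly ℚ ζ) = 0 by rw [← h1, h2]; exact minpoly.aeval ℚ _)
  exact ⟨σ, hσ⟩

/-- The reduction is injective on the roots of unity of order prime to `p`. -/
theorem eq_one_of_val_sub_lt {A : ValuationSubring Qb} {p : ℕ} (hp : p.Prime)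
    (hA : A.LiesOverPrime p) {N : ℕ} (hN : 0 < N) (hpN : ¬ p ∣ N) {μ : Qb} (hμ : μ ^ N = 1)
    (h : A.valuation (μ - 1) < 1) : μ = 1 := by
  by_contra hne
  have hint : IsIntegral ℤ μ := IsIntegral.of_pow hN (by rw [hμ]; exact isIntegral_one)
  have hmem : μ ∈ A := FermatAgent.RT.mem_of_isIntegral_int A hint
  set s : A := ⟨μ, hmem⟩
  have hs : IsLocalRing.residue A s = 1 := by
    rw [← map_one (IsLocalRing.residue A), FermatAgent.TW.residue_eq_iff]
    exact h
  have hgeom : ∑ i ∈ Finset.range N, s ^ i = 0 := by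
    refine Subtype.ext ?_
    push_cast
    rw [geom_sum_eq hne, hμ, sub_self, zero_div]
  have h0 := congrArg (IsLocalRing.residue A) hgeom
  rw [map_zero, map_sum] at h0
  simp only [map_pow, hs, one_pow, Finset.sum_const, Finset.card_range, nsmul_eq_mul, mul_one] at h0
  rw [← map_natCast (IsLocalRing.residue A), IsLocalRing.residue_eq_zero_iff] at h0
  have h0' : ((N : A) : Qb) ∈ A.nonunits :=
    (A.coe_mem_nonunits_iff).mpr h0
  have hc : ((N : ℤ) : integralClosure ℤ Qb) ∈ FermatAgent.RT.centre A := by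
    rw [FermatAgent.RT.mem_centre_iff]
    simpa using h0'
  rw [FermatAgent.RT.intCast_mem_centre_iff hp hA, Int.natCast_dvd_natCast] at hc
  exact hpN hc
/-- **The auxiliary primes.** -/
theorem Setup.exists_auxPrime (S : Setup) (N : ℕ) (hN : N ≠ 0) (T : Finset ℕ) :
    ∃ p : ℕ, p.Prime ∧ p ∉ T ∧ ¬ p ∣ S.m ∧ N ∣ p + 1 ∧ ∃ A : ValuationSubring Qb,
      A.LiesOverPrime p ∧ ∃ τ : GQ, A.IsFrobeniusAt τ p ∧ S.ρ τ ^ 4 = -1 ∧
        S.ρ τ ^ 2 ∈ quaternionSubgroup := by
  have : NeZero N := ⟨hN⟩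
  have : NeZero (3 * N) := ⟨by omega⟩
  have : NeZero (((3 * N : ℕ)) : Qb) := ⟨Nat.cast_ne_zero.mpr (by omega)⟩
  obtain ⟨ζ, hζ⟩ := HasEnoughRootsOfUnity.exists_primitiveRoot Qb (3 * N)
  obtain ⟨σ₀, hσ₀⟩ := exists_inverting (3 * N) hζ
  set ω := ζ ^ N
  have hω : IsPrimitiveRoot ω 3 := hζ.pow (Nat.pos_of_ne_zero (NeZero.ne _)) (mul_comm 3 N)
  -- the determinant at the inverting element
  have hchi : WeierstrassCurve.modThreeCyclotomicChar σ₀ ≠ 1 := by
    intro hc
    have : NeZero ((3 : ℕ) : Qb) := ⟨by norm_num⟩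
    have hspec := modularCyclotomicCharacter.spec Qb (IsAlgClosed.card_rootsOfUnity_eq Qb 3)
      (σ₀ : Qb ≃+* Qb) (t := ((hω.toRootsOfUnity : rootsOfUnity 3 Qb) : Qbˣ)) hω.toRootsOfUnity.2
    change σ₀ ω = ω ^ _ at hspec
    rw [WeierstrassCurve.modThreeCyclotomicChar_apply] at hc
    rw [hc, map_pow, hσ₀, inv_pow] at hspec
    simp only [Units.val_one, ZMod.val_one, pow_one] at hspec
    have h2 : ω ^ 2 = 1 := by
      have h0 : ω ≠ 0 := hω.ne_zero (by norm_num)
      have h := congrArg (· * ω) hspec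
      simp only [ω] at h0 h ⊢
      rw [inv_mul_cancel₀ h0] at h
      rw [pow_two, ← h]
    exact absurd (hω.dvd_of_pow_eq_one 2 h2) (by norm_num)
  have hdet : (S.ρ σ₀ : Matrix (Fin 2) (Fin 2) (ZMod 3)).det = -1 := by
    rw [← Matrix.GeneralLinearGroup.val_det_apply, S.det_eq]
    generalize WeierstrassCurve.modThreeCyclotomicChar σ₀ = u at hchi
    revert u
    decide
  -- adjust by a commutator
  have hmem : (S.ρ σ₀)⁻¹ * octElt ∈ commutator G3 := by
    refine det_one_mem_commutator ?_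
    rw [← Matrix.GeneralLinearGroup.val_det_apply, map_mul, map_inv, inv_mul_eq_one.mpr
      (Units.ext ?_), Units.val_one]
    rw [Matrix.GeneralLinearGroup.val_det_apply, Matrix.GeneralLinearGroup.val_det_apply, hdet,
      octElt_facts.1]
  have hmap : (commutator GQ).map S.ρ = commutator G3 := by
    rw [commutator_def, commutator_def, Subgroup.map_commutator,
      Subgroup.map_top_of_surjective _ S.surjective]
  rw [← hmap] at hmem
  obtain ⟨h, hh, hρh⟩ := hmem
  set σ := σ₀ * h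
  have hσρ : S.ρ σ = octElt := by rw [map_mul, hρh, mul_inv_cancel_left]
  -- commutators fix the roots of unity
  have hfix : h ζ = ζ := by
    have hker : commutator GQ ≤
        ((modularCyclotomicCharacter Qb (IsAlgClosed.card_rootsOfUnity_eq Qb (3 * N))).comp
          (MonoidHom.mk' (fun g : GQ => (g : Qb ≃+* Qb)) fun _ _ => rfl)).ker :=
      Abelianization.commutator_subset_ker _
    have hspec := modularCyclotomicCharacter.spec Qb (IsAlgClosed.card_rootsOfUnity_eq Qb (3 * N))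
      (h : Qb ≃+* Qb) (t := ((hζ.toRootsOfUnity : rootsOfUnity (3 * N) Qb) : Qbˣ))
      hζ.toRootsOfUnity.2
    have h1 := MonoidHom.mem_ker.mp (hker hh)
    change modularCyclotomicCharacter Qb _ (h : Qb ≃+* Qb) = 1 at h1
    change h ζ = ζ ^ _ at hspec
    rw [h1] at hspec
    have : Fact (1 < 3 * N) := ⟨by have := Nat.pos_of_ne_zero hN; omega⟩
    simpa [ZMod.val_one] using hspec
  have hσζ : σ ζ = ζ⁻¹ := by
    change σ₀ (h ζ) = _
    rw [hfix, hσ₀]
  -- the density step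
  obtain ⟨E, hE, hEker⟩ := S.finiteLevel
  have : FiniteDimensional ℚ (IntermediateField.adjoin ℚ ({ζ} : Set Qb)) :=
    IntermediateField.adjoin.finiteDimensional
      (Algebra.IsIntegral.isIntegral (R := ℚ) ζ)
  set L := E ⊔ IntermediateField.adjoin ℚ ({ζ} : Set Qb)
  have hbad : {q : ℕ | q ∣ S.m * (3 * N)}.Finite :=
    (Set.finite_le_nat (S.m * (3 * N))).subset fun q hq =>
      Nat.le_of_dvd (Nat.pos_of_ne_zero (mul_ne_zero S.m_ne_zero (by omega))) hq
  obtain ⟨p, hp, hpS, A, hA, τ, hτ, a, k, ha, hk⟩ :=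
    FermatAgent.GalRep.exists_isFrobeniusAt_pow_eq L σ (T.finite_toSet.union hbad)
  have hpm : ¬ p ∣ S.m := fun h' => hpS (Or.inr (h'.mul_right _))
  have hpN : ¬ p ∣ 3 * N := fun h' => hpS (Or.inr (h'.mul_left _))
  have hρeq : ∀ f g : GQ, (∀ x ∈ L, f x = g x) → S.ρ f = S.ρ g := fun f g hfg => by
    have h1 : S.ρ (g⁻¹ * f) = 1 := hEker _ fun x hx => by
      rw [AlgEquiv.mul_apply, hfg x (le_sup_left (b := IntermediateField.adjoin ℚ ({ζ} : Set Qb)) hx),
        ← AlgEquiv.mul_apply, inv_mul_cancel, AlgEquiv.one_apply]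
    calc S.ρ f = S.ρ (g * (g⁻¹ * f)) := by rw [mul_inv_cancel_left]
      _ = S.ρ g := by rw [map_mul, h1, mul_one]
  have hρτ : S.ρ τ = octElt ^ k := by
    rw [← hρeq _ _ hk, map_pow, hσρ]
  have hodd : Odd k := by
    by_contra hk2
    rw [Nat.not_odd_iff_even] at hk2
    have h1 := hρeq _ _ ha
    rw [map_pow, hρτ, ← pow_mul, hσρ] at h1
    have hd := congrArg (fun g : G3 => (g : Matrix (Fin 2) (Fin 2) (ZMod 3)).det) h1
    simp only [Units.val_pow_eq_pow_val, Matrix.det_pow, octElt_facts.1,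
      (hk2.mul_right a).neg_one_pow] at hd
    exact absurd hd (by decide)
  have hζL : ζ ∈ L :=
    (le_sup_right (a := E) : IntermediateField.adjoin ℚ ({ζ} : Set Qb) ≤ L)
      (IntermediateField.mem_adjoin_simple_self ℚ ζ)
  have hτζ : τ ζ = ζ⁻¹ := by
    rw [← hk ζ hζL]
    obtain ⟨j, rfl⟩ := hodd
    have h2 : ∀ j : ℕ, (σ ^ (2 * j)) ζ = ζ := fun j => by
      induction j with
      | zero => rfl
      | succ j ih =>
        rw [show 2 * (j + 1) = 2 * j + 2 by ring, pow_add, AlgEquiv.mul_apply, pow_two,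
          AlgEquiv.mul_apply, hσζ, map_inv₀, hσζ, inv_inv, ih]
    rw [pow_succ, AlgEquiv.mul_apply, hσζ, map_inv₀, h2]
  have hpow : ζ ^ (p + 1) = 1 := by
    have hζA : ζ ∈ A := FermatAgent.RT.mem_of_isIntegral_int A
      (IsIntegral.of_pow (by omega : 0 < 3 * N) (by rw [hζ.pow_eq_one]; exact isIntegral_one))
    have h1 := ((FermatAgent.TW.isFrobeniusAt_iff).mp hτ).2 ζ hζA
    refine eq_one_of_val_sub_lt hp hA (by omega : 0 < 3 * N) hpN
      (by rw [← pow_mul, mul_comm, pow_mul, hζ.pow_eq_one, one_pow]) ?_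
    have e : ζ ^ (p + 1) - 1 = -(ζ * (τ ζ - ζ ^ p)) := by
      rw [hτζ, mul_sub, mul_inv_cancel₀ (hζ.ne_zero (by omega)), pow_succ']
      ring
    rw [e, Valuation.map_neg, map_mul]
    exact (mul_le_of_le_one_left' ((A.valuation_le_one_iff ζ).mpr hζA)).trans_lt h1
  refine ⟨p, hp, fun h' => hpS (Or.inl h'), hpm,
    dvd_trans (dvd_mul_left N 3) (hζ.dvd_of_pow_eq_one _ hpow), A, hA, τ, hτ, ?_⟩
  rw [hρτ]
  exact oct_of_odd_pow octElt_facts.2.1 octElt_facts.2.2 hodd

end FermatAgent.LTG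

end
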