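import Fermat.Agent.LT.General.Annihilator.Gain

set_option autoImplicit false

/-!
# Combinations killing the constant terms, preceded by unit balls, have bounded sums over the group
-/

noncomputable section

open MeasureTheory Set Filter NumberField IsDedekindDomain
open scoped MatrixGroups ENNReal

namespace FermatAgent.LTG

open FermatAgent.LT

variable {L : Type*} [Field L] [NumberField L] {𝔫 : Ideal (𝓞 L)}

/-- `n` unit balls in front of a kernel. -/
def preBalls : ℕ → (H3 → H3 → ℂ) → H3 → H3 → ℂ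
  | 0, h => h
  | n + 1, h => H3.kConv (H3.ballKer 1) (preBalls n h)

theorem isInvKer_preBalls {h : H3 → H3 → ℂ} (hh : H3.IsInvKer h) :
    ∀ n, H3.IsInvKer (preBalls n h)
  | 0 => hh
  | n + 1 => (H3.isInvKer_ballKer 1).kConv (isInvKer_preBalls hh n)

variable [h𝔫 : Fact (𝔫 ≠ ⊥)]

omit h𝔫 in
theorem integrable_prodKer_apply {h : InfinitePlace L → H3 → H3 → ℂ} (hh : ∀ w, H3.IsInvKer (h w))
    {T : Module.End ℂ (Cosets 𝔫 → ℂ)} (hT : IsCosetOp T) {H : YSpace 𝔫 → ℂ}
    (hm : Measurable H) (hb : IsBoxBdd H) (x : XInf L) (q : Cosets 𝔫) :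
    Integrable (fun u => prodKer h x u * T (fun p => H (u, p)) q)
      (Measure.pi fun _ : InfinitePlace L => H3.vol) := by
  obtain ⟨R, hR⟩ := exists_logHt_supp hh
  obtain ⟨C, hC⟩ := hb ((∑ w, |logHt x w|) + R) _ (hT.row q)
  refine ((integrable_prodKer hh x).norm.mul_const
    ((∑ b ∈ (hT.row q).toFinset, ‖finKer T q b‖) * max C 0)).mono'
    (((measurable_prodKer hh).comp measurable_prodMk_left).mul
      (measurable_applyT hT hm q)).aestronglyMeasurable (Eventually.of_forall fun u => ?_)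
  rw [norm_mul]
  by_cases h1 : prodKer h x u = 0
  · simp [h1]
  refine mul_le_mul_of_nonneg_left (norm_apply_op_le hT fun b hb => ?_) (norm_nonneg _)
  refine (hC u (fun w => ?_) b ((Finite.mem_toFinset _).mp hb)).trans (le_max_left _ _)
  calc |logHt u w| = |logHt x w + (logHt u w - logHt x w)| := by rw [add_sub_cancel]
    _ ≤ _ := (abs_add_le _ _).trans (add_le_add
      (Finset.single_le_sum (f := fun w => |logHt x w|) (fun _ _ => abs_nonneg _)
        (Finset.mem_univ w)) (hR x u h1 w))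

omit h𝔫 in
theorem IsAdmissible.sum {ι : Type*} {s : Finset ι} {c : ι → ℂ} {H : ι → YSpace 𝔫 → ℂ}
    (hH : ∀ i ∈ s, IsAdmissible (H i)) : IsAdmissible fun y => ∑ i ∈ s, c i * H i y where
  measurable := Finset.measurable_sum _ fun i hi => (hH i hi).measurable.const_mul _
  invariant γ y := Finset.sum_congr rfl fun i hi => by rw [(hH i hi).invariant]
  slab lo hi hlo D hD := by
    classical
    choose! C hC using fun i (hi' : i ∈ s) => (hH i hi').slab lo hi hlo D hD
    refine ⟨∑ i ∈ s, ‖c i‖ * C i, fun x hx q hq => (norm_sum_le _ _).trans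
      (Finset.sum_le_sum fun i hi' => ?_)⟩
    rw [norm_mul]
    exact mul_le_mul_of_nonneg_left (hC i hi' x hx q hq) (norm_nonneg _)

theorem constTerm_sum {ι : Type*} {s : Finset ι} {c : ι → ℂ} {H : ι → YSpace 𝔫 → ℂ}
    (hH : ∀ i ∈ s, IsAdmissible (H i)) (y : YSpace 𝔫) :
    constTerm (fun y => ∑ i ∈ s, c i * H i y) y = ∑ i ∈ s, c i * constTerm (H i) y := by
  obtain ⟨x, q⟩ := y
  simp only [constTerm, meanAt]
  rw [integral_finsetSum]
  · simp only [integral_const_mul]
  · intro i hi
    obtain ⟨C, hC⟩ := (hH i hi).boxBdd (∑ w, |logHt x w|) {q} (finite_singleton q)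
    refine Integrable.const_mul (Integrable.mono'
      (integrableOn_const (s := FermatAgent.LT.Dihedral.boxAt 0) (C := C) (by simp [Dihedral.volume_boxAt]))
      ((measurable_meanInt (hH i hi).measurable _ q).comp measurable_prodMk_left).aestronglyMeasurable
      (Eventually.of_forall fun y => hC _ (fun w => ?_) q (mem_singleton q))) _
    simp only [logHt, hshift_t]
    exact Finset.single_le_sum (f := fun w => |Real.log (x w).t|) (fun _ _ => abs_nonneg _)
      (Finset.mem_univ w)

theorem yOp_sum {ι : Type*} {s : Finset ι} {c : ι → ℂ} {H : ι → YSpace 𝔫 → ℂ}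
    (hH : ∀ i ∈ s, IsAdmissible (H i)) {h : InfinitePlace L → H3 → H3 → ℂ}
    (hh : ∀ w, H3.IsInvKer (h w)) {T : Module.End ℂ (Cosets 𝔫 → ℂ)} (hT : IsCosetOp T)
    (y : YSpace 𝔫) : yOp (yKer h T) (fun y => ∑ i ∈ s, c i * H i y) y =
      ∑ i ∈ s, c i * yOp (yKer h T) (H i) y := by
  obtain ⟨x, q⟩ := y
  have hsum := IsAdmissible.sum (c := c) hH
  rw [yOp_yKer_loc hh hT hsum.measurable hsum.boxBdd,
    Finset.sum_congr rfl fun i hi => by
      rw [yOp_yKer_loc hh hT (hH i hi).measurable (hH i hi).boxBdd, ← integral_const_mul],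
    ← integral_finsetSum _ fun i hi => (integrable_prodKer_apply hh hT (hH i hi).measurable
      (hH i hi).boxBdd x q).const_mul _]
  refine integral_congr_ae (Eventually.of_forall fun u => ?_)
  dsimp only
  rw [show (fun p => ∑ i ∈ s, c i * H i (u, p)) = ∑ i ∈ s, c i • fun p => H i (u, p) by
    funext p; simp, map_sum, Finset.sum_apply, Finset.mul_sum]
  refine Finset.sum_congr rfl fun i _ => ?_
  rw [map_smul, Pi.smul_apply, smul_eq_mul]
  ring

theorem meanZero_yOp {h : InfinitePlace L → H3 → H3 → ℂ} (hh : ∀ w, H3.IsInvKer (h w))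
    {T : Module.End ℂ (Cosets 𝔫 → ℂ)} (hT : IsCosetOp T) {H : YSpace 𝔫 → ℂ}
    (hH : IsAdmissible H) (hz : MeanZero H) : MeanZero (yOp (yKer h T) H) := fun ⟨x, q⟩ => by
  rw [constTerm_yOp hh hT hH]
  refine integral_eq_zero_of_ae (Eventually.of_forall fun u => ?_)
  have e : (fun p => constTerm H (u, p)) = 0 := funext fun p => hz (u, p)
  simp [e]

theorem isAdmissible_kerSum {k : YSpace 𝔫 → YSpace 𝔫 → ℂ} [IsTotallyComplex L] (hk : IsYKernel k)
    (z : YSpace 𝔫) : IsAdmissible fun y => kerSum k y z :=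
  isAdmissible_of_stripGrowth (F := fun z y => kerSum k y z) (hk.hasStripGrowth_kerSum h𝔫.out) z
    (hk.measurable_kerSum.comp measurable_prodMk_right) fun γ y => kerSum_smul_left hk γ y z

/-- The kernel of a combination. -/
def combKer {ι : Type*} (s : Finset ι) (c : ι → ℂ) (k : ι → YSpace 𝔫 → YSpace 𝔫 → ℂ)
    (y z : YSpace 𝔫) : ℂ := ∑ i ∈ s, c i * k i y z

omit h𝔫 in
theorem kerSum_combKer {ι : Type*} {s : Finset ι} {c : ι → ℂ}
    {k : ι → YSpace 𝔫 → YSpace 𝔫 → ℂ} (hk : ∀ i, IsYKernel (k i)) (y z : YSpace 𝔫) :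
    kerSum (combKer s c k) y z = ∑ i ∈ s, c i * kerSum (k i) y z := by
  simp only [kerSum, combKer]
  rw [Summable.tsum_finsetSum fun i _ =>
    (summable_of_hasFiniteSupport ((hk i).finite_kerSum y z)).mul_left _]
  simp only [tsum_mul_left]

/-- **Boundedness.** -/
theorem exists_bound_combKer [IsTotallyComplex L] {ι : Type*} (s : Finset ι) (c : ι → ℂ)
    {h : ι → InfinitePlace L → H3 → H3 → ℂ} (hh : ∀ i w, H3.IsInvKer (h i w))
    {T : ι → Module.End ℂ (Cosets 𝔫 → ℂ)} (hT : ∀ i, IsCosetOp (T i))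
    (hann : ∀ H, IsAdmissible H → ∀ y,
      ∑ i ∈ s, c i * constTerm (yOp (yKer (h i) (T i)) H) y = 0)
    {m : ℕ} (hm : 2 * Fintype.card (InfinitePlace L) ≤ m) :
    ∃ C : ℝ, ∀ y z : YSpace 𝔫, ‖kerSum (combKer s c fun i =>
      yKer (fun w => preBalls m (H3.kConv (h i w) (H3.ballKer 1))) (T i)) y z‖ ≤ C := by
  have hB := fun _ : InfinitePlace L => H3.isInvKer_ballKer 1
  set k : ℕ → ι → YSpace 𝔫 → YSpace 𝔫 → ℂ := fun j i =>
    yKer (fun w => preBalls j (H3.kConv (h i w) (H3.ballKer 1))) (T i) with hk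
  have hinv : ∀ j i w, H3.IsInvKer (preBalls j (H3.kConv (h i w) (H3.ballKer 1))) := fun j i w =>
    isInvKer_preBalls ((hh i w).kConv (H3.isInvKer_ballKer 1)) j
  have hY : ∀ j i, IsYKernel (k j i) := fun j i => isYKernel_yKer (hinv j i) (hT i)
  set F : ℕ → YSpace 𝔫 → YSpace 𝔫 → ℂ := fun j z y => kerSum (combKer s c (k j)) y z with hF
  have hFe : ∀ j z, F j z = fun y => ∑ i ∈ s, c i * kerSum (k j i) y z := fun j z =>
    funext fun y => kerSum_combKer (hY j) y z
  have hadm : ∀ j z, IsAdmissible (F j z) := fun j z => by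
    rw [hFe]
    exact IsAdmissible.sum fun i _ => isAdmissible_kerSum (hY j i) z
  have hB0 : IsYKernel (yKer (𝔫 := 𝔫) (fun _ : InfinitePlace L => H3.ballKer 1) 1) :=
    isYKernel_yKer hB isCosetOp_one
  have hzero0 : ∀ z, MeanZero (F 0 z) := fun z y => by
    have e : F 0 z = fun y => ∑ i ∈ s, c i * yOp (yKer (h i) (T i))
        (fun u => kerSum (yKer (fun _ => H3.ballKer 1) 1) u z) y := by
      rw [hFe]
      funext y
      refine Finset.sum_congr rfl fun i _ => ?_
      rw [← kerSum_yConv (isYKernel_yKer (hh i) (hT i)) hB0,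
        yConv_yKer (hT i) isCosetOp_one, mul_one]
      rfl
    rw [e, constTerm_sum fun i _ => isAdmissible_yOp (hh i) (hT i) (isAdmissible_kerSum hB0 z)]
    exact hann _ (isAdmissible_kerSum hB0 z) y
  have hstep : ∀ j z, F (j + 1) z = yOp (yKer (fun _ => H3.ballKer 1) 1) (F j z) := fun j z => by
    rw [hFe, hFe]
    funext y
    rw [yOp_sum (fun i _ => isAdmissible_kerSum (hY j i) z) hB isCosetOp_one]
    refine Finset.sum_congr rfl fun i _ => ?_
    rw [← kerSum_yConv hB0 (hY j i), hk, yConv_yKer isCosetOp_one (hT i), one_mul]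
    rfl
  have hzero : ∀ j z, MeanZero (F j z) := fun j => by
    induction j with
    | zero => exact hzero0
    | succ j ih =>
      intro z
      rw [hstep]
      exact meanZero_yOp hB isCosetOp_one (hadm j z) (ih z)
  have hgrow : ∀ j, HasStripGrowth (F j) (2 * Fintype.card (InfinitePlace L) - j) := by
    intro j
    induction j with
    | zero =>
      intro c' R hc D hD
      choose C hC0 hC using fun i =>
        (hY 0 i).hasStripGrowth_kerSum h𝔫.out c' R hc D hD
      refine ⟨∑ i ∈ s, ‖c i‖ * C i, Finset.sum_nonneg fun i _ => by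
        have := hC0 i; positivity, fun z x hx q hq => ?_⟩
      rw [hFe, Finset.sum_mul]
      refine (norm_sum_le _ _).trans (Finset.sum_le_sum fun i _ => ?_)
      rw [norm_mul, mul_assoc]
      exact mul_le_mul_of_nonneg_left (hC i z x hx q hq) (norm_nonneg _)
    | succ j ih =>
      set b := 2 * Fintype.card (InfinitePlace L) - (j + 1)
      have hb : HasStripGrowth (F j) (b + 1) := by
        rcases Nat.lt_or_ge j (2 * Fintype.card (InfinitePlace L)) with h1 | h1
        · rwa [show b + 1 = 2 * Fintype.card (InfinitePlace L) - j by omega]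
        · rw [show 2 * Fintype.card (InfinitePlace L) - j = 0 by omega] at ih
          rw [show b = 0 by omega]
          exact ih.succ
      rw [show F (j + 1) = fun z => yOp (yKer (fun _ => H3.ballKer 1) 1) (F j z) from
        funext (hstep j)]
      exact hasStripGrowth_yOp_ball (fun z => (hadm j z).measurable)
        (fun z => (hadm j z).invariant) (hzero j) hb
  have h0 := hgrow m
  rw [show 2 * Fintype.card (InfinitePlace L) - m = 0 by omega] at h0
  obtain ⟨D, c', R, hD, hc, -, hmeet⟩ := exists_siegel (𝔫 := 𝔫) h𝔫.out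
  obtain ⟨C, -, hC⟩ := h0 c' R hc D hD
  refine ⟨C, fun y z => ?_⟩
  obtain ⟨γ, hγD, hγS⟩ := hmeet y
  change ‖F m z y‖ ≤ C
  rw [← (hadm m z).invariant γ y]
  have := hC z (γ • y).1 (fun w => (hγS w).2) (γ • y).2 hγD
  simpa using this

end FermatAgent.LTG

end
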