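import Fermat.Agent.LT.Descent.Spectral.Mean
import Fermat.Agent.LT.General.Annihilator.Abel

set_option autoImplicit false

/-!
# Compositions of lists of kernels, ending with the unit ball
-/

noncomputable section

open MeasureTheory Set Filter
open scoped ComplexConjugate ENNReal

namespace FermatAgent.LT.H3

/-- The composition of the kernels of a list and the unit ball. -/
def chainKer : List (H3 → H3 → ℂ) → H3 → H3 → ℂ
  | [] => ballKer 1
  | h :: l => kConv h (chainKer l)

theorem isInvKer_chainKer : ∀ {l : List (H3 → H3 → ℂ)}, (∀ h ∈ l, IsInvKer h) →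
    IsInvKer (chainKer l)
  | [], _ => isInvKer_ballKer 1
  | h :: _, hl => (hl h List.mem_cons_self).kConv
      (isInvKer_chainKer fun g hg => hl g (List.mem_cons_of_mem _ hg))

theorem kConv_chainKer : ∀ {l l' : List (H3 → H3 → ℂ)}, (∀ h ∈ l, IsInvKer h) →
    (∀ h ∈ l', IsInvKer h) → kConv (chainKer l) (chainKer l') = chainKer (l ++ ballKer 1 :: l')
  | [], _, _, _ => rfl
  | h :: l, l', hl, hl' => by
    have h1 := fun g hg => hl g (List.mem_cons_of_mem h hg)
    rw [chainKer, kConv_assoc (hl h List.mem_cons_self) (isInvKer_chainKer h1)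
      (isInvKer_chainKer hl'), kConv_chainKer h1 hl']
    rfl

theorem chainKer_perm {l l' : List (H3 → H3 → ℂ)} (hp : l.Perm l') :
    (∀ h ∈ l, IsInvKer h) → chainKer l = chainKer l' := by
  induction hp with
  | nil => exact fun _ => rfl
  | cons x _ ih => exact fun hl => congrArg (kConv x) (ih fun g hg => hl g (List.mem_cons_of_mem _ hg))
  | swap x y l =>
    intro hl
    have hy := hl y List.mem_cons_self
    have hx := hl x (List.mem_cons_of_mem _ List.mem_cons_self)
    have hc := isInvKer_chainKer fun g (hg : g ∈ l) =>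
      hl g (List.mem_cons_of_mem _ (List.mem_cons_of_mem _ hg))
    change kConv y (kConv x (chainKer l)) = kConv x (kConv y (chainKer l))
    rw [← kConv_assoc hy hx hc, kConv_comm hy hx, kConv_assoc hx hy hc]
  | trans h₁ _ ih ih' => exact fun hl => (ih hl).trans (ih' fun g hg => hl g (h₁.mem_iff.mpr hg))

theorem conj_chainKer : ∀ {l : List (H3 → H3 → ℂ)},
    (∀ h ∈ l, ∀ P Q, conj (h P Q) = h P Q) → ∀ P Q, conj (chainKer l P Q) = chainKer l P Q
  | [], _, P, Q => by rw [chainKer, ballKer_nonneg, Complex.conj_ofReal]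
  | h :: l, hl, P, Q => by
    change conj (∫ U, _ ∂vol) = ∫ U, _ ∂vol
    rw [← integral_conj]
    refine integral_congr_ae (Eventually.of_forall fun U => ?_)
    simp only [map_mul, hl h List.mem_cons_self P U,
      conj_chainKer (fun g hg => hl g (List.mem_cons_of_mem _ hg)) U Q]

theorem conj_radKer (k : ℝ → ℝ) (P Q : H3) : conj (radKer k P Q) = radKer k P Q :=
  Complex.conj_ofReal _

/-- The mean value of a composition is the product of the mean values. -/
theorem mean_chainKer {f : H3 → ℂ} (hf : Measurable f) {C : ℝ} (hC : ∀ P, ‖f P‖ ≤ C)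
    (hball : ∀ P, ∫ Q, ballKer 1 P Q * f Q ∂vol = (sph0 1 : ℂ) * f P) :
    ∀ {l : List ((H3 → H3 → ℂ) × ℂ)}, (∀ p ∈ l, IsInvKer p.1) →
      (∀ p ∈ l, ∀ P, ∫ Q, p.1 P Q * f Q ∂vol = p.2 * f P) →
      ∀ P, ∫ Q, chainKer (l.map Prod.fst) P Q * f Q ∂vol =
        (l.map Prod.snd).prod * (sph0 1 : ℂ) * f P
  | [], _, _, P => by simpa [chainKer] using hball P
  | p :: l, hl, hm, P => by
    have h1 := fun g hg => hl g (List.mem_cons_of_mem p hg)
    rw [List.map_cons, List.map_cons, List.prod_cons, chainKer,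
      mean_kConv (hl p List.mem_cons_self) (isInvKer_chainKer fun g hg => by
        obtain ⟨q, hq, rfl⟩ := List.mem_map.mp hg
        exact h1 q hq) hf hC (hm p List.mem_cons_self)
        (mean_chainKer hf hC hball h1 fun q hq => hm q (List.mem_cons_of_mem _ hq))]
    ring

/-- The composition applied to a bounded function. -/
theorem integral_kConv_mul {h h' : H3 → H3 → ℂ} (hh : IsInvKer h) (hh' : IsInvKer h') {f : H3 → ℂ}
    (hf : Measurable f) {C : ℝ} (hC : ∀ P, ‖f P‖ ≤ C) (P : H3) :
    ∫ Q, kConv h h' P Q * f Q ∂vol = ∫ U, h P U * ∫ Q, h' U Q * f Q ∂vol ∂vol := by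
  simp only [kConv, ← integral_mul_const]
  rw [integral_integral_swap ?_]
  · simp only [mul_assoc, integral_const_mul]
  refine Integrable.swap (f := fun p : H3 × H3 => h P p.1 * h' p.1 p.2 * f p.2) ?_
  have hm : Measurable fun p : H3 × H3 => h P p.1 * h' p.1 p.2 * f p.2 :=
    (((hh.measurable_row P).comp measurable_fst).mul hh'.measurable).mul (hf.comp measurable_snd)
  refine ⟨hm.aestronglyMeasurable, ?_⟩
  rw [hasFiniteIntegral_iff_enorm, lintegral_prod _ hm.enorm.aemeasurable]
  obtain ⟨V, hV⟩ := hh.exists_lintegral_le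
  obtain ⟨W, hW⟩ := hh'.exists_lintegral_le
  refine lt_of_le_of_lt (lintegral_mono (g := fun U => ‖h P U‖ₑ *
    (ENNReal.ofReal W * ENNReal.ofReal C)) fun U => ?_) ?_
  · simp only [enorm_mul, mul_assoc]
    rw [lintegral_const_mul _ (show Measurable fun Q => ‖h' U Q‖ₑ * ‖f Q‖ₑ from
      (hh'.measurable_row U).enorm.mul hf.enorm)]
    refine mul_le_mul_right ?_ _
    refine le_trans (lintegral_mono fun Q => mul_le_mul_right
      ((ofReal_norm (f Q)).symm.le.trans (ENNReal.ofReal_le_ofReal (hC Q))) _) ?_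
    rw [lintegral_mul_const _ (hh'.measurable_row U).enorm]
    exact mul_le_mul_left (hW U) _
  · rw [lintegral_mul_const _ (hh.measurable_row P).enorm]
    exact ENNReal.mul_lt_top ((hV P).trans_lt ENNReal.ofReal_lt_top)
      (ENNReal.mul_lt_top ENNReal.ofReal_lt_top ENNReal.ofReal_lt_top)

end FermatAgent.LT.H3

end
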