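import Fermat.Agent.LT.Descent.Kernel.CosetOp
import Fermat.Agent.LT.MultOne.StrongApprox
import Fermat.Agent.LT.Base.Siegel

set_option autoImplicit false

/-!
# Functions of the finite cosets invariant under the rational translations

Such a function is determined by its values at the cosets of `diag (A, 1) k`, and the Hecke operators
at the good places act on these by translations of the idele `A`.
-/

noncomputable section

open NumberField IsDedekindDomain WithZero Filter
open scoped MatrixGroups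

namespace FermatAgent.LTG

open FermatAgent.LT

variable {L : Type*} [Field L] [NumberField L] {𝔫 : Ideal (𝓞 L)}

/-- The integral adelic matrices as adelic matrices. -/
abbrev intMat (k : GL (Fin 2) (IntAd L)) : GAf L :=
  Matrix.GeneralLinearGroup.map intToAdele k

/-- The coset of `diag (A, 1) k`. -/
def cosetAt (𝔫 : Ideal (𝓞 L)) (k : GL (Fin 2) (IntAd L)) (A : (Adf L)ˣ) : Cosets 𝔫 :=
  ((upperTri A 0 1 * intMat k : GAf L) : Cosets 𝔫)

/-- The functions invariant under the rational translations. -/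
def UniInv (g : Cosets 𝔫 → ℂ) : Prop :=
  ∀ (β : L) (p : Cosets 𝔫), g (rationalMat (upperTri 1 β 1) • p) = g p

theorem UniInv.apply_op {T : Module.End ℂ (Cosets 𝔫 → ℂ)} (hT : IsCosetOp T)
    {g : Cosets 𝔫 → ℂ} (hg : UniInv g) : UniInv (T g) := fun β p => by
  rw [← hT.equivariant]
  exact congrArg (fun f => T f p) (funext fun p' => hg β p')

theorem congr_conj_int {u : GAf L} (hu : u ∈ congrSubgroup 𝔫) (k : GL (Fin 2) (IntAd L)) :
    (intMat k)⁻¹ * u * intMat k ∈ congrSubgroup 𝔫 := by
  obtain ⟨u₀, hu₀, rfl⟩ := hu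
  refine ⟨k⁻¹ * u₀ * k, ?_, by rw [map_mul, map_mul, map_inv]⟩
  have := (MonoidHom.normal_ker (Matrix.GeneralLinearGroup.map (n := Fin 2)
    (Ideal.Quotient.mk (𝔫.map (RingHom.pi fun v : HeightOneSpectrum (𝓞 L) =>
      algebraMap (𝓞 L) (v.adicCompletionIntegers L)))))).conj_mem u₀ hu₀ k⁻¹
  rwa [inv_inv] at this

theorem mk_mul_congr (x : GAf L) {u : GAf L} (hu : u ∈ congrSubgroup 𝔫) :
    ((x * u : GAf L) : Cosets 𝔫) = x := QuotientGroup.eq.mpr (by
  rw [mul_inv_rev, inv_mul_cancel_right]
  exact Subgroup.mem_sup_left (inv_mem hu))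

theorem mk_mul_central (x : GAf L) (c : (Adf L)ˣ) :
    ((x * upperTri c 0 c : GAf L) : Cosets 𝔫) = x := QuotientGroup.eq.mpr (by
  rw [mul_inv_rev, inv_mul_cancel_right, ← scalar_eq_upperTri]
  exact Subgroup.mem_sup_right (inv_mem (by
    rw [Matrix.GeneralLinearGroup.center_eq_range_scalar]; exact ⟨c, rfl⟩)))

theorem central_comm (c : (Adf L)ˣ) (x : GAf L) : upperTri c 0 c * x = x * upperTri c 0 c := by
  rw [← scalar_eq_upperTri]
  exact Matrix.GeneralLinearGroup.scalar_commute c x

theorem mk_upperTri_center (a c : (Adf L)ˣ) (b : Adf L) (x : GAf L) :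
    ((upperTri (a * c) (b * c) c * x : GAf L) : Cosets 𝔫) = ((upperTri a b 1 * x : GAf L) : Cosets 𝔫) := by
  rw [show upperTri (a * c) (b * c) c = upperTri a b 1 * upperTri c 0 c by
      rw [upperTri_mul_upperTri]; simp,
    mul_assoc, central_comm, ← mul_assoc, mk_mul_central]

theorem exists_levelExp_off (h𝔫 : 𝔫 ≠ ⊥) : ∃ e : HeightOneSpectrum (𝓞 L) → ℕ,
    IsLevelExp 𝔫 e ∧ (∀ v, ¬ 𝔫 ≤ v.asIdeal → e v = 0) ∧ ∀ᶠ v in cofinite, e v = 0 := by
  classical
  obtain ⟨e, he, he0⟩ := exists_levelExp h𝔫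
  refine ⟨fun v => if 𝔫 ≤ v.asIdeal then e v else 0, fun v k hk => ?_, fun v hv => if_neg hv, ?_⟩
  · rcases Nat.eq_zero_or_pos k with rfl | hk0
    · exact Nat.zero_le _
    · simp only [if_pos (hk.trans (Ideal.pow_le_self hk0.ne'))]
      exact he v k hk
  · filter_upwards [he0] with v hv
    simp [hv]

/-- The value at any upper triangular representative. -/
theorem UniInv.apply_upperTri (h𝔫 : 𝔫 ≠ ⊥) {g : Cosets 𝔫 → ℂ} (hg : UniInv g)
    (A : (Adf L)ˣ) (B : Adf L) (k : GL (Fin 2) (IntAd L)) :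
    g ((upperTri A B 1 * intMat k : GAf L) : Cosets 𝔫) = g (cosetAt 𝔫 k A) := by
  obtain ⟨e, he, -, he0⟩ := exists_levelExp_off h𝔫
  obtain ⟨f, hf, hfb⟩ := exists_exp_bound ({((A⁻¹ : (Adf L)ˣ) : Adf L)} : Finset (Adf L))
  obtain ⟨β, hβ⟩ := exists_sub_small B (fun v => e v + f v) (by
    filter_upwards [he0, hf] with v h1 h2
    simp [h1, h2])
  set t : Adf L := ((A⁻¹ : (Adf L)ˣ) : Adf L) * (B - algebraMap L (Adf L) β)
  have ht : t ∈ smallAdeles e := fun v => by
    simp only [t, adele_mul_apply, map_mul]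
    refine (mul_le_mul' (hfb _ (Finset.mem_singleton_self _) v) (hβ v)).trans (le_of_eq ?_)
    rw [← exp_add]
    congr 1
    push_cast
    ring
  have hu := congr_conj_int ((isNearOne_upperUni ht).mem_congrSubgroup he) k
  have e1 : upperTri A B 1 * intMat k = rationalMat (upperTri 1 β 1) *
      (upperTri A 0 1 * intMat k) * ((intMat k)⁻¹ * upperTri 1 t 1 * intMat k) := by
    have e2 : upperTri A B 1 =
        rationalMat (upperTri 1 β 1) * upperTri A 0 1 * upperTri 1 t 1 := by
      rw [rationalMat_upperTri, map_one, upperTri_mul_upperTri, upperTri_mul_upperTri]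
      simp only [one_mul, mul_one, mul_zero, zero_add, Units.val_one]
      congr 1
      simp only [t]
      linear_combination (algebraMap L (Adf L) β - B) * A.mul_inv
    rw [e2]
    group
  rw [e1, mk_mul_congr _ hu]
  exact hg β (cosetAt 𝔫 k A)

section Place

variable (v : HeightOneSpectrum (𝓞 L))

/-- The adele with a given component at `v` and `1` elsewhere, as a homomorphism. -/
def oneAt : v.adicCompletion L →* Adf L where
  toFun a := updAt v a 1
  map_one' := FiniteAdeleRing.ext _ fun w => by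
    rcases eq_or_ne w v with rfl | h
    · rw [updAt_self]; rfl
    · rw [updAt_of_ne v _ _ h, Nat.cast_one]; rfl
  map_mul' a b := FiniteAdeleRing.ext _ fun w => by
    rw [adele_mul_apply]
    rcases eq_or_ne w v with rfl | h
    · simp only [updAt_self]
    · simp only [updAt_of_ne v _ _ h, Nat.cast_one, mul_one]

/-- The idele of the uniformizer at `v`. -/
def piIdele : (Adf L)ˣ := Units.map (oneAt v) (piLoc v)

theorem piIdele_self : (piIdele v : Adf L) v = (piLoc v : v.adicCompletion L) :=
  updAt_self v _ _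

theorem piIdele_of_ne {w : HeightOneSpectrum (𝓞 L)} (h : w ≠ v) : (piIdele v : Adf L) w = 1 := by
  change updAt v _ _ w = _
  rw [updAt_of_ne v _ _ h, Nat.cast_one]

theorem atPlace_upperTri (a d : (v.adicCompletion L)ˣ) (b : v.adicCompletion L) :
    atPlace v (upperTri a b d) =
      upperTri (Units.map (oneAt v) a) (updAt v b 0) (Units.map (oneAt v) d) := by
  refine Units.ext (Matrix.ext fun i j => ?_)
  fin_cases i <;> fin_cases j
  · rfl
  · rfl
  · refine FiniteAdeleRing.ext _ fun w => ?_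
    change updAt v (0 : v.adicCompletion L) 0 w = 0
    rcases eq_or_ne w v with rfl | h
    · rw [updAt_self]
    · rw [updAt_of_ne v _ _ h, Nat.cast_zero]
  · rfl

/-- A matrix at `v` commutes with the integral matrices which are the identity at `v`. -/
theorem commute_atPlace {k : GL (Fin 2) (IntAd L)}
    (hk : ∀ i j, k i j v = (1 : Matrix (Fin 2) (Fin 2) (IntAd L)) i j v)
    (M : GL (Fin 2) (v.adicCompletion L)) : intMat k * atPlace v M = atPlace v M * intMat k := by
  refine Units.ext (Matrix.ext fun i j => FiniteAdeleRing.ext _ fun w => ?_)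
  simp only [Matrix.GeneralLinearGroup.coe_mul, Matrix.mul_apply, Fin.sum_univ_two, adele_add_apply,
    adele_mul_apply]
  have e : ∀ a b, (intMat k a b) w = ((k a b w : w.adicCompletionIntegers L) : w.adicCompletion L) :=
    fun a b => rfl
  simp only [e]
  rcases eq_or_ne w v with rfl | hw
  · simp only [show ∀ a c, (atPlace w M a c) w = M a c from fun a c => updAt_self w _ _, hk,
      Matrix.one_apply]
    fin_cases i <;> fin_cases j <;> simp
  · simp only [show ∀ a c, (atPlace v M a c) w = ((if a = c then 1 else 0 : ℕ) : w.adicCompletion L)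
      from fun a c => updAt_of_ne v _ _ hw]
    fin_cases i <;> fin_cases j <;> simp

/-- The Hecke operator on the diagonal cosets. -/
theorem heckeOp_cosetAt (h𝔫 : 𝔫 ≠ ⊥) (hv : ¬ 𝔫 ≤ v.asIdeal) {g : Cosets 𝔫 → ℂ} (hg : UniInv g)
    {k : GL (Fin 2) (IntAd L)}
    (hk : ∀ i j, k i j v = (1 : Matrix (Fin 2) (Fin 2) (IntAd L)) i j v) (A : (Adf L)ˣ) :
    heckeOp 𝔫 v g (cosetAt 𝔫 k A) =
      (Ideal.absNorm v.asIdeal : ℂ) * g (cosetAt 𝔫 k (A * piIdele v)) +
        g (cosetAt 𝔫 k (A * (piIdele v)⁻¹)) := by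
  have : Finite (𝓞 L ⧸ v.asIdeal) := Ideal.finiteQuotientOfFreeOfNeBot _ v.ne_bot
  let _ := Fintype.ofFinite (𝓞 L ⧸ v.asIdeal)
  rw [cosetAt, heckeOp_mk h𝔫 hv g _ (default : XInf L), heckeT, finsum_eq_sum_of_fintype]
  congr 1
  · rw [Finset.sum_congr rfl (g := fun _ => g (cosetAt 𝔫 k (A * piIdele v))) fun b _ => ?_,
      Finset.sum_const, Finset.card_univ, nsmul_eq_mul, ← Nat.card_eq_fintype_card]
    · congr 1
    · rw [mul_assoc, commute_atPlace v hk, ← mul_assoc, atPlace_upperTri, upperTri_mul_upperTri,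
        map_one, mul_one, zero_mul, add_zero]
      exact hg.apply_upperTri h𝔫 _ _ _
  · congr 1
    rw [mul_assoc, commute_atPlace v hk, ← mul_assoc, atPlace_upperTri, map_one,
      upperTri_mul_upperTri, mul_one, one_mul, zero_mul, add_zero,
      show updAt v (0 : v.adicCompletion L) 0 = 0 from ?_, mul_zero]
    · have h := mk_upperTri_center (𝔫 := 𝔫) (A * (piIdele v)⁻¹) (piIdele v) 0 (intMat k)
      rw [inv_mul_cancel_right, zero_mul] at h
      exact h
    · refine FiniteAdeleRing.ext _ fun w => ?_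
      rcases eq_or_ne w v with rfl | h
      · rw [updAt_self]; rfl
      · rw [updAt_of_ne v _ _ h, Nat.cast_zero]; rfl

end Place

/-- Ideles congruent to one at the level do not change the coset. -/
theorem cosetAt_mul_unit {e : HeightOneSpectrum (𝓞 L) → ℕ} (he : IsLevelExp 𝔫 e) {u : (Adf L)ˣ}
    (hu : (u : Adf L) - 1 ∈ smallAdeles e) (hu' : ((u⁻¹ : (Adf L)ˣ) : Adf L) - 1 ∈ smallAdeles e)
    (k : GL (Fin 2) (IntAd L)) (A : (Adf L)ˣ) : cosetAt 𝔫 k (A * u) = cosetAt 𝔫 k A := by
  have h1 : upperTri u 0 1 ∈ congrSubgroup 𝔫 :=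
    mem_congrSubgroup_of_small he (fun i j => by
        fin_cases i <;> fin_cases j <;> simp [upperTri, hu])
      (fun i j => by
        fin_cases i <;> fin_cases j <;> simp [upperTri, hu', -Units.val_inv_eq_inv_val])
  have h2 : upperTri (A * u) 0 1 * intMat k =
      upperTri A 0 1 * intMat k * ((intMat k)⁻¹ * upperTri u 0 1 * intMat k) := by
    rw [show upperTri (A * u) 0 1 = upperTri A 0 1 * upperTri u 0 1 by
      rw [upperTri_mul_upperTri]; simp]
    group
  rw [cosetAt, cosetAt, h2, mk_mul_congr _ (congr_conj_int h1 k)]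

/-- Every coset is upper triangular times an integral matrix which is the identity at finitely many
given good places. -/
theorem exists_good_rep (h𝔫 : 𝔫 ≠ ⊥) {s : Finset (HeightOneSpectrum (𝓞 L))}
    (hs : ∀ v ∈ s, ¬ 𝔫 ≤ v.asIdeal) (q : Cosets 𝔫) :
    ∃ (k : GL (Fin 2) (IntAd L)) (A : (Adf L)ˣ) (B : Adf L),
      (∀ v ∈ s, ∀ i j, k i j v = (1 : Matrix (Fin 2) (Fin 2) (IntAd L)) i j v) ∧
      q = ((upperTri A B 1 * intMat k : GAf L) : Cosets 𝔫) := by
  classical
  obtain ⟨a, d, b, k, hg⟩ := exists_iwasawa q.out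
  obtain ⟨e, he, hev, -⟩ := exists_levelExp_off h𝔫
  let f : ∀ w : HeightOneSpectrum (𝓞 L), GL (Fin 2) (w.adicCompletionIntegers L) := fun w =>
    if w ∈ s then (Matrix.GeneralLinearGroup.map
      (Pi.evalRingHom (fun w : HeightOneSpectrum (𝓞 L) => w.adicCompletionIntegers L) w) k)⁻¹
    else 1
  let c : GL (Fin 2) (IntAd L) :=
    ⟨Matrix.of fun i j => fun w => f w i j,
      Matrix.of fun i j => fun w => ((f w)⁻¹ : GL (Fin 2) _) i j,
      by
        refine Matrix.ext fun i j => funext fun w => ?_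
        have h := congrArg (fun M : Matrix (Fin 2) (Fin 2) _ => M i j) (f w).mul_inv
        simp only [Matrix.mul_apply, Fin.sum_univ_two, Matrix.one_apply] at h ⊢
        simp only [Matrix.of_apply, Pi.add_apply, Pi.mul_apply]
        rw [h]
        split_ifs <;> rfl,
      by
        refine Matrix.ext fun i j => funext fun w => ?_
        have h := congrArg (fun M : Matrix (Fin 2) (Fin 2) _ => M i j) (f w).inv_mul
        simp only [Matrix.mul_apply, Fin.sum_univ_two, Matrix.one_apply] at h ⊢
        simp only [Matrix.of_apply, Pi.add_apply, Pi.mul_apply]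
        rw [h]
        split_ifs <;> rfl⟩
  have hc : intMat c ∈ congrSubgroup 𝔫 := by
    have key : ∀ (M : GAf L), (∀ w ∉ s, ∀ i j, (M i j) w = (1 : Matrix (Fin 2) (Fin 2) (Adf L)) i j w) →
        (∀ w i j, (M i j) w ∈ w.adicCompletionIntegers L) →
        ∀ i j, M i j - (1 : Matrix (Fin 2) (Fin 2) (Adf L)) i j ∈ smallAdeles e := fun M hM hI i j w => by
      rw [adele_sub_apply]
      by_cases hw : w ∈ s
      · rw [hev w (hs w hw), Nat.cast_zero, neg_zero, exp_zero]
        refine (Valuation.map_sub _ _ _).trans (max_le (hI w i j) ?_)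
        rw [Matrix.one_apply]
        split_ifs
        · exact (map_one Valued.v).le
        · exact (map_zero Valued.v).le.trans zero_le
      · rw [hM w hw, sub_self, map_zero]
        exact zero_le
    refine mem_congrSubgroup_of_small he (key _ (fun w hw i j => ?_) fun w i j => (c i j w).2) ?_
    · change ((f w i j : w.adicCompletionIntegers L) : w.adicCompletion L) = _
      simp only [f, if_neg hw, Units.val_one, Matrix.one_apply]
      split_ifs <;> rfl
    · rw [← map_inv]
      refine key _ (fun w hw i j => ?_) fun w i j => ((c⁻¹ : GL (Fin 2) (IntAd L)) i j w).2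
      change (((f w)⁻¹ : GL (Fin 2) _) i j : w.adicCompletionIntegers L).1 = _
      simp only [f, if_neg hw, inv_one, Units.val_one, Matrix.one_apply]
      split_ifs <;> rfl
  refine ⟨k * c, a * d⁻¹, b * ((d⁻¹ : (Adf L)ˣ) : Adf L), fun v hv i j => ?_, ?_⟩
  · have h : Matrix.GeneralLinearGroup.map
        (Pi.evalRingHom (fun w : HeightOneSpectrum (𝓞 L) => w.adicCompletionIntegers L) v) (k * c) = 1 := by
      rw [map_mul]
      have hcv : Matrix.GeneralLinearGroup.map
          (Pi.evalRingHom (fun w : HeightOneSpectrum (𝓞 L) => w.adicCompletionIntegers L) v) c = f v :=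
        Units.ext (Matrix.ext fun i j => rfl)
      rw [hcv]
      simp only [f, if_pos hv, mul_inv_cancel]
    have h2 := congrArg (fun M : GL (Fin 2) (v.adicCompletionIntegers L) => M i j) h
    simp only [Matrix.GeneralLinearGroup.map_apply, Units.val_one] at h2
    refine h2.trans ?_
    rw [Matrix.one_apply, Matrix.one_apply]
    split_ifs <;> rfl
  · conv_lhs => rw [← QuotientGroup.out_eq' q, hg]
    rw [intMat, map_mul, ← mul_assoc, mk_mul_congr _ hc]
    have h := mk_upperTri_center (𝔫 := 𝔫) (a * d⁻¹) d (b * ((d⁻¹ : (Adf L)ˣ) : Adf L)) (intMat k)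
    rwa [inv_mul_cancel_right, mul_assoc, Units.inv_mul, mul_one] at h

end FermatAgent.LTG

end
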