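import Fermat.Agent.LT.General.Annihilator.Bound
import Fermat.Agent.LT.General.Annihilator.Diagonal
import Fermat.Agent.LT.Descent.Spectral.CuspForm

set_option autoImplicit false

/-!
# Bounded eigenfunctions of an annihilating combination are cusp forms
-/

noncomputable section

open MeasureTheory Set Filter NumberField IsDedekindDomain
open scoped MatrixGroups

namespace FermatAgent.LTG

open FermatAgent.LT
open FermatAgent.LT.Dihedral (boxAt)

variable {L : Type*} [Field L] [NumberField L] {𝔫 : Ideal (𝓞 L)}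

theorem isAdmissible_of_bounded {Φ : YSpace 𝔫 → ℂ} (hm : Measurable Φ)
    (hinv : ∀ (γ : PGL(2, L)) y, Φ (γ • y) = Φ y) (hb : ∃ C, ∀ y, ‖Φ y‖ ≤ C) : IsAdmissible Φ where
  measurable := hm
  invariant := hinv
  slab _ _ _ _ _ := ⟨hb.choose, fun _ _ _ _ => hb.choose_spec _⟩

theorem yOp_combKer {ι : Type*} {s : Finset ι} {c : ι → ℂ}
    {k : ι → YSpace 𝔫 → YSpace 𝔫 → ℂ} (hk : ∀ i, IsYKernel (k i)) {Φ : YSpace 𝔫 → ℂ}
    (hm : Measurable Φ) (hb : ∃ C, ∀ y, ‖Φ y‖ ≤ C) (y : YSpace 𝔫) :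
    yOp (combKer s c k) Φ y = ∑ i ∈ s, c i * yOp (k i) Φ y := by
  obtain ⟨C, hC⟩ := hb
  simp only [yOp, combKer, Finset.sum_mul, mul_assoc]
  rw [integral_finsetSum _ fun i _ => (((hk i).integrable_row y).mul_bdd hm.aestronglyMeasurable
    (Eventually.of_forall hC)).const_mul _]
  simp only [integral_const_mul]

variable [h𝔫 : Fact (𝔫 ≠ ⊥)]

/-- An eigenfunction of a combination annihilating the constant terms has none. -/
theorem meanZero_of_eigen {ι : Type*} {s : Finset ι} {c : ι → ℂ}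
    {h : ι → InfinitePlace L → H3 → H3 → ℂ} (hh : ∀ i w, H3.IsInvKer (h i w))
    {T : ι → Module.End ℂ (Cosets 𝔫 → ℂ)} (hT : ∀ i, IsCosetOp (T i))
    (hann : ∀ H, IsAdmissible H → ∀ y,
      ∑ i ∈ s, c i * constTerm (yOp (yKer (h i) (T i)) H) y = 0)
    {Φ : YSpace 𝔫 → ℂ} (hm : Measurable Φ) (hinv : ∀ (γ : PGL(2, L)) y, Φ (γ • y) = Φ y)
    (hb : ∃ C, ∀ y, ‖Φ y‖ ≤ C) {r : ℂ} (hr : r ≠ 0)
    (he : ∀ y, yOp (combKer s c fun i => yKer (h i) (T i)) Φ y = r * Φ y) : MeanZero Φ := by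
  have hΦ := isAdmissible_of_bounded hm hinv hb
  intro y
  have h1 := hann Φ hΦ y
  rw [← constTerm_sum fun i _ => isAdmissible_yOp (hh i) (hT i) hΦ] at h1
  have e : (fun y => ∑ i ∈ s, c i * yOp (yKer (h i) (T i)) Φ y) = fun y => r * Φ y :=
    funext fun y => by rw [← he y, yOp_combKer (fun i => isYKernel_yKer (hh i) (hT i)) hm hb]
  rw [e] at h1
  simp only [constTerm, meanAt] at h1 ⊢
  rw [integral_const_mul] at h1
  exact (mul_eq_zero.mp h1).resolve_left hr

theorem iotaX_mulBasis (N : ℕ) (hN : N ≠ 0) (y : Module.Free.ChooseBasisIndex ℤ (𝓞 L) → ℝ) :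
    iotaX (mulBasis N hN : Module.Basis _ ℚ L) y = latVec ((N : ℝ) • y) := by
  funext w
  simp only [latVec, iotaX_apply, mulBasis_apply, integralBasis_apply, Pi.smul_apply, smul_eq_mul,
    map_mul, map_natCast, Complex.ofReal_mul, Complex.ofReal_natCast]
  exact Finset.sum_congr rfl fun j _ => by ring

/-- A smooth function without constant term is a cusp form. -/
theorem isCuspFn_of_meanZero [IsTotallyComplex L] {Φ : YSpace 𝔫 → ℂ}
    (hinv : ∀ (γ : PGL(2, L)) y, Φ (γ • y) = Φ y) (hb : ∃ C, ∀ y, ‖Φ y‖ ≤ C)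
    (hcont : ∀ q, Continuous fun x => Φ (x, q))
    (hsph : ∀ (w : InfinitePlace L) x q, letI := Classical.decEq (InfinitePlace L)
      H3.IsSph0 fun P => Φ (Function.update x w P, q))
    (hz : MeanZero Φ) :
    IsCuspFn 𝔫 fun x g => Φ (x, (g : Cosets 𝔫)) := by
  classical
  set φ : XInf L → GAf L → ℂ := fun x g => Φ (x, (g : Cosets 𝔫))
  have hrat : ∀ γ x g, φ (infAct γ x) (rationalMat γ * g) = φ x g := fun γ x g => by
    have := hinv (Matrix.ProjGenLinGroup.mk γ) (x, (g : Cosets 𝔫))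
    rw [mk_smul] at this
    exact this
  have hcen : ∀ (a : (Adf L)ˣ) x g, φ x (g * upperTri a 0 a) = φ x g := fun a x g =>
    congrArg (fun q => Φ (x, q)) (mk_mul_central g a)
  have hlev : ∀ k ∈ congrSubgroup 𝔫, ∀ x g, φ x (g * k) = φ x g := fun k hk x g =>
    congrArg (fun q => Φ (x, q)) (mk_mul_congr g hk)
  have hbd : ∃ C, ∀ x g, ‖φ x g‖ ≤ C := ⟨hb.choose, fun x g => hb.choose_spec _⟩
  have hsph' : ∀ (w : InfinitePlace L) x g,
      letI := Classical.decEq (InfinitePlace L)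
      H3.IsSph0 fun P => φ (Function.update x w P) g := fun w x g => hsph w x (g : Cosets 𝔫)
  refine ⟨hrat, hcen, hlev, fun g => hcont _, hbd, hsph',
    exists_hasExpansion hrat (fun g => hcont _) hbd hsph' fun g => ?_⟩
  set q : Cosets 𝔫 := (g : Cosets 𝔫)
  refine ⟨mulBasis (periodOf q) (periodOf_ne_zero q), fun j x => ?_, fun x => ?_⟩
  · rw [mulBasis_apply]
    show Φ (hshift x _, q) = Φ (x, q)
    have h := apply_hshift_uni hinv
      (((periodOf q : 𝓞 L) * RingOfIntegers.basis L j : 𝓞 L) : L) x q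
    rwa [isPeriod_periodOf q (RingOfIntegers.basis L j)] at h
  · simp only [iotaX_mulBasis]
    exact hz (x, q)

end FermatAgent.LTG

end
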