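import Fermat.Agent.LT.General.Annihilator.AdmOp

set_option autoImplicit false

/-!
# The gain from a vanishing constant term
-/

noncomputable section

open MeasureTheory Set Filter NumberField IsDedekindDomain
open scoped MatrixGroups ENNReal

namespace FermatAgent.LTG

open FermatAgent.LT
open FermatAgent.LT.Dihedral (boxAt)

variable {L : Type*} [Field L] [NumberField L] {𝔫 : Ideal (𝓞 L)}

theorem isAdmissible_of_stripGrowth {ι : Type*} {F : ι → YSpace 𝔫 → ℂ} {b : ℕ}
    (hF : HasStripGrowth F b) (i : ι) (hm : Measurable (F i))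
    (hinv : ∀ (γ : PGL(2, L)) y, F i (γ • y) = F i y) : IsAdmissible (F i) where
  measurable := hm
  invariant := hinv
  slab lo hi hlo D hD := by
    obtain ⟨C, hC0, hC⟩ := hF lo (hi / lo) hlo D hD
    refine ⟨C * ((Fintype.card (InfinitePlace L) : ℝ) * max hi 0) ^ b, fun x hx q hq => ?_⟩
    refine (hC i x (fun w => ⟨(hx w).1, fun u => ?_⟩) q hq).trans
      (mul_le_mul_of_nonneg_left (pow_le_pow_left₀ (heightSum_nonneg x) ?_ b) hC0)
    · have hhi : 0 ≤ hi := hlo.le.trans ((hx w).1.trans (hx w).2)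
      calc (x w).t ≤ hi := (hx w).2
        _ = hi / lo * lo := by field_simp
        _ ≤ _ := mul_le_mul_of_nonneg_left (hx u).1 (by positivity)
    · refine (Finset.sum_le_card_nsmul Finset.univ _ (max hi 0) fun u _ =>
        ((hx u).2.trans (le_max_left _ _))).trans_eq ?_
      rw [nsmul_eq_mul, Finset.card_univ]

variable [h𝔫 : Fact (𝔫 ≠ ⊥)]

theorem norm_latVec_le {N : ℕ} {y : Module.Free.ChooseBasisIndex ℤ (𝓞 L) → ℝ}
    (hy : y ∈ boxAt (0 : Module.Free.ChooseBasisIndex ℤ (𝓞 L) → ℤ)) (w : InfinitePlace L) :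
    ‖latVec ((N : ℝ) • y) w‖ ≤ N * ∑ j, ‖w.embedding (integralBasis L j)‖ := by
  rw [latVec, iotaX_apply, Finset.mul_sum]
  refine (norm_sum_le _ _).trans (Finset.sum_le_sum fun j _ => ?_)
  rw [norm_mul, Complex.norm_real, Pi.smul_apply, smul_eq_mul]
  refine mul_le_mul_of_nonneg_right ?_ (norm_nonneg _)
  have h := hy j
  simp only [Pi.zero_apply, Int.cast_zero, zero_add, mem_Ioc] at h
  rw [Real.norm_eq_abs, abs_mul, Nat.abs_cast, abs_of_pos h.1]
  exact mul_le_of_le_one_right (Nat.cast_nonneg _) h.2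

/-- **The gain.** The unit balls lower the growth of invariant functions without constant term. -/
theorem hasStripGrowth_yOp_ball {ι : Type*} {F : ι → YSpace 𝔫 → ℂ} (hm : ∀ i, Measurable (F i))
    (hinv : ∀ i (γ : PGL(2, L)) y, F i (γ • y) = F i y) (hzero : ∀ i, MeanZero (F i)) {b : ℕ}
    (hF : HasStripGrowth F (b + 1)) :
    HasStripGrowth (fun i => yOp (yKer (fun _ => H3.ballKer 1) 1) (F i)) b := by
  classical
  intro c R hc D hD
  set μ := Measure.pi fun _ : InfinitePlace L => H3.vol
  set n := (Fintype.card (InfinitePlace L) : ℝ)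
  obtain ⟨C, hC0, hC⟩ :=
    hF (c * Real.exp (-1)) (R * Real.exp 1 * Real.exp 1) (by positivity) D hD
  obtain ⟨K, hK, hKv⟩ := exists_vol_xBall_sdiff_le (L := L)
  set N : Cosets 𝔫 → ℕ := periodOf
  set A := ∑ q ∈ hD.toFinset, ∑ w : InfinitePlace L,
    (N q : ℝ) * ∑ j, ‖w.embedding (integralBasis L j)‖
  have hA0 : 0 ≤ A := by positivity
  refine ⟨2 * C * Real.exp 1 ^ (b + 1) * (K * (A * (n * max R 0))), by positivity,
    fun i x hx q hq => ?_⟩
  have hadm := isAdmissible_of_stripGrowth hF i (hm i) (hinv i)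
  set G : XInf L → ℂ := fun u => F i (u, q) with hG
  have hGm : Measurable G := (hm i).comp (measurable_id.prodMk measurable_const)
  set M := C * (Real.exp 1 * heightSum x) ^ (b + 1) with hM
  have hM0 : 0 ≤ M := by have := heightSum_nonneg x; positivity
  set xc : (InfinitePlace L → ℂ) → XInf L := fun v => hshift x v with hxc
  have hxcS : ∀ v, xc v ∈ stripInf c R := fun v w => by
    simp only [xc, hshift_t]
    exact hx w
  have hsum : ∀ v, heightSum (xc v) = heightSum x := fun v =>
    Finset.sum_congr rfl fun w _ => hshift_t x v w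
  have hGb : ∀ v, ∀ u ∈ xBall (xc v), ‖G u‖ ≤ M := fun v u hu => by
    refine (hC i u (xBall_subset_strip (hxcS v) hu) q hq).trans ?_
    exact mul_le_mul_of_nonneg_left
      (pow_le_pow_left₀ (heightSum_nonneg u) (hsum v ▸ heightSum_le_of_mem_xBall hu) _) hC0
  have hGi : ∀ v, IntegrableOn G (xBall (xc v)) μ := fun v =>
    IntegrableOn.of_bound (vol_xBall_lt_top _) hGm.aestronglyMeasurable M
      (ae_restrict_of_forall_mem (measurableSet_xBall _) (hGb v))
  have hx0 : xc 0 = x := hshift_zero x
  have hval : yOp (yKer (fun _ => H3.ballKer 1) 1) (F i) (x, q) = ∫ u in xBall x, G u ∂μ := by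
    rw [yOp_yKer_loc (fun _ => H3.isInvKer_ballKer 1) isCosetOp_one (hm i) hadm.boxBdd,
      ← integral_indicator (measurableSet_xBall x)]
    refine integral_congr_ae (Eventually.of_forall fun u => ?_)
    simp only [prodKer_ball, Module.End.one_apply]
    by_cases hu : u ∈ xBall x <;> simp [hu, G]
  simp only [hval]
  set I := ∫ u in xBall x, G u ∂μ
  set ν := (volume : Measure (Module.Free.ChooseBasisIndex ℤ (𝓞 L) → ℝ)).restrict (boxAt 0)
  have : IsFiniteMeasure ν := ⟨by simp [ν, Dihedral.volume_boxAt]⟩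
  set cy : (Module.Free.ChooseBasisIndex ℤ (𝓞 L) → ℝ) → InfinitePlace L → ℂ :=
    fun y => latVec ((N q : ℝ) • y)
  set J : (Module.Free.ChooseBasisIndex ℤ (𝓞 L) → ℝ) → ℂ := fun y =>
    ∫ u in xBall x, G (hshift u (cy y)) ∂μ with hJdef
  have hJ : ∀ y, J y = ∫ u in xBall (xc (cy y)), G u ∂μ := fun y => by
    have hp := measurePreserving_hshift (L := L) (cy y)
    have hpre : (fun u : XInf L => hshift u (cy y)) ⁻¹' xBall (xc (cy y)) = xBall x := by
      ext u
      simp only [xBall, mem_preimage, Set.mem_pi, mem_univ, true_implies]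
      refine forall_congr' fun w => ?_
      simp only [H3.mem_ball_iff, xc, H3.coshDist, hshift_z, hshift_t, add_sub_add_right_eq_sub]
    rw [hJdef]
    change ∫ u in xBall x, G (hshift u (cy y)) ∂μ = _
    rw [← hpre, ← setIntegral_map (measurableSet_xBall _) (by
      rw [hp.map_eq]; exact hGm.aestronglyMeasurable) hp.measurable.aemeasurable, hp.map_eq]
  have hcm : Measurable fun p : (Module.Free.ChooseBasisIndex ℤ (𝓞 L) → ℝ) × XInf L =>
      G (hshift p.2 (cy p.1)) :=
    hGm.comp (continuous_hshift_pair continuous_snd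
      ((continuous_latVec (N q)).comp continuous_fst)).measurable
  have : IsFiniteMeasure (μ.restrict (xBall x)) :=
    ⟨by rw [Measure.restrict_apply_univ]; exact vol_xBall_lt_top x⟩
  have hfub : Integrable (fun p : (Module.Free.ChooseBasisIndex ℤ (𝓞 L) → ℝ) × XInf L =>
      G (hshift p.2 (cy p.1))) (ν.prod (μ.restrict (xBall x))) := by
    refine Integrable.of_bound hcm.aestronglyMeasurable M ?_
    refine Measure.ae_prod_iff_ae_ae (measurableSet_le hcm.norm measurable_const) |>.mpr
      (Eventually.of_forall fun y => ae_restrict_of_forall_mem (measurableSet_xBall x) fun u hu =>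
        hGb (cy y) _ ?_)
    intro w _
    simp only [H3.mem_ball_iff, xc, H3.coshDist, hshift_z, hshift_t, add_sub_add_right_eq_sub]
    exact hu w trivial
  have hJi : Integrable J ν := hfub.integral_prod_left
  have hJ0 : ∫ y, J y ∂ν = 0 := by
    rw [hJdef, integral_integral_swap hfub]
    refine integral_eq_zero_of_ae (Eventually.of_forall fun u => ?_)
    exact hzero i (u, q)
  have hI : I = ∫ y, (I - J y) ∂ν := by
    rw [integral_sub (integrable_const _) hJi, hJ0, sub_zero, integral_const]
    simp [ν, measureReal_def, Dihedral.volume_boxAt]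
  have hτ : 0 < heightSum x := by
    obtain ⟨w⟩ : Nonempty (InfinitePlace L) := inferInstance
    exact (x w).t_pos.trans_le (le_heightSum x w)
  set B := 2 * M * (K * (A * (n * max R 0) / heightSum x))
  have hterm : ∀ y ∈ boxAt (0 : Module.Free.ChooseBasisIndex ℤ (𝓞 L) → ℤ), ‖I - J y‖ ≤ B := by
    intro y hy
    rw [hJ y]
    refine (norm_setIntegral_sub_le (μ := μ) (measurableSet_xBall _) (measurableSet_xBall _)
      (hx0 ▸ hGi 0) (hGi _) (M := M) ?_ (vol_xBall_lt_top _) (vol_xBall_lt_top _)).trans ?_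
    · rintro u (hu | hu)
      · exact hGb 0 u (hx0.symm ▸ hu)
      · exact hGb _ u hu
    have hbig : K * ∑ w : InfinitePlace L, ‖cy y w‖ / (x w).t ≤
        K * (A * (n * max R 0) / heightSum x) := by
      refine mul_le_mul_of_nonneg_left ?_ hK
      have h1 : ∀ w : InfinitePlace L, ‖cy y w‖ / (x w).t ≤
          (N q : ℝ) * (∑ j, ‖w.embedding (integralBasis L j)‖) * (n * max R 0) / heightSum x := by
        intro w
        rw [div_le_div_iff₀ (x w).t_pos hτ, mul_assoc _ (n * max R 0)]
        refine mul_le_mul (norm_latVec_le hy w) ((heightSum_le hx w).trans ?_) hτ.le (by positivity)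
        exact mul_le_mul_of_nonneg_right
          (mul_le_mul_of_nonneg_left (le_max_left _ _) (Nat.cast_nonneg _)) (x w).t_pos.le
      refine (Finset.sum_le_sum fun w _ => h1 w).trans ?_
      rw [← Finset.sum_div, ← Finset.sum_mul]
      gcongr
      exact Finset.single_le_sum (f := fun q : Cosets 𝔫 => ∑ w : InfinitePlace L,
        (N q : ℝ) * ∑ j, ‖w.embedding (integralBasis L j)‖)
        (fun _ _ => by positivity) (hD.mem_toFinset.mpr hq)
    have hnn : 0 ≤ K * ∑ w : InfinitePlace L, ‖cy y w‖ / (x w).t :=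
      mul_nonneg hK (Finset.sum_nonneg fun w _ => div_nonneg (norm_nonneg _) (x w).t_pos.le)
    have h1 : μ.real (xBall x \ xBall (xc (cy y))) ≤
        K * ∑ w : InfinitePlace L, ‖cy y w‖ / (x w).t :=
      ENNReal.toReal_le_of_le_ofReal hnn (hKv x (xc (cy y)) _ fun w => rfl)
    have h2 : μ.real (xBall (xc (cy y)) \ xBall x) ≤
        K * ∑ w : InfinitePlace L, ‖cy y w‖ / (x w).t := by
      refine ENNReal.toReal_le_of_le_ofReal hnn ((hKv (xc (cy y)) x (fun w => -cy y w)
        fun w => ?_).trans (le_of_eq ?_))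
      · refine H3.ext ?_ rfl
        simp [H3.shift, xc]
      · simp [xc]
    calc M * μ.real (xBall x \ xBall (xc (cy y))) + M * μ.real (xBall (xc (cy y)) \ xBall x)
        ≤ M * (K * _) + M * (K * _) := add_le_add
          (mul_le_mul_of_nonneg_left (h1.trans hbig) hM0)
          (mul_le_mul_of_nonneg_left (h2.trans hbig) hM0)
      _ = _ := by ring
  rw [hI]
  refine (norm_setIntegral_le_of_norm_le_const (C := B) (by simp [Dihedral.volume_boxAt]) hterm).trans ?_
  simp only [measureReal_def, Dihedral.volume_boxAt, ENNReal.toReal_one, mul_one]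
  refine le_of_eq ?_
  simp only [B, hM, mul_pow, pow_succ (heightSum x) b]
  field_simp

end FermatAgent.LTG

end
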