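import Fermat.Agent.LT.General.Annihilator.Bound
import Fermat.Agent.LT.General.Annihilator.Acts
import Fermat.Agent.LT.General.Annihilator.Shift

set_option autoImplicit false

/-!
# The kernels of the annihilator at infinity

At each place a chain of `deg` balls of radius `ε`, `n` of them shifted by `a`, between unit balls.
-/

noncomputable section

open MeasureTheory Set Filter Multiplicative
open scoped ComplexConjugate

namespace FermatAgent.LTG

open FermatAgent.LT (H3)
open FermatAgent.LT.H3 (chainKer kConv ballKer radKer shiftProf IsInvKer sph0)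

variable (ε a : ℝ) (deg : ℕ)

/-- The balls of radius `ε`, the first `n` shifted. -/
def coreList (n : ℕ) : List (H3 → H3 → ℂ) :=
  List.replicate n (radKer (shiftProf ε a)) ++ List.replicate (deg - n) (ballKer ε)

/-- The kernel at one place of `F` without the preceding balls. -/
def coreKer (n : ℕ) : H3 → H3 → ℂ := chainKer (coreList ε a deg n)

/-- The kernel at one place of `F`. -/
def slotChain (n : ℕ) : H3 → H3 → ℂ := preBalls 6 (kConv (coreKer ε a deg n) (ballKer 1))

/-- The kernel at the place of `K` without the preceding balls. -/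
def bigKer (n₀ n₁ n₂ : ℕ) : H3 → H3 → ℂ :=
  kConv (kConv (kConv (coreKer ε a deg n₀) (coreKer ε a deg n₁)) (coreKer ε a deg n₂))
    (chainKer (List.replicate 13 (ballKer 1)))

variable {ε a deg}

theorem isInvKer_of_mem_coreList (h : |a| < ε) {n : ℕ} {k : H3 → H3 → ℂ}
    (hk : k ∈ coreList ε a deg n) : IsInvKer k := by
  rcases List.mem_append.mp hk with h1 | h1 <;> rw [List.eq_of_mem_replicate h1]
  · exact H3.isInvKer_radKer (H3.isProfile_shiftProf h)
  · exact H3.isInvKer_ballKer ε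

theorem isInvKer_coreKer (h : |a| < ε) (n : ℕ) : IsInvKer (coreKer ε a deg n) :=
  H3.isInvKer_chainKer fun _ => isInvKer_of_mem_coreList h

theorem isInvKer_slotChain (h : |a| < ε) (n : ℕ) : IsInvKer (slotChain ε a deg n) :=
  isInvKer_preBalls ((isInvKer_coreKer h n).kConv (H3.isInvKer_ballKer 1)) 6

theorem isInvKer_bigKer (h : |a| < ε) (n₀ n₁ n₂ : ℕ) : IsInvKer (bigKer ε a deg n₀ n₁ n₂) :=
  (((isInvKer_coreKer h n₀).kConv (isInvKer_coreKer h n₁)).kConv (isInvKer_coreKer h n₂)).kConv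
    (H3.isInvKer_chainKer fun _ hg => List.eq_of_mem_replicate hg ▸ H3.isInvKer_ballKer 1)

theorem preBalls_chainKer (l : List (H3 → H3 → ℂ)) :
    ∀ k, preBalls k (chainKer l) = chainKer (List.replicate k (ballKer 1) ++ l)
  | 0 => rfl
  | k + 1 => by rw [preBalls, preBalls_chainKer l k]; rfl

theorem slotChain_eq (h : |a| < ε) (n : ℕ) : slotChain ε a deg n =
    chainKer (List.replicate 6 (ballKer 1) ++ (coreList ε a deg n ++ [ballKer 1])) := by
  rw [slotChain, coreKer, show ballKer 1 = chainKer [] from rfl,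
    H3.kConv_chainKer (fun _ => isInvKer_of_mem_coreList h) (by simp), preBalls_chainKer]
  rfl

theorem bigKer_eq (h : |a| < ε) (n₀ n₁ n₂ : ℕ) : bigKer ε a deg n₀ n₁ n₂ =
    chainKer (((coreList ε a deg n₀ ++ ballKer 1 :: coreList ε a deg n₁) ++
      ballKer 1 :: coreList ε a deg n₂) ++ ballKer 1 :: List.replicate 13 (ballKer 1)) := by
  have hc := fun n => fun g (hg : g ∈ coreList ε a deg n) => isInvKer_of_mem_coreList h hg
  have hb := H3.isInvKer_ballKer 1
  have hr : ∀ g ∈ List.replicate 13 (ballKer 1), IsInvKer g := fun g hg =>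
    List.eq_of_mem_replicate hg ▸ hb
  have happ : ∀ l l' : List (H3 → H3 → ℂ), (∀ g ∈ l, IsInvKer g) → (∀ g ∈ l', IsInvKer g) →
      ∀ g ∈ l ++ ballKer 1 :: l', IsInvKer g := fun l l' hl hl' g hg => by
    rcases List.mem_append.mp hg with h1 | h1
    · exact hl g h1
    · rcases List.mem_cons.mp h1 with h2 | h2
      · exact h2 ▸ hb
      · exact hl' g h2
  rw [bigKer, coreKer, coreKer, coreKer, H3.kConv_chainKer (hc _) (hc _),
    H3.kConv_chainKer (happ _ _ (hc _) (hc _)) (hc _),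
    H3.kConv_chainKer (happ _ _ (happ _ _ (hc _) (hc _)) (hc _)) hr]

/-- The composition over the three places. -/
theorem kConv_slotChain (h : |a| < ε) (n₀ n₁ n₂ : ℕ) :
    kConv (kConv (slotChain ε a deg n₀) (slotChain ε a deg n₁)) (slotChain ε a deg n₂) =
      preBalls 6 (kConv (bigKer ε a deg n₀ n₁ n₂) (ballKer 1)) := by
  classical
  have hb := H3.isInvKer_ballKer 1
  have hslot : ∀ n, ∀ g ∈ List.replicate 6 (ballKer 1) ++ (coreList ε a deg n ++ [ballKer 1]),
      IsInvKer g := fun n g hg => by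
    simp only [List.mem_append, List.mem_singleton] at hg
    rcases hg with h1 | h1 | h1
    · exact List.eq_of_mem_replicate h1 ▸ hb
    · exact isInvKer_of_mem_coreList h h1
    · exact h1 ▸ hb
  have happ : ∀ l l' : List (H3 → H3 → ℂ), (∀ g ∈ l, IsInvKer g) → (∀ g ∈ l', IsInvKer g) →
      ∀ g ∈ l ++ ballKer 1 :: l', IsInvKer g := fun l l' hl hl' g hg => by
    rcases List.mem_append.mp hg with h1 | h1
    · exact hl g h1
    · rcases List.mem_cons.mp h1 with h2 | h2
      · exact h2 ▸ hb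
      · exact hl' g h2
  have hrep : ∀ k, ∀ g ∈ List.replicate k (ballKer 1), IsInvKer g := fun k g hg =>
    List.eq_of_mem_replicate hg ▸ hb
  rw [slotChain_eq h, slotChain_eq h, slotChain_eq h,
    H3.kConv_chainKer (hslot _) (hslot _),
    H3.kConv_chainKer (happ _ _ (hslot _) (hslot _)) (hslot _), bigKer_eq h,
    show kConv (chainKer _) (ballKer 1) = kConv (chainKer _) (chainKer []) from rfl,
    H3.kConv_chainKer (happ _ _ (happ _ _ (happ _ _ (fun _ => isInvKer_of_mem_coreList h)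
      (fun _ => isInvKer_of_mem_coreList h)) (fun _ => isInvKer_of_mem_coreList h)) (hrep 13))
      (by simp), preBalls_chainKer]
  refine H3.chainKer_perm (List.perm_iff_count.mpr fun g => ?_)
    (happ _ _ (happ _ _ (hslot _) (hslot _)) (hslot _))
  simp only [List.count_append, List.count_cons, List.count_nil, List.count_replicate,
    beq_iff_eq]
  split_ifs <;> omega

theorem conj_slotChain (h : |a| < ε) (n : ℕ) (P Q : H3) :
    conj (slotChain ε a deg n P Q) = slotChain ε a deg n P Q := by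
  rw [slotChain_eq h]
  refine H3.conj_chainKer (fun g hg P Q => ?_) P Q
  simp only [coreList, List.mem_append, List.mem_singleton] at hg
  rcases hg with h1 | (h1 | h1) | h1
  all_goals first | rw [List.eq_of_mem_replicate h1] | rw [h1]
  · rw [H3.ballKer_nonneg, Complex.conj_ofReal]
  · exact H3.conj_radKer _ P Q
  · rw [H3.ballKer_nonneg, Complex.conj_ofReal]
  · rw [H3.ballKer_nonneg, Complex.conj_ofReal]

/-- The eigenvalue at the spherical parameter `0`. -/
theorem mean_slotChain (h : |a| < ε) {n : ℕ} (hn : n ≤ deg) {f : H3 → ℂ} (hs : H3.IsSph0 f)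
    (hm : Measurable f) {C : ℝ} (hC : ∀ P, ‖f P‖ ≤ C) (P : H3) :
    ∫ Q, slotChain ε a deg n P Q * f Q ∂H3.vol =
      2 ^ n * (sph0 ε : ℂ) ^ deg * (sph0 1 : ℂ) ^ 8 * f P := by
  have hε : 0 < ε := (abs_nonneg a).trans_lt h
  have hb : ∀ r, 0 < r → ∀ P, ∫ Q, ballKer r P Q * f Q ∂H3.vol = (sph0 r : ℂ) * f P :=
    fun r hr P => by rw [H3.integral_ballKer_mul]; exact hs P r hr
  have hrad : ∀ P, ∫ Q, radKer (shiftProf ε a) P Q * f Q ∂H3.vol = 2 * (sph0 ε : ℂ) * f P :=
    fun P => H3.integral_shiftProf_sph0 hs h P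
      (IntegrableOn.of_bound (H3.vol_ball_lt_top _ _) hm.aestronglyMeasurable C
        (Eventually.of_forall hC))
  set l : List ((H3 → H3 → ℂ) × ℂ) := List.replicate 6 (ballKer 1, (sph0 1 : ℂ)) ++
    ((List.replicate n (radKer (shiftProf ε a), 2 * (sph0 ε : ℂ)) ++
      List.replicate (deg - n) (ballKer ε, (sph0 ε : ℂ))) ++ [(ballKer 1, (sph0 1 : ℂ))])
  have hl : ∀ p ∈ l, IsInvKer p.1 ∧ ∀ P, ∫ Q, p.1 P Q * f Q ∂H3.vol = p.2 * f P := fun p hp => by
    simp only [l, List.mem_append, List.mem_singleton] at hp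
    rcases hp with h1 | (h1 | h1) | h1
    all_goals first | rw [List.eq_of_mem_replicate h1] | rw [h1]
    · exact ⟨H3.isInvKer_ballKer 1, hb 1 one_pos⟩
    · exact ⟨H3.isInvKer_radKer (H3.isProfile_shiftProf h), hrad⟩
    · exact ⟨H3.isInvKer_ballKer ε, hb ε hε⟩
    · exact ⟨H3.isInvKer_ballKer 1, hb 1 one_pos⟩
  have e := H3.mean_chainKer hm hC (hb 1 one_pos) (l := l) (fun p hp => (hl p hp).1)
    (fun p hp => (hl p hp).2) P
  simp only [l, List.map_append, List.map_replicate, List.map_cons, List.map_nil, List.prod_append,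
    List.prod_replicate, List.prod_cons, List.prod_nil] at e
  rw [slotChain_eq h, coreList, e, mul_pow]
  rw [show (sph0 ε : ℂ) ^ deg = (sph0 ε : ℂ) ^ n * (sph0 ε : ℂ) ^ (deg - n) by
    rw [← pow_add, Nat.add_sub_cancel' hn]]
  ring

theorem actsAs_coreKer (h : |a| < ε) {n : ℕ} (hn : n ≤ deg) :
    ActsAs (coreKer ε a deg n) (coreKer ε a deg 0) (symElt (ofAdd a) (Real.exp (-a) : ℂ) ^ n) := by
  have hb := H3.isInvKer_ballKer ε
  have e := ActsAs.chain (l := List.replicate n (radKer (shiftProf ε a), ballKer ε,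
      symElt (ofAdd a) (Real.exp (-a) : ℂ)) ++
      List.replicate (deg - n) (ballKer ε, ballKer ε, 1)) fun p hp => by
    rcases List.mem_append.mp hp with h1 | h1 <;> rw [List.eq_of_mem_replicate h1]
    · exact ⟨H3.isInvKer_radKer (H3.isProfile_shiftProf h), hb, actsAs_shiftProf h⟩
    · exact ⟨hb, hb, ActsAs.refl _⟩
  simp only [List.map_append, List.map_replicate, List.prod_append, List.prod_replicate, one_pow,
    mul_one, ← List.replicate_add, Nat.add_sub_cancel' hn] at e
  simpa [coreKer, coreList] using e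

theorem ActsAs.preBalls {k k₀ : H3 → H3 → ℂ} {r : MonoidAlgebra ℂ (Multiplicative ℝ)}
    (hkr : ActsAs k k₀ r) (hk : IsInvKer k) (hk₀ : IsInvKer k₀) :
    ∀ n, ActsAs (LTG.preBalls n k) (LTG.preBalls n k₀) r
  | 0 => hkr
  | n + 1 => by
    have e := (ActsAs.refl (ballKer 1)).kConv (ActsAs.preBalls hkr hk hk₀ n)
      (H3.isInvKer_ballKer 1) (isInvKer_preBalls hk n) (H3.isInvKer_ballKer 1)
      (isInvKer_preBalls hk₀ n)
    rwa [one_mul] at e

theorem actsAs_slotChain (h : |a| < ε) {n : ℕ} (hn : n ≤ deg) :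
    ActsAs (slotChain ε a deg n) (slotChain ε a deg 0)
      (symElt (ofAdd a) (Real.exp (-a) : ℂ) ^ n) := by
  have hb := H3.isInvKer_ballKer 1
  have e := (actsAs_coreKer h hn).kConv (ActsAs.refl (ballKer 1)) (isInvKer_coreKer h n) hb
    (isInvKer_coreKer h 0) hb
  rw [mul_one] at e
  exact e.preBalls ((isInvKer_coreKer h n).kConv hb) ((isInvKer_coreKer h 0).kConv hb) 6

theorem actsAs_bigKer (h : |a| < ε) {n₀ n₁ n₂ : ℕ} (h₀ : n₀ ≤ deg) (h₁ : n₁ ≤ deg) (h₂ : n₂ ≤ deg) :
    ActsAs (bigKer ε a deg n₀ n₁ n₂) (bigKer ε a deg 0 0 0)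
      (symElt (ofAdd a) (Real.exp (-a) : ℂ) ^ (n₀ + n₁ + n₂)) := by
  have hc := fun n => isInvKer_coreKer (deg := deg) h n
  have hr : IsInvKer (chainKer (List.replicate 13 (ballKer 1))) :=
    H3.isInvKer_chainKer fun _ hg => List.eq_of_mem_replicate hg ▸ H3.isInvKer_ballKer 1
  have e1 := (actsAs_coreKer h h₀).kConv (actsAs_coreKer h h₁) (hc _) (hc _) (hc _) (hc _)
  have e2 := e1.kConv (actsAs_coreKer h h₂) ((hc _).kConv (hc _)) (hc _)
    ((hc _).kConv (hc _)) (hc _)
  have e3 := e2.kConv (ActsAs.refl (chainKer (List.replicate 13 (ballKer 1))))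
    (((hc _).kConv (hc _)).kConv (hc _)) hr (((hc _).kConv (hc _)).kConv (hc _)) hr
  rw [mul_one, ← pow_add, ← pow_add] at e3
  exact e3

/-- The action of the kernel at the place of `K`. -/
theorem actsAs_bigChain (h : |a| < ε) {n₀ n₁ n₂ : ℕ} (h₀ : n₀ ≤ deg) (h₁ : n₁ ≤ deg)
    (h₂ : n₂ ≤ deg) :
    ActsAs (LTG.preBalls 6 (kConv (bigKer ε a deg n₀ n₁ n₂) (ballKer 1)))
      (LTG.preBalls 6 (kConv (bigKer ε a deg 0 0 0) (ballKer 1)))
      (symElt (ofAdd a) (Real.exp (-a) : ℂ) ^ (n₀ + n₁ + n₂)) := by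
  have hb := H3.isInvKer_ballKer 1
  have e := (actsAs_bigKer h h₀ h₁ h₂).kConv (ActsAs.refl (ballKer 1)) (isInvKer_bigKer h _ _ _) hb
    (isInvKer_bigKer h _ _ _) hb
  rw [mul_one] at e
  exact e.preBalls ((isInvKer_bigKer h _ _ _).kConv hb) ((isInvKer_bigKer h _ _ _).kConv hb) 6

end FermatAgent.LTG

end
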