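import Fermat.Agent.LT.General.Annihilator.Vanish
import Fermat.Agent.LT.General.Annihilator.AuxPlaces
import Fermat.Agent.LT.General.Level.Facts
import Fermat.Agent.LT.Descent.Kernel.CosetOp

set_option autoImplicit false

/-!
# The slots on the two fields

On `F` the three places over the auxiliary prime and the three places at infinity, on `K` the place
of the prime and the place at infinity three times.
-/

noncomputable section

open NumberField IsDedekindDomain WithZero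

namespace FermatAgent.LTG

open FermatAgent.LT (Adf smallAdeles IsLevelExp loc valued_loc adele_mul_apply
  adele_one_apply adele_algebraMap_apply piLoc)
open FermatAgent.LT.CO (isLevelExp_lvl lvl_eq_zero le_lvl_iff valued_piLoc)

section Unit

variable {L : Type*} [Field L] [NumberField L] {𝔫 : Ideal (𝓞 L)}

theorem valued_piIdele (v w : HeightOneSpectrum (𝓞 L)) [Decidable (w = v)] :
    Valued.v ((piIdele v : Adf L) w) = if w = v then exp (-1 : ℤ) else 1 := by
  split_ifs with h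
  · subst h
    rw [piIdele_self, valued_piLoc]
  · rw [piIdele_of_ne v h, map_one]

/-- An idele product with the valuations of a rational integer congruent to `1` differs from it by
a unit congruent to `1`. -/
theorem exists_slot_unit (h𝔫 : 𝔫 ≠ ⊥) (v : Fin 3 → HeightOneSpectrum (𝓞 L))
    (hgood : ∀ i, ¬ 𝔫 ≤ (v i).asIdeal) {k : ℤ} {γ : Lˣ} (hγ : (γ : L) = k)
    (hk : (k : 𝓞 L) - 1 ∈ 𝔫)
    (hval : ∀ w, ∏ i, Valued.v ((piIdele (v i) : Adf L) w) = w.valuation L (k : L)) :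
    ∃ e : HeightOneSpectrum (𝓞 L) → ℕ, IsLevelExp 𝔫 e ∧ ∃ u : (Adf L)ˣ,
      ∏ i, piIdele (v i) = Units.map (algebraMap L (Adf L)).toMonoidHom γ * u ∧
      (u : Adf L) - 1 ∈ smallAdeles e ∧ ((u⁻¹ : (Adf L)ˣ) : Adf L) - 1 ∈ smallAdeles e := by
  classical
  set Γ := Units.map (algebraMap L (Adf L)).toMonoidHom γ
  set u := Γ⁻¹ * ∏ i, piIdele (v i)
  refine ⟨LT.CO.lvl 𝔫, isLevelExp_lvl h𝔫, u, (mul_inv_cancel_left _ _).symm, ?_⟩
  have key : ∀ w, Valued.v (((u : Adf L) w) - 1) ≤ exp (-(LT.CO.lvl 𝔫 w : ℤ)) ∧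
      Valued.v ((((u⁻¹ : (Adf L)ˣ) : Adf L) w) - 1) ≤ exp (-(LT.CO.lvl 𝔫 w : ℤ)) := by
    intro w
    have hc : ((Γ : Adf L) w) = loc w (k : L) := by
      rw [← hγ]; exact adele_algebraMap_apply _ _
    have hm : ((Γ : Adf L) w) * ((u : Adf L) w) =
        (piIdele (v 0) : Adf L) w * (piIdele (v 1) : Adf L) w * (piIdele (v 2) : Adf L) w := by
      rw [← adele_mul_apply, ← Units.val_mul, mul_inv_cancel_left, Fin.prod_univ_three]
      simp only [Units.val_mul, adele_mul_apply]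
    have hi : ((u : Adf L) w) * (((u⁻¹ : (Adf L)ˣ) : Adf L) w) = 1 := by
      rw [← adele_mul_apply, Units.mul_inv, adele_one_apply]
    have h1 := congrArg Valued.v hm
    rw [map_mul, hc, valued_loc, ← hval, Fin.prod_univ_three] at h1
    simp only [map_mul] at h1
    have h0 : Valued.v ((piIdele (v 0) : Adf L) w) * Valued.v ((piIdele (v 1) : Adf L) w) *
        Valued.v ((piIdele (v 2) : Adf L) w) ≠ 0 := by
      simp only [valued_piIdele]
      split_ifs <;> simp [exp_ne_zero]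
    have hu1 : Valued.v ((u : Adf L) w) = 1 := (mul_eq_left₀ h0).mp h1
    have hu2 : Valued.v (((u⁻¹ : (Adf L)ˣ) : Adf L) w) = 1 := by
      have := congrArg Valued.v hi
      rwa [map_mul, map_one, hu1, one_mul] at this
    rcases Nat.eq_zero_or_pos (LT.CO.lvl 𝔫 w) with he | he
    · rw [he, Nat.cast_zero, neg_zero, exp_zero]
      exact ⟨(Valuation.map_sub _ _ _).trans (by rw [hu1, map_one, max_self]),
        (Valuation.map_sub _ _ _).trans (by rw [hu2, map_one, max_self])⟩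
    have hw : ∀ i, w ≠ v i := fun i h => by
      rw [h, lvl_eq_zero h𝔫 (hgood i)] at he
      omega
    rw [piIdele_of_ne _ (hw 0), piIdele_of_ne _ (hw 1), piIdele_of_ne _ (hw 2), one_mul, one_mul,
      hc] at hm
    have e2 : (((u⁻¹ : (Adf L)ˣ) : Adf L) w) = loc w (k : L) := by
      calc (((u⁻¹ : (Adf L)ˣ) : Adf L) w) =
          loc w (k : L) * (u : Adf L) w * (((u⁻¹ : (Adf L)ˣ) : Adf L) w) := by rw [hm, one_mul]
        _ = loc w (k : L) := by rw [mul_assoc, hi, mul_one]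
    have hb : Valued.v (loc w (k : L) - 1) ≤ exp (-(LT.CO.lvl 𝔫 w : ℤ)) := by
      rw [← map_one (loc w), ← map_sub, valued_loc,
        show (k : L) - 1 = algebraMap (𝓞 L) L ((k : 𝓞 L) - 1) by simp,
        HeightOneSpectrum.valuation_of_algebraMap, w.intValuation_le_pow_iff_mem]
      exact (le_lvl_iff h𝔫 w _).mp le_rfl hk
    refine ⟨?_, by rw [e2]; exact hb⟩
    rw [show (u : Adf L) w - 1 = -((u : Adf L) w * (loc w (k : L) - 1)) by
      linear_combination hm, Valuation.map_neg, map_mul, hu1, one_mul]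
    exact hb
  exact ⟨fun w => (key w).1, fun w => (key w).2⟩

theorem valuation_natCast_eq_one {p : ℕ} {w : HeightOneSpectrum (𝓞 L)} (h : (p : 𝓞 L) ∉ w.asIdeal) :
    w.valuation L (p : L) = 1 := by
  rw [← map_natCast (algebraMap (𝓞 L) L), HeightOneSpectrum.valuation_of_algebraMap]
  exact HeightOneSpectrum.intValuation_eq_one_iff.mpr h

omit [NumberField L] in
theorem neg_natCast_sub_one_mem {n p : ℕ} (h : n ∣ p + 1) :
    ((-(p : ℤ) : ℤ) : 𝓞 L) - 1 ∈ Ideal.span {(n : 𝓞 L)} := by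
  rw [Ideal.mem_span_singleton]
  have := (map_dvd (Nat.castRingHom (𝓞 L)) h).neg_right
  simp only [Nat.coe_castRingHom, Nat.cast_add, Nat.cast_one] at this
  push_cast
  exact (show -((p : 𝓞 L) + 1) = -(p : 𝓞 L) - 1 by ring) ▸ this

omit [NumberField L] in
theorem neg_natCast_cube_sub_one_mem {n p : ℕ} (h : n ∣ p + 1) :
    (((-(p : ℤ)) ^ 3 : ℤ) : 𝓞 L) - 1 ∈ Ideal.span {(n : 𝓞 L)} := by
  have := Ideal.mul_mem_left _ (((-(p : ℤ) : ℤ) : 𝓞 L) ^ 2 + ((-(p : ℤ) : ℤ) : 𝓞 L) + 1)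
    (neg_natCast_sub_one_mem (L := L) h)
  convert this using 1
  push_cast
  ring

end Unit

namespace IsAuxPrime

variable {S : Setup} {p : ℕ} (hp : IsAuxPrime S p) (D : S.Level) (hN : D.lvl ∣ p + 1)
include hp hN

/-- The data on the two fields. -/
theorem exists_slotData {σ : S.F ≃+* S.F} (hσ : S.IsGalGen σ)
    (w₁ : InfinitePlace S.K → InfinitePlace S.F)
    (hw₁ : ∀ u, (w₁ u).comap S.inclKF.toRingHom = u) :
    ∃ (ZF : SlotData (D.levelIdeal S.F)) (ZK : SlotData (D.levelIdeal S.K)),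
      ZF.p = p ∧ ZK.p = p ∧ Function.Injective ZF.slot ∧
      ZF.slot 0 = w₁ default ∧ ZF.slot 1 = (w₁ default).comap σ.toRingHom ∧
      ZF.slot 2 = ((w₁ default).comap σ.toRingHom).comap σ.toRingHom ∧
      (∀ w : InfinitePlace S.F, ∃ i, ZF.slot i = w) ∧ (∀ i, ZK.slot i = default) ∧
      (∀ i, S.underK (ZF.v i) = ZK.v i ∧ (p : 𝓞 S.F) ∈ (ZF.v i).asIdeal ∧
        Ideal.absNorm (ZF.v i).asIdeal = p ^ 2 ∧
        Ideal.absNorm (ZF.v i).asIdeal = Ideal.absNorm (S.underK (ZF.v i)).asIdeal) := by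
  classical
  obtain ⟨v, P, hinj, hPe, hPN, hv, hall⟩ := hp.exists_places hσ
  have hgF : ∀ i, ¬ D.levelIdeal S.F ≤ (v i).asIdeal := fun i h =>
    hp.m_notMem (hv i).1 ((D.levelIdeal_le_iff S.F _).mp h)
  have hpP : (p : 𝓞 S.K) ∈ P.asIdeal := hPe ▸ Ideal.mem_span_singleton_self _
  have hgK : ¬ D.levelIdeal S.K ≤ P.asIdeal := fun h =>
    hp.m_notMem hpP ((D.levelIdeal_le_iff S.K _).mp h)
  have hp0 : ∀ (L : Type) [Field L] [CharZero L], ((-(p : ℤ) : ℤ) : L) ≠ 0 := fun L _ _ =>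
    Int.cast_ne_zero.mpr (by have := hp.prime.pos; omega)
  have hlog : ∀ j : ℕ, Real.log |((((-(p : ℤ)) ^ j : ℤ)) : ℝ)| = j * Real.log p := fun j => by
    push_cast
    rw [abs_pow, abs_neg, Nat.abs_cast, Real.log_pow]
  set u₀ : InfinitePlace S.K := default
  set slot : Fin 3 → InfinitePlace S.F :=
    ![w₁ u₀, (w₁ u₀).comap σ.toRingHom, ((w₁ u₀).comap σ.toRingHom).comap σ.toRingHom]
  have hslot : Function.Injective slot := by
    obtain ⟨h1, h2⟩ := S.infinitePlace_orbit_injective hσ (w₁ u₀)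
    obtain ⟨h3, -⟩ := S.infinitePlace_orbit_injective hσ ((w₁ u₀).comap σ.toRingHom)
    intro i j hij
    fin_cases i <;> fin_cases j
    all_goals first | rfl | skip
    all_goals exfalso
    exacts [h1 hij.symm, h2 hij.symm, h1 hij, h3 hij.symm, h2 hij, h3 hij]
  have hsurj : ∀ w : InfinitePlace S.F, ∃ i, slot i = w := fun w => by
    rcases S.infinitePlace_orbit hσ (w₁ u₀) w
      ((hw₁ u₀).trans (Subsingleton.elim _ _)) with h | h | h
    · exact ⟨0, h.symm⟩
    · exact ⟨1, h.symm⟩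
    · exact ⟨2, h.symm⟩
  have hvalF : ∀ w : HeightOneSpectrum (𝓞 S.F), ∏ i, Valued.v ((piIdele (v i) : Adf S.F) w) =
      w.valuation S.F ((-(p : ℤ) : ℤ) : S.F) := fun w => by
    rw [Int.cast_neg, Valuation.map_neg, Int.cast_natCast]
    simp only [valued_piIdele]
    by_cases h : (p : 𝓞 S.F) ∈ w.asIdeal
    · obtain ⟨j, rfl⟩ := hall w h
      rw [(hv j).2.2.2]
      simp [hinj.eq_iff, Finset.prod_ite_eq]
    · rw [valuation_natCast_eq_one h, Finset.prod_eq_one]
      intro i _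
      exact if_neg fun e => h (by rw [e]; exact (hv i).1)
  have hvalK : ∀ w : HeightOneSpectrum (𝓞 S.K), ∏ _i : Fin 3, Valued.v ((piIdele P : Adf S.K) w) =
      w.valuation S.K (((-(p : ℤ)) ^ 3 : ℤ) : S.K) := fun w => by
    rw [Int.cast_pow, map_pow, Int.cast_neg, Valuation.map_neg, Int.cast_natCast, valued_piIdele,
      Finset.prod_const, Finset.card_univ, Fintype.card_fin]
    congr 1
    split_ifs with h
    · rw [h, ← map_natCast (algebraMap (𝓞 S.K) S.K), HeightOneSpectrum.valuation_of_algebraMap]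
      exact (P.intValuation_singleton (Nat.cast_ne_zero.mpr hp.prime.ne_zero) hPe).symm
    · refine (valuation_natCast_eq_one fun hw => h (HeightOneSpectrum.ext ?_)).symm
      exact ((hp.absNorm_K hw).2.trans hPe.symm)
  have hK0 : ((((-(p : ℤ)) ^ 3 : ℤ)) : S.K) ≠ 0 := by
    rw [Int.cast_pow]; exact pow_ne_zero _ (hp0 S.K)
  refine ⟨⟨slot, v, p, hp.prime.one_lt, hgF, fun i => (hv i).2.1, -(p : ℤ),
      Units.mk0 _ (hp0 S.F), rfl, fun w => ?_,
      exists_slot_unit (D.levelIdeal_ne_bot S.F) v hgF rfl (neg_natCast_sub_one_mem hN) hvalF⟩,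
    ⟨fun _ => u₀, fun _ => P, p, hp.prime.one_lt, fun _ => hgK, fun _ => hPN, (-(p : ℤ)) ^ 3,
      Units.mk0 _ hK0, rfl, fun w => ?_,
      exists_slot_unit (D.levelIdeal_ne_bot S.K) (fun _ => P) (fun _ => hgK) rfl
        (neg_natCast_cube_sub_one_mem hN) hvalK⟩,
    rfl, rfl, hslot, rfl, rfl, rfl, hsurj, fun _ => rfl,
    fun i => ⟨(hv i).2.2.1, (hv i).1, (hv i).2.1, by rw [(hv i).2.2.1, hPN, (hv i).2.1]⟩⟩
  · obtain ⟨j, rfl⟩ := hsurj w
    have := hlog 1
    rw [pow_one, Nat.cast_one, one_mul] at this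
    rw [this]
    simp [Pi.single_apply, hslot.eq_iff]
  · rw [hlog 3, Subsingleton.elim w u₀]
    simp

end IsAuxPrime

end FermatAgent.LTG

end
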