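import Fermat.Agent.LT.General.Annihilator.Cusp
import Fermat.Agent.LT.General.Annihilator.Kernels
import Fermat.Agent.LT.General.Annihilator.Slots
import Fermat.Agent.LT.General.Spectral.Annihilator
import Fermat.Agent.LT.General.Spectral.WordOps

set_option autoImplicit false

/-!
# Existence of an annihilator of the constant terms
-/

noncomputable section

open MeasureTheory NumberField IsDedekindDomain Multiplicative
open scoped ComplexConjugate MatrixGroups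

namespace FermatAgent.LTG

open FermatAgent.LT (H3 YSpace Cosets yKer yOp kerSum heckeWord heckeOp IsCosetOp IsFrobOver q8Trace
  isYKernel_yKer yOp_yKer_mean)

local notation "Qb" => AlgebraicClosure ℚ
local notation "GQ" => AlgebraicClosure ℚ ≃ₐ[ℚ] AlgebraicClosure ℚ

/-- The matched data of an auxiliary prime on the two fields. -/
structure MatchedSlots (S : Setup) (D : S.Level) (σ : S.F ≃+* S.F)
    (w₁ : InfinitePlace S.K → InfinitePlace S.F) where
  /-- the prime -/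
  p : ℕ
  aux : IsAuxPrime S p
  /-- the data on `F` -/
  ZF : SlotData (D.levelIdeal S.F)
  /-- the data on `K` -/
  ZK : SlotData (D.levelIdeal S.K)
  pF : ZF.p = p
  pK : ZK.p = p
  /-- the index of a place -/
  idx : InfinitePlace S.F → Fin 3
  idx_slot : ∀ i, idx (ZF.slot i) = i
  slot_idx : ∀ w, ZF.slot (idx w) = w
  slot₀ : ∀ u, ZF.slot 0 = w₁ u
  slot₁ : ∀ u, ZF.slot 1 = (w₁ u).comap σ.toRingHom
  slot₂ : ∀ u, ZF.slot 2 = ((w₁ u).comap σ.toRingHom).comap σ.toRingHom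
  slotK : ∀ i, ZK.slot i = default
  under : ∀ i, S.underK (ZF.v i) = ZK.v i
  above : ∀ i, (p : 𝓞 S.F) ∈ (ZF.v i).asIdeal
  normF : ∀ i, Ideal.absNorm (ZF.v i).asIdeal = p ^ 2
  deg_one : ∀ i, Ideal.absNorm (ZF.v i).asIdeal = Ideal.absNorm (S.underK (ZF.v i)).asIdeal

theorem exists_matchedSlots (S : Setup) (D : S.Level) {σ : S.F ≃+* S.F} (hσ : S.IsGalGen σ)
    (w₁ : InfinitePlace S.K → InfinitePlace S.F)
    (hw₁ : ∀ u, (w₁ u).comap S.inclKF.toRingHom = u) (T : Finset ℕ) :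
    ∃ Z : MatchedSlots S D σ w₁, Z.p ∉ T := by
  obtain ⟨p, hp, hpT, hpm, hdvd, A, hA, τ, hτ, h4, h2⟩ :=
    S.exists_auxPrime D.lvl (pow_ne_zero _ S.m_ne_zero) T
  have h3 : 3 ∣ p + 1 := dvd_trans (dvd_trans ((by norm_num : 3 ∣ 6).trans S.six_dvd)
    (dvd_pow_self _ (Nat.succ_ne_zero _))) hdvd
  have aux : IsAuxPrime S p := ⟨hp, hpm, h3, A, hA, τ, hτ, h4, h2⟩
  obtain ⟨ZF, ZK, hF, hK, hinj, h₀, h₁, h₂, hsurj, hslotK, hv⟩ :=
    aux.exists_slotData D hdvd hσ w₁ hw₁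
  choose idx hidx using hsurj
  refine ⟨⟨p, aux, ZF, ZK, hF, hK, idx, fun i => hinj (hidx _), hidx, fun u => ?_, fun u => ?_,
    fun u => ?_, hslotK, fun i => (hv i).1, fun i => (hv i).2.1, fun i => (hv i).2.2.1,
    fun i => (hv i).2.2.2⟩, hpT⟩ <;> rw [Subsingleton.elim u default] <;> assumption

namespace MatchedSlots

variable {S : Setup} {D : S.Level} {σ : S.F ≃+* S.F} {w₁ : InfinitePlace S.K → InfinitePlace S.F}
  (Z : MatchedSlots S D σ w₁)

/-- The shift. -/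
def shift : ℝ := Real.log Z.p

/-- The radius. -/
def radius : ℝ := Real.log Z.p + 1

/-- The common number of balls. -/
abbrev deg : ℕ := relPoly.totalDegree

theorem abs_shift_lt : |Z.shift| < Z.radius := by
  rw [shift, abs_of_nonneg (Real.log_natCast_nonneg _), radius]
  exact lt_add_one _

theorem radius_pos : 0 < Z.radius := (abs_nonneg _).trans_lt Z.abs_shift_lt

/-- The kernel of a monomial at a place of `F`. -/
def chainF (d : Slot →₀ ℕ) (w : InfinitePlace S.F) : H3 → H3 → ℂ :=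
  slotChain Z.radius Z.shift deg (d (Sum.inl (Z.idx w)))

theorem good_word {d : Slot →₀ ℕ} {w : HeightOneSpectrum (𝓞 S.F)} (h : w ∈ Z.ZF.word d) :
    (S.m : 𝓞 S.F) ∉ w.asIdeal ∧ Ideal.absNorm w.asIdeal = Ideal.absNorm (S.underK w).asIdeal := by
  obtain ⟨i, rfl⟩ := Z.ZF.mem_word h
  exact ⟨Z.aux.m_notMem (Z.above i), Z.deg_one i⟩

/-- The word of a monomial. -/
def mono (d : Slot →₀ ℕ) : KWord S where
  ker := Z.chainF d
  inv _ := isInvKer_slotChain Z.abs_shift_lt _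
  real _ := conj_slotChain Z.abs_shift_lt _
  pl := Z.ZF.word d
  good _ h := Z.good_word h

/-- The combination. -/
def combo : Combo S := relPoly.support.toList.map fun d => (Z.ZF.coef d, Z.mono d)

theorem coef_eq (d : Slot →₀ ℕ) : Z.ZK.coef d = Z.ZF.coef d := by
  rw [SlotData.coef, SlotData.coef, Z.pK, Z.pF]

theorem prod_bcOp (d : Slot →₀ ℕ) :
    ((Z.ZF.word d).map D.bcOp).prod = heckeWord (D.levelIdeal S.K) (Z.ZK.word d) := by
  rw [heckeWord, SlotData.word, SlotData.word, List.map_flatten, List.map_flatten, List.map_map,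
    List.map_map]
  refine congrArg (fun l => (List.flatten l).prod) (List.map_congr_left fun i _ => ?_)
  simp only [Function.comp_apply, List.map_replicate, Setup.Level.bcOp, Z.under]

theorem kerF_combo : Combo.kerF D σ Z.combo = combKer relPoly.support (fun d => (Z.ZF.coef d : ℂ))
    fun d => yKer (Z.chainF d) (D.levelOpF σ * heckeWord (D.levelIdeal S.F) (Z.ZF.word d)) := by
  funext y z
  rw [Combo.kerF, combo, List.map_map, combKer, ← Finset.sum_map_toList]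
  rfl

/-- The kernel of a monomial at the place of `K` without the preceding balls. -/
def bigK (d : Slot →₀ ℕ) : H3 → H3 → ℂ :=
  bigKer Z.radius Z.shift deg (d (Sum.inl 0)) (d (Sum.inl 1)) (d (Sum.inl 2))

theorem slotKer_chainF (d : Slot →₀ ℕ) (u : InfinitePlace S.K) :
    S.slotKer σ w₁ (Z.chainF d) u = preBalls 6 (H3.kConv (Z.bigK d) (H3.ballKer 1)) := by
  rw [Setup.slotKer, ← Z.slot₀ u, bigK, ← kConv_slotChain Z.abs_shift_lt]
  rw [show (Z.ZF.slot 0).comap σ.toRingHom = Z.ZF.slot 1 by rw [Z.slot₀ u, Z.slot₁ u],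
    show (Z.ZF.slot 1).comap σ.toRingHom = Z.ZF.slot 2 by rw [Z.slot₁ u, Z.slot₂ u]]
  simp only [chainF, Z.idx_slot]

theorem kerK_combo : Combo.kerK D σ w₁ Z.combo = combKer relPoly.support (fun d => (Z.ZF.coef d : ℂ))
    fun d => yKer (fun _ => preBalls 6 (H3.kConv (Z.bigK d) (H3.ballKer 1)))
      (D.levelOpK * heckeWord (D.levelIdeal S.K) (Z.ZK.word d)) := by
  funext y z
  rw [Combo.kerK, combo, List.map_map, combKer, ← Finset.sum_map_toList]
  refine congrArg List.sum (List.map_congr_left fun d _ => ?_)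
  simp only [Function.comp_apply, KWord.kerK, mono, Z.prod_bcOp]
  rw [show S.slotKer σ w₁ (Z.chainF d) = _ from funext fun u => Z.slotKer_chainF d u]

theorem le_deg {d : Slot →₀ ℕ} (hd : d ∈ relPoly.support) (i : Fin 3) : d (Sum.inl i) ≤ deg :=
  totalDegree_bound hd _

theorem slotMon_F (d : Slot →₀ ℕ) (w : InfinitePlace S.F) : Z.ZF.slotMon d w =
    symElt (ofAdd Z.shift) (Real.exp (-Z.shift) : ℂ) ^ d (Sum.inl (Z.idx w)) := by
  classical
  rw [SlotData.slotMon, Z.pF, shift, Finset.prod_eq_single (Z.idx w)]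
  · intro i hi hne
    rw [Finset.mem_filter] at hi
    exact absurd (by rw [← hi.2, Z.idx_slot]) hne
  · intro h
    exact absurd (by simp [Z.slot_idx]) h

theorem slotMon_K (d : Slot →₀ ℕ) (u : InfinitePlace S.K) : Z.ZK.slotMon d u =
    symElt (ofAdd Z.shift) (Real.exp (-Z.shift) : ℂ) ^
      (d (Sum.inl 0) + d (Sum.inl 1) + d (Sum.inl 2)) := by
  classical
  obtain rfl : u = default := Subsingleton.elim _ _
  rw [SlotData.slotMon, Z.pK, shift]
  simp [Z.slotK, Fin.prod_univ_three, pow_add]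

theorem isCosetOp_wordF (d : Slot →₀ ℕ) :
    IsCosetOp (D.levelOpF σ * heckeWord (D.levelIdeal S.F) (Z.ZF.word d)) :=
  (D.isCosetOp_levelOpF σ).mul (isCosetOp_heckeWord (D.levelIdeal_ne_bot S.F) fun v hv => by
    obtain ⟨i, rfl⟩ := Z.ZF.mem_word hv
    exact Z.ZF.good i)

theorem isCosetOp_wordK (d : Slot →₀ ℕ) :
    IsCosetOp (D.levelOpK * heckeWord (D.levelIdeal S.K) (Z.ZK.word d)) :=
  D.isCosetOp_levelOpK.mul (isCosetOp_heckeWord (D.levelIdeal_ne_bot S.K) fun v hv => by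
    obtain ⟨i, rfl⟩ := Z.ZK.mem_word hv
    exact Z.ZK.good i)

theorem boundF : ∃ C : ℝ, ∀ y z, ‖kerSum (Combo.kerF D σ Z.combo) y z‖ ≤ C := by
  classical
  have hcard : Fintype.card (InfinitePlace S.F) ≤ 3 :=
    (Fintype.card_le_of_injective Z.idx fun a b h => by
      rw [← Z.slot_idx a, h, Z.slot_idx]).trans_eq (Fintype.card_fin 3)
  have hh : ∀ (d : Slot →₀ ℕ) (w : InfinitePlace S.F),
      H3.IsInvKer (coreKer Z.radius Z.shift deg (d (Sum.inl (Z.idx w)))) :=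
    fun d w => isInvKer_coreKer Z.abs_shift_lt _
  rw [Z.kerF_combo]
  refine exists_bound_combKer relPoly.support _ hh Z.isCosetOp_wordF (fun H hH y => ?_) (m := 6)
    (by omega)
  refine Z.ZF.sum_constTerm_eq_zero hh (fun w => isInvKer_coreKer (deg := deg) Z.abs_shift_lt 0)
    (fun d hd w => ?_) (D.isCosetOp_levelOpF σ) hH y
  rw [Z.slotMon_F]
  exact actsAs_coreKer Z.abs_shift_lt (le_deg hd _)

theorem boundK : ∃ C : ℝ, ∀ y z, ‖kerSum (Combo.kerK D σ w₁ Z.combo) y z‖ ≤ C := by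
  have hh : ∀ (d : Slot →₀ ℕ) (_ : InfinitePlace S.K), H3.IsInvKer (Z.bigK d) :=
    fun d _ => isInvKer_bigKer Z.abs_shift_lt _ _ _
  rw [Z.kerK_combo]
  refine exists_bound_combKer relPoly.support _ hh Z.isCosetOp_wordK (fun H hH y => ?_) (m := 6)
    (by simp)
  simp only [← Z.coef_eq]
  refine Z.ZK.sum_constTerm_eq_zero hh (fun _ => isInvKer_bigKer (deg := deg) Z.abs_shift_lt 0 0 0)
    (fun d hd u => ?_) D.isCosetOp_levelOpK hH y
  rw [Z.slotMon_K]
  exact actsAs_bigKer Z.abs_shift_lt (le_deg hd _) (le_deg hd _) (le_deg hd _)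

theorem meanZeroF {Φ : YSpace (D.levelIdeal S.F) → ℂ} {c : ℂ} (hc : c ≠ 0) (hm : Measurable Φ)
    (hinv : ∀ (γ : PGL(2, S.F)) y, Φ (γ • y) = Φ y) (hb : ∃ C, ∀ y, ‖Φ y‖ ≤ C)
    (he : ∀ y, yOp (Combo.kerF D σ Z.combo) Φ y = c * Φ y) : MeanZero Φ := by
  rw [Z.kerF_combo] at he
  exact meanZero_of_eigen (fun d w => isInvKer_slotChain Z.abs_shift_lt _) Z.isCosetOp_wordF
    (fun H hH y => Z.ZF.sum_constTerm_eq_zero (fun d w => isInvKer_slotChain Z.abs_shift_lt _)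
      (fun w => isInvKer_slotChain Z.abs_shift_lt 0) (fun d hd w => by
        rw [Z.slotMon_F]
        exact actsAs_slotChain Z.abs_shift_lt (le_deg hd _)) (D.isCosetOp_levelOpF σ) hH y)
    hm hinv hb hc he

theorem meanZeroK {Φ : YSpace (D.levelIdeal S.K) → ℂ} {c : ℂ} (hc : c ≠ 0) (hm : Measurable Φ)
    (hinv : ∀ (γ : PGL(2, S.K)) y, Φ (γ • y) = Φ y) (hb : ∃ C, ∀ y, ‖Φ y‖ ≤ C)
    (he : ∀ y, yOp (Combo.kerK D σ w₁ Z.combo) Φ y = c * Φ y) : MeanZero Φ := by
  rw [Z.kerK_combo] at he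
  have hi : ∀ n₀ n₁ n₂ : ℕ, H3.IsInvKer
      (preBalls 6 (H3.kConv (bigKer Z.radius Z.shift deg n₀ n₁ n₂) (H3.ballKer 1))) := fun _ _ _ =>
    isInvKer_preBalls ((isInvKer_bigKer Z.abs_shift_lt _ _ _).kConv (H3.isInvKer_ballKer 1)) 6
  refine meanZero_of_eigen (fun d _ => hi _ _ _) Z.isCosetOp_wordK (fun H hH y => ?_) hm hinv hb hc he
  simp only [← Z.coef_eq]
  refine Z.ZK.sum_constTerm_eq_zero (fun d _ => hi _ _ _) (fun _ => hi 0 0 0) (fun d hd u => ?_)
    D.isCosetOp_levelOpK hH y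
  rw [Z.slotMon_K]
  exact actsAs_bigChain Z.abs_shift_lt (le_deg hd _) (le_deg hd _) (le_deg hd _)

/-- The scalar. -/
def scalar : ℝ :=
  (H3.sph0 Z.radius ^ deg * H3.sph0 1 ^ 8) ^ 3 * ((MvPolynomial.eval slotPoint relPoly : ℤ) : ℝ)

theorem scalar_ne_zero : Z.scalar ≠ 0 :=
  mul_ne_zero (pow_ne_zero _ (mul_ne_zero (pow_ne_zero _ (H3.sph0_pos Z.radius_pos).ne')
    (pow_ne_zero _ (H3.sph0_pos one_pos).ne'))) (Int.cast_ne_zero.mpr eval_relPoly_ne_zero)

theorem heckeWord_eq_zero_pow {L : Type*} [Field L] [NumberField L] {𝔫 : Ideal (𝓞 L)}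
    {f : Cosets 𝔫 → ℂ} : ∀ {l : List (HeightOneSpectrum (𝓞 L))},
    (∀ v ∈ l, heckeOp 𝔫 v f = 0) → heckeWord 𝔫 l f = (0 : ℂ) ^ l.length • f
  | [], _ => by simp [heckeWord]
  | v :: l, h => by
    have e := heckeWord_eq_zero_pow fun u hu => h u (List.mem_cons_of_mem v hu)
    simp only [heckeWord] at e
    simp [heckeWord, e, h v List.mem_cons_self]

theorem eigen_combo {t : HeightOneSpectrum (𝓞 S.F) → ℤ}
    (ht : ∀ w, (S.m : 𝓞 S.F) ∉ w.asIdeal → ∀ g, IsFrobOver w g → t w = q8Trace (S.ρ g))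
    {Φ : YSpace (D.levelIdeal S.F) → ℂ}
    (hΦ : IsTypeFun D σ t {w | (Z.p : 𝓞 S.F) ∈ w.asIdeal} Φ) (y : YSpace (D.levelIdeal S.F)) :
    yOp (Combo.kerF D σ Z.combo) Φ y = (Z.scalar : ℂ) * Φ y := by
  classical
  obtain ⟨C, hC⟩ := hΦ.bounded
  obtain ⟨x, q⟩ := y
  rw [Z.kerF_combo, yOp_combKer (fun d => isYKernel_yKer
    (Z.mono d).inv (Z.isCosetOp_wordF d) : ∀ d, LT.IsYKernel (yKer (Z.chainF d)
      (D.levelOpF σ * heckeWord (D.levelIdeal S.F) (Z.ZF.word d)))) hΦ.measurable hΦ.bounded,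
    scalar, MvPolynomial.eval_eq', Complex.ofReal_mul, Complex.ofReal_intCast, Int.cast_sum,
    Finset.mul_sum, Finset.sum_mul]
  refine Finset.sum_congr rfl fun d hd => ?_
  have hzero : ∀ x, ∀ v ∈ Z.ZF.word d,
      heckeOp (D.levelIdeal S.F) v (fun p => Φ (x, p)) = 0 := fun x v hv => by
    obtain ⟨i, rfl⟩ := Z.ZF.mem_word hv
    obtain ⟨g, hg⟩ := LT.exists_isFrobOver S.F (Z.ZF.v i)
    have h0 : lamOf t (Z.ZF.v i) = 0 := by
      rw [lamOf, ht _ (Z.good_word hv).1 g hg, Z.aux.trace_eq_zero (Z.above i) (Z.normF i) hg]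
      simp
    rw [hΦ.hecke _ (Z.above i) x, h0]
    funext p
    simp
  have hlen : (Z.ZF.word d).length = ∑ i, d (Sum.inr i) := by
    rw [SlotData.word, List.length_flatten, List.map_map, Fin.sum_univ_def]
    refine congrArg List.sum (List.map_congr_left fun i _ => ?_)
    simp
  have key := yOp_yKer_mean (𝔫 := D.levelIdeal S.F)
    (h := Z.chainF d) (fun w => isInvKer_slotChain Z.abs_shift_lt _)
    (Z.isCosetOp_wordF d) hΦ.measurable hC
    (a := fun w => 2 ^ d (Sum.inl (Z.idx w)) * (H3.sph0 Z.radius : ℂ) ^ deg * (H3.sph0 1 : ℂ) ^ 8)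
    (r := (0 : ℂ) ^ (Z.ZF.word d).length) (fun x => ?_) (fun w x P q => ?_) x q
  · refine (congrArg (fun s => (Z.ZF.coef d : ℂ) * s) key).trans ?_
    rw [Fintype.prod_bijective Z.idx ⟨fun a b h => by rw [← Z.slot_idx a, h, Z.slot_idx],
      fun i => ⟨_, Z.idx_slot i⟩⟩ _ (fun i : Fin 3 =>
        2 ^ d (Sum.inl i) * (H3.sph0 Z.radius : ℂ) ^ deg * (H3.sph0 1 : ℂ) ^ 8) fun _ => rfl,
      Fin.prod_univ_three, hlen, SlotData.coef, Z.pF]
    simp only [Fintype.prod_sum_type, slotPoint, Sum.elim_inl, Sum.elim_inr,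
      Finset.prod_pow_eq_pow_sum, Int.cast_mul, Int.cast_pow, Int.cast_ofNat, Int.cast_zero,
      Complex.ofReal_div, Complex.ofReal_pow, Complex.ofReal_intCast, Complex.ofReal_natCast,
      Complex.ofReal_mul]
    rcases Nat.eq_zero_or_pos (∑ i, d (Sum.inr i)) with h0 | h0
    · simp only [h0, pow_zero, Fin.sum_univ_three, pow_add]
      ring
    · rw [zero_pow h0.ne']
      ring
  · rw [Module.End.mul_apply, heckeWord_eq_zero_pow (hzero x), map_smul, hΦ.level x]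
    rfl
  · exact mean_slotChain Z.abs_shift_lt (le_deg hd _)
      (f := fun Q => Φ (Function.update x w Q, q)) (hΦ.sph w x q)
      (hΦ.measurable.comp ((measurable_update x).prodMk measurable_const)) (fun Q => hC _) P

/-- The annihilator of an auxiliary prime. -/
def annihilator (t : HeightOneSpectrum (𝓞 S.F) → ℤ)
    (ht : ∀ w, (S.m : 𝓞 S.F) ∉ w.asIdeal → ∀ g, IsFrobOver w g → t w = q8Trace (S.ρ g)) :
    Annihilator S D σ w₁ t where
  p := Z.p
  p_prime := Z.aux.prime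
  p_good := Z.aux.not_dvd
  A := Z.combo
  letters x hx w hw := by
    simp only [combo, List.mem_map] at hx
    obtain ⟨d, -, rfl⟩ := hx
    obtain ⟨i, rfl⟩ := Z.ZF.mem_word hw
    exact Z.above i
  boundF := Z.boundF
  boundK := Z.boundK
  α := Z.scalar
  α_ne_zero := Z.scalar_ne_zero
  eigen _ hΦ := Z.eigen_combo ht hΦ
  cuspF _ _ hc hm hinv hb hcont hsph he :=
    isCuspFn_of_meanZero hinv hb hcont hsph (Z.meanZeroF hc hm hinv hb he)
  cuspK _ _ hc hm hinv hb hcont hsph he :=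
    isCuspFn_of_meanZero hinv hb hcont hsph (Z.meanZeroK hc hm hinv hb he)

end MatchedSlots

/-- **Annihilators exist** at primes outside any finite set. -/
theorem exists_annihilator (S : Setup) (D : S.Level) {σ : S.F ≃+* S.F} (hσ : S.IsGalGen σ)
    (w₁ : InfinitePlace S.K → InfinitePlace S.F)
    (hw₁ : ∀ u, (w₁ u).comap S.inclKF.toRingHom = u) (t : HeightOneSpectrum (𝓞 S.F) → ℤ)
    (ht : ∀ w, (S.m : 𝓞 S.F) ∉ w.asIdeal → ∀ g, IsFrobOver w g → t w = q8Trace (S.ρ g))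
    (T : Finset ℕ) : ∃ An : Annihilator S D σ w₁ t, An.p ∉ T := by
  obtain ⟨Z, hZ⟩ := exists_matchedSlots S D hσ w₁ hw₁ T
  exact ⟨Z.annihilator t ht, hZ⟩

end FermatAgent.LTG

end
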