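import Mathlib

set_option autoImplicit false

/-!
# The relation polynomial of six units with product one

`relPoly` vanishes at `(X_k + X_k⁻¹)` whenever `∏ X_k = 1`, and not at `(2, 2, 2, 0, 0, 0)`.
-/

noncomputable section

open Matrix

namespace FermatAgent.LTG

/-- The six variables: three at infinity, three at the places of `p`. -/
abbrev Slot := Fin 3 ⊕ Fin 3

/-- The tensor product of six `2 × 2` matrices. -/
def slotTensor {R : Type*} [CommRing R] (A : Slot → Matrix (Fin 2) (Fin 2) R) :
    Matrix (Slot → Fin 2) (Slot → Fin 2) R :=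
  Matrix.of fun i j => ∏ k, A k (i k) (j k)

/-- The companion matrix of `X² - T X + 1`. -/
def slotComp {R : Type*} [CommRing R] (T : R) : Matrix (Fin 2) (Fin 2) R := !![0, 1; -1, T]

variable {R : Type*} [CommRing R]

theorem slotTensor_mul (A B : Slot → Matrix (Fin 2) (Fin 2) R) :
    slotTensor A * slotTensor B = slotTensor fun k => A k * B k := by
  ext i j
  simp only [slotTensor, Matrix.mul_apply, Matrix.of_apply, Fintype.prod_sum]
  exact Finset.sum_congr rfl fun l _ => Finset.prod_mul_distrib.symm

theorem slotTensor_one : slotTensor (fun _ => (1 : Matrix (Fin 2) (Fin 2) R)) = 1 := by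
  ext i j
  simp only [slotTensor, Matrix.of_apply, Matrix.one_apply, Finset.prod_boole, funext_iff,
    Finset.mem_univ, true_implies]

theorem slotTensor_pow (A : Slot → Matrix (Fin 2) (Fin 2) R) (n : ℕ) :
    slotTensor A ^ n = slotTensor fun k => A k ^ n := by
  induction n with
  | zero => simp [slotTensor_one]
  | succ n ih =>
    rw [pow_succ, ih, slotTensor_mul]
    simp [pow_succ]

theorem slotTensor_smul (c : Slot → R) (A : Slot → Matrix (Fin 2) (Fin 2) R) :
    slotTensor (fun k => c k • A k) = (∏ k, c k) • slotTensor A := by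
  ext i j
  simp [slotTensor, Finset.prod_mul_distrib]

theorem det_slot_sub_one_eq_zero (X : Slot → Rˣ) (hX : ∏ k, X k = 1) :
    (slotTensor (fun k => slotComp ((X k : R) + ((X k)⁻¹ : Rˣ))) - 1).det = 0 := by
  set M := slotTensor (fun k => slotComp ((X k : R) + ((X k)⁻¹ : Rˣ))) - 1
  set vk : Slot → Fin 2 → R := fun k => ![1, (X k : R)]
  set v : (Slot → Fin 2) → R := fun i => ∏ k, vk k (i k)
  have hv : M *ᵥ v = 0 := by
    funext i
    have h1 : (slotTensor (fun k => slotComp ((X k : R) + ((X k)⁻¹ : Rˣ))) *ᵥ v) i = v i := by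
      simp only [Matrix.mulVec, dotProduct, slotTensor, Matrix.of_apply, v,
        ← Finset.prod_mul_distrib]
      rw [← Fintype.prod_sum fun k b =>
        slotComp ((X k : R) + ((X k)⁻¹ : Rˣ)) (i k) b * vk k b]
      have e : ∀ (k : Slot) (a : Fin 2),
          (∑ b, slotComp ((X k : R) + ((X k)⁻¹ : Rˣ)) a b * vk k b) = (X k : R) * vk k a := by
        intro k a
        fin_cases a <;> simp [slotComp, vk, Fin.sum_univ_two]
        linear_combination (X k).inv_mul
      simp only [e, Finset.prod_mul_distrib, ← Units.coe_prod, hX, Units.val_one, one_mul]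
    simp only [M, Matrix.sub_mulVec, Matrix.one_mulVec, Pi.sub_apply, Pi.zero_apply, h1, sub_self]
  have h0 : v 0 = 1 := Finset.prod_eq_one fun k _ => rfl
  have h2 := congrArg (fun u => (Matrix.adjugate M *ᵥ u) 0) hv
  simp only [Matrix.mulVec_mulVec, Matrix.adjugate_mul, Matrix.smul_mulVec, Matrix.one_mulVec,
    Pi.smul_apply, smul_eq_mul, h0, mul_one, Matrix.mulVec_zero, Pi.zero_apply] at h2
  exact h2

/-- The relation polynomial. -/
def relPoly : MvPolynomial Slot ℤ :=
  (slotTensor (fun k => slotComp (MvPolynomial.X k : MvPolynomial Slot ℤ)) - 1).det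

theorem map_relPoly {S : Type*} [CommRing S] (f : MvPolynomial Slot ℤ →+* S) :
    f relPoly = (slotTensor (fun k => slotComp (f (MvPolynomial.X k))) - 1).det := by
  rw [relPoly, RingHom.map_det, map_sub, map_one]
  congr 2
  ext i j
  simp only [RingHom.mapMatrix_apply, Matrix.map_apply, slotTensor, Matrix.of_apply, map_prod]
  refine Finset.prod_congr rfl fun k _ => ?_
  generalize i k = a
  generalize j k = b
  fin_cases a <;> fin_cases b <;> simp [slotComp]

theorem aeval_relPoly_eq_zero (X : Slot → Rˣ) (hX : ∏ k, X k = 1) :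
    MvPolynomial.aeval (fun k => (X k : R) + ((X k)⁻¹ : Rˣ)) relPoly = 0 := by
  have h := map_relPoly (MvPolynomial.aeval (R := ℤ)
    (fun k => (X k : R) + ((X k)⁻¹ : Rˣ))).toRingHom
  simp only [AlgHom.toRingHom_eq_coe, RingHom.coe_coe, MvPolynomial.aeval_X] at h
  rw [h, det_slot_sub_one_eq_zero X hX]

/-- The point of the eigenvalues `2` at infinity and `0` at `p`. -/
def slotPoint : Slot → ℤ := Sum.elim (fun _ => 2) (fun _ => 0)

theorem eval_relPoly_ne_zero : MvPolynomial.eval slotPoint relPoly ≠ 0 := by
  intro h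
  have h1 := map_relPoly ((Int.castRingHom (ZMod 3)).comp (MvPolynomial.eval slotPoint))
  simp only [RingHom.coe_comp, Function.comp_apply, h, map_zero, MvPolynomial.eval_X] at h1
  set A : Slot → Matrix (Fin 2) (Fin 2) (ZMod 3) :=
    fun k => slotComp (Int.castRingHom (ZMod 3) (slotPoint k))
  set M := slotTensor A
  set c : Slot → ZMod 3 := Sum.elim (fun _ => 1) (fun _ => -1)
  have h6 : ∀ k, A k ^ 6 = c k • 1 := by
    intro k
    rcases k with k | k
    · simp only [A, c, slotPoint, slotComp, Sum.elim_inl, one_smul]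
      decide
    · simp only [A, c, slotPoint, slotComp, Sum.elim_inr]
      decide
  have hM : M ^ 6 = -1 := by
    rw [slotTensor_pow, show (fun k => A k ^ 6) = fun k => c k • (1 : Matrix (Fin 2) (Fin 2) (ZMod 3))
      from funext h6, slotTensor_smul, slotTensor_one,
      show ∏ k, c k = -1 from by decide, neg_smul, one_smul]
  have hdet : ((M - 1) * ∑ i ∈ Finset.range 6, M ^ i).det ≠ 0 := by
    rw [mul_geom_sum, hM, show (-1 - 1 : Matrix (Slot → Fin 2) (Slot → Fin 2) (ZMod 3)) =
      (1 : ZMod 3) • 1 from ?_, Matrix.det_smul, Matrix.det_one]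
    · simp
    · rw [one_smul]
      ext i j
      by_cases hij : i = j
      · subst hij
        simp only [Matrix.sub_apply, Matrix.neg_apply, Matrix.one_apply_eq]
        decide
      · simp [Matrix.one_apply_ne hij]
  rw [Matrix.det_mul, ← h1, zero_mul] at hdet
  exact hdet rfl

theorem totalDegree_bound {d : Slot →₀ ℕ} (hd : d ∈ relPoly.support) (k : Slot) :
    d k ≤ relPoly.totalDegree := by
  refine le_trans ?_ (MvPolynomial.le_totalDegree hd)
  by_cases h : d k = 0
  · simp [h]
  · exact Finset.single_le_sum (f := fun i => d i) (fun i _ => Nat.zero_le _)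
      (Finsupp.mem_support_iff.mpr h)

end FermatAgent.LTG

end
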