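import Fermat.Agent.LT.General.Annihilator.AdmOp
import Fermat.Agent.LT.General.Annihilator.Diagonal

set_option autoImplicit false

/-!
# The combination of monomials kills the constant terms

Three places `v i` of norm `p ^ 2` and three slots `slot i` at infinity: if the product of the
uniformizers is a rational integer times a unit of the level, the combination attached to `relPoly`
annihilates the constant term of every invariant function.
-/

noncomputable section

open MeasureTheory Set Filter NumberField IsDedekindDomain Multiplicative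
open scoped MatrixGroups

namespace FermatAgent.LTG

open FermatAgent.LT

variable {L : Type*} [Field L] [NumberField L] {𝔫 : Ideal (𝓞 L)}

local instance instDecEqSlotPlace : DecidableEq (InfinitePlace L) := Classical.decEq _

/-- The heights and the ideles. -/
abbrev ScaleGrp (L : Type*) [Field L] [NumberField L] :=
  Multiplicative (InfinitePlace L → ℝ) × (Adf L)ˣ

/-- The point above `0` with the given logarithms of heights. -/
def ptAt (τ : InfinitePlace L → ℝ) : XInf L := fun w => ⟨0, Real.exp (τ w), Real.exp_pos _⟩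

omit [NumberField L] in
theorem logHt_ptAt (τ : InfinitePlace L → ℝ) : logHt (ptAt τ) = τ :=
  funext fun _ => Real.log_exp _

omit [NumberField L] in
theorem measurable_ptAt : Measurable (ptAt (L := L)) :=
  measurable_pi_iff.mpr fun w => measurable_comap_iff.mpr
    (measurable_const.prodMk (Real.measurable_exp.comp (measurable_pi_apply w)))

/-- A function of the heights and the cosets of `diag (A, 1) k`. -/
def scaleFun (k : GL (Fin 2) (IntAd L)) (f : YSpace 𝔫 → ℂ) (z : ScaleGrp L) : ℂ :=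
  f (ptAt z.1.toAdd, cosetAt 𝔫 k z.2)

/-- The group algebra element of the Hecke operator. -/
def heckeElt (v : HeightOneSpectrum (𝓞 L)) : MonoidAlgebra ℂ (ScaleGrp L) :=
  MonoidAlgebra.single (1, piIdele v) (Ideal.absNorm v.asIdeal : ℂ) +
    MonoidAlgebra.single (1, (piIdele v)⁻¹) 1

/-- The part at infinity. -/
def infPart : MonoidAlgebra ℂ (Multiplicative (InfinitePlace L → ℝ)) →ₐ[ℂ]
    MonoidAlgebra ℂ (ScaleGrp L) :=
  MonoidAlgebra.mapDomainAlgHom ℂ ℂ (MonoidHom.inl _ _)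

theorem transAlg_infPart (r : MonoidAlgebra ℂ (Multiplicative (InfinitePlace L → ℝ)))
    (F : ScaleGrp L → ℂ) (τ : InfinitePlace L → ℝ) (A : (Adf L)ˣ) :
    transAlg (ScaleGrp L) (infPart r) F (ofAdd τ, A) = shiftOp r (fun s => F (ofAdd s, A)) τ := by
  induction r using shiftOp_induction with
  | h0 => simp [shiftOp_zero]
  | hadd r s hr hs => rw [map_add, transAlg_add, shiftOp_add, hr, hs]
  | hsingle e c =>
    rw [infPart, MonoidAlgebra.mapDomainAlgHom_apply, MonoidAlgebra.mapDomain_single, transAlg_single,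
      shiftOp_single]
    simp [ofAdd_add]

theorem isCosetOp_heckeWord (h𝔫 : 𝔫 ≠ ⊥) : ∀ {l : List (HeightOneSpectrum (𝓞 L))},
    (∀ v ∈ l, ¬ 𝔫 ≤ v.asIdeal) → IsCosetOp (heckeWord 𝔫 l)
  | [], _ => isCosetOp_one
  | v :: _, hl => (isCosetOp_heckeOp h𝔫 (hl v List.mem_cons_self)).mul
      (isCosetOp_heckeWord h𝔫 fun w hw => hl w (List.mem_cons_of_mem _ hw))

theorem heckeWord_scaleFun (h𝔫 : 𝔫 ≠ ⊥) (k : GL (Fin 2) (IntAd L)) (f : YSpace 𝔫 → ℂ)
    (hf : ∀ x, UniInv fun p => f (x, p)) : ∀ {l : List (HeightOneSpectrum (𝓞 L))},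
    (∀ v ∈ l, ¬ 𝔫 ≤ v.asIdeal ∧
      ∀ i j, k i j v = (1 : Matrix (Fin 2) (Fin 2) (IntAd L)) i j v) →
    ∀ (τ : InfinitePlace L → ℝ) (A : (Adf L)ˣ),
      heckeWord 𝔫 l (fun p => f (ptAt τ, p)) (cosetAt 𝔫 k A) =
        transAlg (ScaleGrp L) (l.map heckeElt).prod (scaleFun k f) (ofAdd τ, A)
  | [], _, τ, A => by
    simp only [heckeWord, List.map_nil, List.prod_nil, transAlg_one]
    rfl
  | v :: l, hl, τ, A => by
    have hl' := fun w hw => hl w (List.mem_cons_of_mem v hw)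
    have hg : UniInv (heckeWord 𝔫 l fun p => f (ptAt τ, p)) :=
      UniInv.apply_op (isCosetOp_heckeWord h𝔫 fun w hw => (hl' w hw).1) (hf _)
    change heckeOp 𝔫 v (heckeWord 𝔫 l fun p => f (ptAt τ, p)) (cosetAt 𝔫 k A) = _
    rw [heckeOp_cosetAt v h𝔫 (hl v List.mem_cons_self).1 hg (hl v List.mem_cons_self).2,
      heckeWord_scaleFun h𝔫 k f hf hl', heckeWord_scaleFun h𝔫 k f hf hl', List.map_cons,
      List.prod_cons, transAlg_mul, heckeElt, transAlg_add, transAlg_single, transAlg_single,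
      one_mul, Prod.mk_mul_mk, Prod.mk_mul_mk, mul_one]

/-- Three places and three slots with a trivial product. -/
structure SlotData (𝔫 : Ideal (𝓞 L)) where
  /-- the slots at infinity -/
  slot : Fin 3 → InfinitePlace L
  /-- the places -/
  v : Fin 3 → HeightOneSpectrum (𝓞 L)
  /-- the prime -/
  p : ℕ
  one_lt : 1 < p
  good : ∀ i, ¬ 𝔫 ≤ (v i).asIdeal
  norm : ∀ i, Ideal.absNorm (v i).asIdeal = p ^ 2
  /-- the rational scalar -/
  k : ℤ
  γ : Lˣ
  γ_eq : (γ : L) = k
  log_k : ∀ u, (∑ i, (Pi.single (slot i) (Real.log p) : InfinitePlace L → ℝ) u) = Real.log |(k : ℝ)|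
  unit : ∃ e : HeightOneSpectrum (𝓞 L) → ℕ, IsLevelExp 𝔫 e ∧ ∃ u : (Adf L)ˣ,
    ∏ i, piIdele (v i) = Units.map (algebraMap L (Adf L)).toMonoidHom γ * u ∧
    (u : Adf L) - 1 ∈ smallAdeles e ∧ ((u⁻¹ : (Adf L)ˣ) : Adf L) - 1 ∈ smallAdeles e

namespace SlotData

variable (Z : SlotData 𝔫)

/-- The translations. -/
def gen : Slot → ScaleGrp L :=
  Sum.elim (fun i => (ofAdd (Pi.single (Z.slot i) (Real.log Z.p)), 1))
    (fun i => (1, piIdele (Z.v i)))

/-- The weights. -/
def wt : Slot → ℂ :=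
  Sum.elim (fun _ => (Real.exp (-Real.log Z.p) : ℂ)) (fun _ => (Z.p : ℂ))

theorem p_ne_zero : (Z.p : ℂ) ≠ 0 := Nat.cast_ne_zero.mpr (by have := Z.one_lt; omega)

theorem exp_neg_log : ((Real.exp (-Real.log Z.p) : ℝ) : ℂ) = (Z.p : ℂ)⁻¹ := by
  rw [Real.exp_neg, Real.exp_log (by have := Z.one_lt; positivity), Complex.ofReal_inv,
    Complex.ofReal_natCast]

theorem prod_wt : ∏ k, Z.wt k = 1 := by
  simp only [Fintype.prod_sum_type, wt, Sum.elim_inl, Sum.elim_inr, Z.exp_neg_log,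
    Finset.prod_const, Finset.card_univ, ← mul_pow, inv_mul_cancel₀ Z.p_ne_zero, one_pow]

/-- The word of a monomial. -/
def word (d : Slot →₀ ℕ) : List (HeightOneSpectrum (𝓞 L)) :=
  ((List.finRange 3).map fun i => List.replicate (d (Sum.inr i)) (Z.v i)).flatten

theorem mem_word {d : Slot →₀ ℕ} {w : HeightOneSpectrum (𝓞 L)} (h : w ∈ Z.word d) :
    ∃ i, w = Z.v i := by
  simp only [word, List.mem_flatten, List.mem_map] at h
  obtain ⟨l, ⟨i, -, rfl⟩, hw⟩ := h
  exact ⟨i, List.eq_of_mem_replicate hw⟩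

theorem prod_heckeElt (d : Slot →₀ ℕ) : ((Z.word d).map heckeElt).prod =
    ∏ i, (algebraMap ℂ (MonoidAlgebra ℂ (ScaleGrp L)) Z.p *
      symElt (Z.gen (Sum.inr i)) (Z.wt (Sum.inr i))) ^ d (Sum.inr i) := by
  rw [word, List.map_flatten, List.prod_flatten, List.map_map, List.map_map, Fin.prod_univ_def]
  refine congrArg List.prod (List.map_congr_left fun i _ => ?_)
  simp only [Function.comp_apply, List.map_replicate, List.prod_replicate]
  congr 1
  simp only [heckeElt, symElt, gen, wt, Sum.elim_inr, mul_add, MonoidAlgebra.coe_algebraMap,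
    Function.comp_apply, Algebra.algebraMap_self, RingHom.id_apply,
    MonoidAlgebra.single_mul_single, one_mul, Prod.inv_mk, inv_one]
  rw [mul_inv_cancel₀ Z.p_ne_zero, Z.norm i, Nat.cast_pow, pow_two]

/-- The monomial at one slot. -/
def slotMon (d : Slot →₀ ℕ) (u : InfinitePlace L) : MonoidAlgebra ℂ (Multiplicative ℝ) :=
  ∏ i ∈ Finset.univ.filter (fun i => Z.slot i = u),
    symElt (ofAdd (Real.log Z.p)) (Real.exp (-Real.log Z.p) : ℂ) ^ d (Sum.inl i)

theorem prod_slotMon (d : Slot →₀ ℕ) :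
    infPart (∏ u, slotElt u (Z.slotMon d u)) =
      ∏ i, symElt (Z.gen (Sum.inl i)) (Z.wt (Sum.inl i)) ^ d (Sum.inl i) := by
  simp only [map_prod, slotMon]
  rw [← Finset.prod_fiberwise Finset.univ Z.slot]
  refine Finset.prod_congr rfl fun u _ => ?_
  refine Finset.prod_congr (by congr!) fun i hi => ?_
  rw [map_pow, map_pow]
  congr 1
  simp only [Finset.mem_filter] at hi
  simp only [symElt, map_add, infPart, slotElt, MonoidAlgebra.mapDomainAlgHom_apply,
    MonoidAlgebra.mapDomain_single, gen, wt, Sum.elim_inl, MonoidHom.inl_apply, hi.2,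
    Prod.inv_mk, inv_one, map_inv]
  rfl

/-- The coefficient of a monomial. -/
def coef (d : Slot →₀ ℕ) : ℝ :=
  ((MvPolynomial.coeff d relPoly : ℤ) : ℝ) / (Z.p : ℝ) ^ (∑ i, d (Sum.inr i))

variable [h𝔫 : Fact (𝔫 ≠ ⊥)] [IsTotallyComplex L]

theorem scaleFun_invariant {H : YSpace 𝔫 → ℂ} (hH : IsAdmissible H)
    (k : GL (Fin 2) (IntAd L)) (z : ScaleGrp L) :
    scaleFun k (constTerm H) (z * ∏ s, Z.gen s) = scaleFun k (constTerm H) z := by
  classical
  obtain ⟨e, he, u, hu, hu1, hu2⟩ := Z.unit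
  obtain ⟨m, A⟩ := z
  set γA := Units.map (algebraMap L (Adf L)).toMonoidHom Z.γ
  have h2 : ((m, A) * ∏ s, Z.gen s : ScaleGrp L) =
      (m * ∏ i, ofAdd (Pi.single (Z.slot i) (Real.log Z.p)), γA * A * u) := by
    simp only [Fintype.prod_sum_type, gen, Sum.elim_inl, Sum.elim_inr]
    refine Prod.ext ?_ ?_
    · simp [Prod.fst_prod]
    · simp [Prod.snd_prod, hu, γA, mul_comm, mul_left_comm]
  rw [h2]
  simp only [scaleFun, cosetAt_mul_unit he hu1 hu2]
  have hq : cosetAt 𝔫 k (γA * A) = rationalMat (upperTri Z.γ 0 1) • cosetAt 𝔫 k A := by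
    change _ = ((rationalMat (upperTri Z.γ 0 1) * (upperTri A 0 1 * intMat k) : GAf L) : Cosets 𝔫)
    rw [rationalMat_upperTri, map_zero, map_one, ← mul_assoc, upperTri_mul_upperTri]
    simp [cosetAt, γA]
  rw [hq, ← constTerm_diag hH Z.γ Z.γ_eq (ptAt m.toAdd) (cosetAt 𝔫 k A)]
  refine constTerm_congr_height hH (fun w => ?_) _
  have hk : (Z.k : ℝ) ≠ 0 := fun h0 => Z.γ.ne_zero (by
    rw [Z.γ_eq, Int.cast_eq_zero.mp h0, Int.cast_zero])
  rw [(infAct_diag Z.γ (ptAt m.toAdd) w).2, Z.γ_eq, map_intCast, Complex.norm_intCast]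
  simp only [ptAt, toAdd_mul, toAdd_prod, toAdd_ofAdd, Pi.add_apply, Finset.sum_apply]
  rw [Real.exp_add, Z.log_k w, Real.exp_log (abs_pos.mpr hk), mul_comm]

/-- The value of one term at a representative. -/
def termFun (H : YSpace 𝔫 → ℂ) (d : Slot →₀ ℕ) (q : Cosets 𝔫) (τ : InfinitePlace L → ℝ) : ℂ :=
  heckeWord 𝔫 (Z.word d) (fun p => constTerm H (ptAt τ, p)) q

omit [IsTotallyComplex L] in
theorem measurable_termFun {H : YSpace 𝔫 → ℂ} (hH : IsAdmissible H) (d : Slot →₀ ℕ)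
    (q : Cosets 𝔫) : Measurable (Z.termFun H d q) := by
  have hc := isCosetOp_heckeWord h𝔫.out (l := Z.word d) fun w hw => by
    obtain ⟨i, rfl⟩ := Z.mem_word hw
    exact Z.good i
  exact (measurable_applyT hc (measurable_constTerm hH.measurable) q).comp measurable_ptAt

omit [IsTotallyComplex L] in
theorem boxBdd_termFun {H : YSpace 𝔫 → ℂ} (hH : IsAdmissible H) (d : Slot →₀ ℕ)
    (q : Cosets 𝔫) (M : ℝ) : ∃ C, ∀ τ, (∀ u, |τ u| ≤ M) → ‖Z.termFun H d q τ‖ ≤ C := by
  have hc := isCosetOp_heckeWord h𝔫.out (l := Z.word d) fun w hw => by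
    obtain ⟨i, rfl⟩ := Z.mem_word hw
    exact Z.good i
  obtain ⟨C, hC⟩ := constTerm_slab hH (lo := Real.exp (-M)) (hi := Real.exp M) (Real.exp_pos _)
    (hc.row q)
  refine ⟨(∑ b ∈ (hc.row q).toFinset, ‖finKer (heckeWord 𝔫 (Z.word d)) q b‖) * C, fun τ hτ =>
    norm_apply_op_le hc fun b hb => hC _ (fun u => ?_) b ((Finite.mem_toFinset _).mp hb)⟩
  refine logHt_bounds (x := ptAt τ) (fun u => ?_) u
  rw [logHt_ptAt]
  exact hτ u

theorem sum_shift_termFun {H : YSpace 𝔫 → ℂ} (hH : IsAdmissible H)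
    (q : Cosets 𝔫) (τ : InfinitePlace L → ℝ) :
    ∑ d ∈ relPoly.support, (Z.coef d : ℂ) *
      shiftOp (∏ u, slotElt u (Z.slotMon d u)) (Z.termFun H d q) τ = 0 := by
  classical
  obtain ⟨k, A, B, hk, rfl⟩ := exists_good_rep h𝔫.out (s := Finset.univ.image Z.v) (fun v hv => by
    obtain ⟨i, -, rfl⟩ := Finset.mem_image.mp hv
    exact Z.good i) q
  have hword : ∀ d, ∀ v ∈ Z.word d, ¬ 𝔫 ≤ v.asIdeal ∧
      ∀ i j, k i j v = (1 : Matrix (Fin 2) (Fin 2) (IntAd L)) i j v := fun d v hv => by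
    obtain ⟨i, rfl⟩ := Z.mem_word hv
    exact ⟨Z.good i, hk _ (Finset.mem_image_of_mem _ (Finset.mem_univ i))⟩
  have huni : ∀ x, UniInv fun p => constTerm H (x, p) := fun x β p => constTerm_uni hH β x p
  have hval : ∀ d, (Z.termFun H d ((upperTri A B 1 * intMat k : GAf L) : Cosets 𝔫)) =
      fun s => transAlg (ScaleGrp L) ((Z.word d).map heckeElt).prod
        (scaleFun k (constTerm H)) (ofAdd s, A) := fun d => funext fun s => by
    rw [termFun, UniInv.apply_upperTri h𝔫.out ((huni _).apply_op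
      (isCosetOp_heckeWord h𝔫.out fun v hv => (hword d v hv).1)),
      heckeWord_scaleFun h𝔫.out k (constTerm H) huni (hword d)]
  refine Eq.trans (Finset.sum_congr rfl fun d _ => ?_)
    (sum_transAlg_monElt Z.gen Z.wt Z.prod_wt (scaleFun k (constTerm H))
      (Z.scaleFun_invariant hH k) (ofAdd τ, A))
  rw [hval d, ← transAlg_infPart, ← transAlg_mul, Z.prod_slotMon d, Z.prod_heckeElt d]
  have e : monElt Z.gen Z.wt d =
      (∏ i, symElt (Z.gen (Sum.inl i)) (Z.wt (Sum.inl i)) ^ d (Sum.inl i)) *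
        ∏ i, symElt (Z.gen (Sum.inr i)) (Z.wt (Sum.inr i)) ^ d (Sum.inr i) :=
    Fintype.prod_sum_type _
  simp only [mul_pow, Finset.prod_mul_distrib, Finset.prod_pow_eq_pow_sum]
  rw [← map_pow]
  rw [mul_left_comm, ← e, ← Algebra.smul_def, map_smul, LinearMap.smul_apply, Pi.smul_apply,
    smul_eq_mul, ← mul_assoc]
  congr 1
  rw [coef, Complex.ofReal_div, Complex.ofReal_pow, Complex.ofReal_intCast, Complex.ofReal_natCast,
    div_mul_cancel₀ _ (pow_ne_zero _ Z.p_ne_zero)]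

/-- **The constant terms vanish.** -/
theorem sum_constTerm_eq_zero {h : (Slot →₀ ℕ) → InfinitePlace L → H3 → H3 → ℂ}
    {h₀ : InfinitePlace L → H3 → H3 → ℂ} (hh : ∀ d u, H3.IsInvKer (h d u))
    (hh0 : ∀ u, H3.IsInvKer (h₀ u))
    (acts : ∀ d ∈ relPoly.support, ∀ u, ActsAs (h d u) (h₀ u) (Z.slotMon d u))
    {Lop : Module.End ℂ (Cosets 𝔫 → ℂ)} (hL : IsCosetOp Lop) {H : YSpace 𝔫 → ℂ}
    (hH : IsAdmissible H) (y : YSpace 𝔫) :
    ∑ d ∈ relPoly.support, (Z.coef d : ℂ) *
      constTerm (yOp (yKer (h d) (Lop * heckeWord 𝔫 (Z.word d))) H) y = 0 := by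
  classical
  obtain ⟨x, q⟩ := y
  set μ := Measure.pi fun _ : InfinitePlace L => H3.vol
  have hc : ∀ d, IsCosetOp (heckeWord 𝔫 (Z.word d)) := fun d =>
    isCosetOp_heckeWord h𝔫.out fun w hw => by
      obtain ⟨i, rfl⟩ := Z.mem_word hw
      exact Z.good i
  have hflat : ∀ u d b, heckeWord 𝔫 (Z.word d) (fun p => constTerm H (u, p)) b =
      Z.termFun H d b (logHt u) := fun u d b => by
    rw [termFun]
    refine congrArg (fun g => heckeWord 𝔫 (Z.word d) g b) (funext fun p => ?_)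
    exact constTerm_congr_height hH (fun w => (Real.exp_log (u w).t_pos).symm) p
  have hint : ∀ (g : InfinitePlace L → H3 → H3 → ℂ), (∀ u, H3.IsInvKer (g u)) →
      ∀ φ : (InfinitePlace L → ℝ) → ℂ, Measurable φ →
      (∀ M : ℝ, ∃ C, ∀ s, (∀ u, |s u| ≤ M) → ‖φ s‖ ≤ C) →
      Integrable (fun u => prodKer g x u * φ (logHt u)) μ := fun g hg φ hφ hb => by
    obtain ⟨R, hR⟩ := exists_logHt_supp hg
    obtain ⟨C, hC⟩ := hb ((∑ w, |logHt x w|) + R)
    refine ((integrable_prodKer hg x).norm.mul_const (max C 0)).mono'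
      (((measurable_prodKer hg).comp measurable_prodMk_left).mul
        (hφ.comp measurable_logHt)).aestronglyMeasurable (Eventually.of_forall fun u => ?_)
    rw [norm_mul]
    by_cases h1 : prodKer g x u = 0
    · simp [h1]
    refine mul_le_mul_of_nonneg_left ((hC _ fun w => ?_).trans (le_max_left _ _)) (norm_nonneg _)
    calc |logHt u w| = |logHt x w + (logHt u w - logHt x w)| := by rw [add_sub_cancel]
      _ ≤ _ := (abs_add_le _ _).trans (add_le_add
        (Finset.single_le_sum (f := fun w => |logHt x w|) (fun _ _ => abs_nonneg _)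
          (Finset.mem_univ w)) (hR x u h1 w))
  set s := (hL.row q).toFinset
  have h1 : ∀ d ∈ relPoly.support,
      constTerm (yOp (yKer (h d) (Lop * heckeWord 𝔫 (Z.word d))) H) (x, q) =
        ∑ b ∈ s, finKer Lop q b * ∫ u, prodKer h₀ x u *
          shiftOp (∏ w, slotElt w (Z.slotMon d w)) (Z.termFun H d b) (logHt u) ∂μ := fun d hd => by
    rw [constTerm_yOp (hh d) (hL.mul (hc d)) hH]
    simp only [Module.End.mul_apply, apply_op_eq_sum hL, hflat, Finset.mul_sum,
      mul_left_comm (prodKer (h d) x _)]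
    rw [integral_finsetSum _ fun b _ => (hint (h d) (hh d) _ (Z.measurable_termFun hH d b)
      (Z.boxBdd_termFun hH d b)).const_mul _]
    refine Finset.sum_congr rfl fun b _ => ?_
    rw [integral_const_mul]
    exact congrArg _ (integral_prod_acts_loc (hh d) hh0 (acts d hd) (Z.measurable_termFun hH d b)
      (Z.boxBdd_termFun hH d b) x)
  rw [Finset.sum_congr rfl fun d hd => by rw [h1 d hd, Finset.mul_sum], Finset.sum_comm]
  refine Finset.sum_eq_zero fun b _ => ?_
  simp only [mul_left_comm ((Z.coef _ : ℝ) : ℂ) (finKer Lop q b)]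
  rw [← Finset.mul_sum]
  refine mul_eq_zero_of_right _ ?_
  simp only [← integral_const_mul, mul_left_comm ((Z.coef _ : ℝ) : ℂ) (prodKer h₀ x _)]
  rw [← integral_finsetSum]
  · refine integral_eq_zero_of_ae (Eventually.of_forall fun u => ?_)
    simp only [← Finset.mul_sum, Z.sum_shift_termFun hH b, mul_zero, Pi.zero_apply]
  · intro d _
    refine hint h₀ hh0 (fun τ => (Z.coef d : ℂ) *
      shiftOp (∏ w, slotElt w (Z.slotMon d w)) (Z.termFun H d b) τ)
      ((measurable_shiftOp _ (Z.measurable_termFun hH d b)).const_mul _)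
      fun M => by
        obtain ⟨C, hC⟩ := exists_bound_shiftOp_loc (∏ w, slotElt w (Z.slotMon d w))
          (Z.boxBdd_termFun hH d b) M
        exact ⟨‖(Z.coef d : ℂ)‖ * C, fun s hs => by
          rw [norm_mul]; exact mul_le_mul_of_nonneg_left (hC s hs) (norm_nonneg _)⟩

end SlotData

end FermatAgent.LTG

end
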